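import Mathlib
import Fermat.Prelude.Def_FLTPrelim_Ramification

/-!
# ES-D-A3, part 1: the residue field of a valuation ring of an algebraically closed field

* `isAlgClosed_residueField`: the residue field of a valuation subring of an algebraically closed
  field is algebraically closed.
* `charP_residueField_of_liesOverPrime`: if `A` lies over the prime `ℓ`, the residue field has
  characteristic `ℓ`.
-/

set_option autoImplicit false

open Polynomial

namespace Fermat.Agent.H89

/-- The residue field of a valuation subring of an algebraically closed field is algebraically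
closed: lift a monic polynomial, take a root upstairs; it is integral over `A`, hence in `A`. -/
theorem isAlgClosed_residueField {L : Type*} [Field L] [IsAlgClosed L] (A : ValuationSubring L) :
    IsAlgClosed (IsLocalRing.ResidueField A) := by
  refine IsAlgClosed.of_exists_root _ ?_
  intro p hpm hpirr
  obtain ⟨P, hPmap, hPdeg, hPm⟩ := Polynomial.lifts_and_degree_eq_and_monic
    (f := IsLocalRing.residue A) (p := p)
    ((Polynomial.mem_lifts p).mpr
      (Polynomial.map_surjective _ IsLocalRing.residue_surjective p)) hpm
  have hdeg : (P.map (algebraMap A L)).degree ≠ 0 := by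
    rw [Polynomial.degree_map_eq_of_injective (FaithfulSMul.algebraMap_injective A L), hPdeg]
    exact Polynomial.degree_pos_of_irreducible hpirr |>.ne'
  obtain ⟨z, hz⟩ := IsAlgClosed.exists_root (P.map (algebraMap A L)) hdeg
  have hzint : IsIntegral A z := by
    refine ⟨P, hPm, ?_⟩
    rw [← Polynomial.eval_map]
    exact hz
  obtain ⟨y, rfl⟩ := IsIntegrallyClosed.isIntegral_iff.mp hzint
  have hy : P.eval y = 0 := by
    apply FaithfulSMul.algebraMap_injective A L
    rw [map_zero, ← Polynomial.eval₂_at_apply, ← Polynomial.eval_map]
    exact hz
  refine ⟨IsLocalRing.residue A y, ?_⟩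
  rw [← hPmap, Polynomial.eval_map, Polynomial.eval₂_at_apply, hy, map_zero]

/-- If the valuation subring `A` lies over the prime `ℓ`, its residue field has
characteristic `ℓ`. -/
theorem charP_residueField_of_liesOverPrime {L : Type*} [Field L] (A : ValuationSubring L)
    (ℓ : ℕ) [Fact ℓ.Prime] (hA : A.LiesOverPrime ℓ) :
    CharP (IsLocalRing.ResidueField A) ℓ := by
  rw [CharP.charP_iff_prime_eq_zero (Fact.out : ℓ.Prime)]
  have hnu : ((ℓ : A)) ∈ IsLocalRing.maximalIdeal A := by
    have := hA
    rw [ValuationSubring.LiesOverPrime, ValuationSubring.mem_nonunits_iff_exists_mem_maximalIdeal]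
      at this
    obtain ⟨h1, h2⟩ := this
    have he : (⟨(ℓ : L), h1⟩ : A) = (ℓ : A) := Subtype.ext (by simp)
    rw [← he]
    exact h2
  have := (IsLocalRing.residue_eq_zero_iff (ℓ : A)).mpr hnu
  rw [map_natCast] at this
  exact this

end Fermat.Agent.H89
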