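import Mathlib
import Fermat.Prelude.Def_ModularCurve_X0ModL
import Fermat.Agent.H27.Igusa.Chain

/-!
# ES-D-A3, part 3: `k(j(q^d) : d ∣ N)` is finite over `k(j)` when `N` is invertible in `k`

Every `j(q^{dp})` is a root of the monic polynomial `Φ_p(j(q^d), Y)` (formal Hecke data), hence
integral over `k(j(q^d))`; induction over the prime factorisation of `d`.

* `hecke_Φ_eval_jLev`: `Φ_p(j(q^d), j(q^{dp})) = 0`.
* `isIntegral_jLev`: `j(q^d)` is integral over any ring over which `j` is integral.
* `finiteDimensional_fullC`: `F_k` is finite over `k(x)`, `x = j` (inside `F_k`).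
-/

set_option autoImplicit false
set_option synthInstance.maxHeartbeats 400000
set_option linter.style.haveILetI false

noncomputable section

open ModularCurve Polynomial Fermat.Agent.H27

namespace Fermat.Agent.H89

section Integral

variable {k : Type*} [Field k]

/-- The modular equation at level one: `Φ_p(j(q), j(q^p)) = 0`. -/
theorem hecke_Φ_eval_jq (p : ℕ) [NeZero p] (ζ : kˣ) (D : HeckeDataOver p k ζ) :
    (D.Φ.map (evalAt (jqModC k))).eval (qExpand k p (jqModC k)) = 0 := by
  apply qExpand_injective (R := k) p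
  rw [map_zero, map_eval_map]
  have h := congrArg (Polynomial.eval (rootInf k p)) D.Φ_factor
  rw [Polynomial.eval_mul, Polynomial.eval_sub, Polynomial.eval_X, Polynomial.eval_C, sub_self,
    zero_mul] at h
  exact h

/-- The modular equation at level `d`: `Φ_p(j(q^d), j(q^{dp})) = 0`. -/
theorem hecke_Φ_eval_jLev (p : ℕ) [NeZero p] (ζ : kˣ) (D : HeckeDataOver p k ζ) (d : ℕ)
    (hd : d ≠ 0) : (D.Φ.map (evalAtR (jLev k d))).eval (jLev k (d * p)) = 0 := by
  haveI : NeZero d := ⟨hd⟩
  haveI : NeZero (d * p) := ⟨Nat.mul_ne_zero hd (NeZero.ne p)⟩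
  have h := congrArg (qExpand k d) (hecke_Φ_eval_jq p ζ D)
  rw [map_zero, map_eval_map, qExpand_qExpand] at h
  rw [jLev_eq, jLev_eq]
  exact h

theorem isIntegral_jLev_mul {A : Type*} [CommRing A] [Algebra A (LaurentSeries k)] (p : ℕ)
    [NeZero p] (ζ : kˣ) (D : HeckeDataOver p k ζ) (d : ℕ) (hd : d ≠ 0) (a : A)
    (ha : algebraMap A (LaurentSeries k) a = jLev k d) :
    IsIntegral A (jLev k (d * p)) := by
  refine ⟨D.Φ.map (evalAtR a), D.Φ_monic.map _, ?_⟩
  rw [Polynomial.eval₂_map, evalAtR_comp, ha, ← Polynomial.eval_map]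
  exact hecke_Φ_eval_jLev p ζ D d hd

theorem exists_primitive_root_unit' (k : Type*) [Field k] [IsAlgClosed k] (p : ℕ)
    (hpk : (p : k) ≠ 0) : ∃ ζ : kˣ, IsPrimitiveRoot (ζ : k) p := by
  have : NeZero (p : k) := ⟨hpk⟩
  obtain ⟨ζ, hζ⟩ := HasEnoughRootsOfUnity.exists_primitiveRoot k p
  have hp0 : p ≠ 0 := by
    rintro rfl
    exact hpk (by simp)
  exact ⟨(hζ.isUnit hp0).unit, by simpa using hζ⟩

/-- `j(q^d)` is integral over every ring over which `j` is integral, for `d` invertible in the
algebraically closed field `k`. -/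
theorem isIntegral_jLev {R : Type*} [CommRing R] [Algebra R (LaurentSeries k)] [IsAlgClosed k]
    (hM : HasHeckeData k) (hj : IsIntegral R (jqModC k)) :
    ∀ d : ℕ, (d : k) ≠ 0 → IsIntegral R (jLev k d) := by
  intro d
  induction d using induction_on_primes with
  | zero =>
    intro h
    exact absurd (by simp) h
  | one =>
    intro _
    rw [jLev_one]
    exact hj
  | prime_mul p a hp ih =>
    intro hpa
    rw [Nat.cast_mul] at hpa
    have hpk : (p : k) ≠ 0 := left_ne_zero_of_mul hpa
    have hak : (a : k) ≠ 0 := right_ne_zero_of_mul hpa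
    have ha0 : a ≠ 0 := by
      rintro rfl
      exact hak (by simp)
    haveI : NeZero p := ⟨hp.ne_zero⟩
    obtain ⟨ζ, hζ⟩ := exists_primitive_root_unit' k p hpk
    obtain ⟨D⟩ := hM p hp ζ hζ
    have hint := ih hak
    have h1 : IsIntegral (integralClosure R (LaurentSeries k)) (jLev k (a * p)) :=
      isIntegral_jLev_mul p ζ D a ha0 ⟨jLev k a, hint⟩ rfl
    rw [mul_comm]
    exact isIntegral_trans _ h1

end Integral

section Finite

variable (k : Type) [Field k] (N : ℕ) [NeZero N]

theorem finite_divisorExpansionsC : (divisorExpansionsC k N).Finite := by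
  refine Set.Finite.subset ((N.divisors : Set ℕ).toFinite.image (jLev k)) ?_
  rintro x ⟨d, hd, hdvd, rfl⟩
  refine ⟨d, ?_, ?_⟩
  · exact Finset.mem_coe.mpr (Nat.mem_divisors.mpr ⟨hdvd, NeZero.ne N⟩)
  · haveI := hd
    exact jLev_eq k d

/-- `F_k = k(j(q^d) : d ∣ N)` is finite over `k(x)`, `x = j`, the field `k(x)` taken inside
`F_k`. -/
theorem finiteDimensional_fullC [IsAlgClosed k] (hM : HasHeckeData k) (hN : (N : k) ≠ 0) :
    FiniteDimensional
      ↥(IntermediateField.adjoin k
        {(⟨jqModC k, jqModC_mem_full k N⟩ : ↥(modularFunctionFieldFullC k N))})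
      ↥(modularFunctionFieldFullC k N) := by
  set F := modularFunctionFieldFullC k N with hF
  set x : ↥F := ⟨jqModC k, jqModC_mem_full k N⟩ with hx
  set K₁ := IntermediateField.adjoin k {x} with hK₁
  let S' : Set ↥F := Subtype.val ⁻¹' (divisorExpansionsC k N)
  have hS'fin : S'.Finite :=
    (finite_divisorExpansionsC k N).preimage (Set.injOn_of_injective Subtype.val_injective)
  haveI : Finite ↥S' := hS'fin
  have himg : (Subtype.val '' S' : Set (LaurentSeries k)) = divisorExpansionsC k N := by
    ext y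
    constructor
    · rintro ⟨z, hz, rfl⟩
      exact hz
    · intro hy
      exact ⟨⟨y, IntermediateField.subset_adjoin k _ hy⟩, hy, rfl⟩
  have htop : IntermediateField.adjoin k S' = ⊤ := by
    apply IntermediateField.lift_injective F
    rw [IntermediateField.lift_adjoin, IntermediateField.lift_top, himg]
    rfl
  have htop' : IntermediateField.adjoin ↥K₁ S' = ⊤ :=
    IntermediateField.adjoin_eq_top_of_adjoin_eq_top k htop
  have hj : IsIntegral ↥K₁ (jqModC k) := by
    have : jqModC k = algebraMap ↥K₁ (LaurentSeries k)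
        ⟨x, IntermediateField.mem_adjoin_simple_self k x⟩ := rfl
    rw [this]
    exact isIntegral_algebraMap
  have hint : ∀ y ∈ S', IsIntegral ↥K₁ y := by
    intro y hy
    obtain ⟨d, hd, hdvd, hyd⟩ := hy
    haveI := hd
    have hdk : (d : k) ≠ 0 := by
      intro h0
      obtain ⟨e, rfl⟩ := hdvd
      apply hN
      rw [Nat.cast_mul, h0, zero_mul]
    have h1 := isIntegral_jLev (R := ↥K₁) hM hj d hdk
    rw [jLev_eq, ← hyd] at h1
    exact (isIntegral_algebraMap_iff
      (FaithfulSMul.algebraMap_injective ↥F (LaurentSeries k))).mp h1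
  have hfd := IntermediateField.finiteDimensional_adjoin (K := ↥K₁) hint
  rw [htop'] at hfd
  exact Module.Finite.equiv (IntermediateField.topEquiv (F := ↥K₁) (E := ↥F)).toLinearEquiv

end Finite

end Fermat.Agent.H89
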