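import Mathlib

/-!
# ES-D-A3, part 2: a separability criterion in characteristic `ℓ`

Let `K` be a field of characteristic `ℓ`, `x ∈ K` with `K = K^ℓ(x)` (every element of `K` is
`Σ_{r<ℓ} x^r b_r^ℓ`), and `F / K` a field extension in which `1, x, …, x^{ℓ-1}` are linearly
independent over `F^ℓ`.  Then every element of `F` which is algebraic over `K` is separable
over `K`.

* `isSeparable_of_pIndep`: the criterion.
* `exists_pDecomp_of_mem_adjoin`: `K = k(x)` with `k` perfect satisfies the spanning hypothesis.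
* `laurent_pIndep`: in `k((q))`, the powers `1, x, …, x^{ℓ-1}` of an element of order `-1` are
  linearly independent over the `ℓ`-th powers.
-/

set_option autoImplicit false

open Polynomial

namespace Fermat.Agent.H89

section Criterion

variable {K F : Type*} [Field K] [Field F] [Algebra K F]

/-- **Separability criterion.** -/
theorem isSeparable_of_pIndep (ℓ : ℕ) [Fact ℓ.Prime] [CharP K ℓ] (x : K)
    (hspan : ∀ a : K, ∃ b : ℕ → K, a = ∑ r ∈ Finset.range ℓ, x ^ r * (b r) ^ ℓ)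
    (hindep : ∀ c : ℕ → F,
      ∑ r ∈ Finset.range ℓ, (algebraMap K F x) ^ r * (c r) ^ ℓ = 0 → ∀ r < ℓ, c r = 0)
    (y : F) (hy : IsIntegral K y) : IsSeparable K y := by
  have hℓ : ℓ.Prime := Fact.out
  have : CharP F ℓ := charP_of_injective_algebraMap (algebraMap K F).injective ℓ
  have hirr := minpoly.irreducible hy
  rcases Polynomial.separable_or ℓ hirr with h | ⟨-, g, hg, hgm⟩
  · exact h
  exfalso
  choose b hb using hspan
  set n := g.natDegree with hn
  let G : ℕ → K[X] := fun r => ∑ i ∈ Finset.range (n + 1), C (b (g.coeff i) r) * X ^ i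
  have hGeval : ∀ r, aeval y (G r) =
      ∑ i ∈ Finset.range (n + 1), algebraMap K F (b (g.coeff i) r) * y ^ i := by
    intro r
    simp only [G, map_sum, map_mul, aeval_C, map_pow, aeval_X]
  have hsum : ∑ r ∈ Finset.range ℓ, (algebraMap K F x) ^ r * (aeval y (G r)) ^ ℓ = 0 := by
    have h1 : ∀ r, (aeval y (G r)) ^ ℓ =
        ∑ i ∈ Finset.range (n + 1), algebraMap K F ((b (g.coeff i) r) ^ ℓ) * (y ^ ℓ) ^ i := by
      intro r
      rw [hGeval, sum_pow_char]
      refine Finset.sum_congr rfl fun i _ => ?_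
      rw [mul_pow, map_pow, ← pow_mul, ← pow_mul, mul_comm i ℓ]
    calc ∑ r ∈ Finset.range ℓ, (algebraMap K F x) ^ r * (aeval y (G r)) ^ ℓ
        = ∑ r ∈ Finset.range ℓ, ∑ i ∈ Finset.range (n + 1),
            algebraMap K F (x ^ r * (b (g.coeff i) r) ^ ℓ) * (y ^ ℓ) ^ i := by
          refine Finset.sum_congr rfl fun r _ => ?_
          rw [h1, Finset.mul_sum]
          refine Finset.sum_congr rfl fun i _ => ?_
          rw [map_mul, map_pow, map_pow, mul_assoc]
      _ = ∑ i ∈ Finset.range (n + 1), algebraMap K F (g.coeff i) * (y ^ ℓ) ^ i := by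
          rw [Finset.sum_comm]
          refine Finset.sum_congr rfl fun i _ => ?_
          rw [← Finset.sum_mul, ← map_sum, ← hb]
      _ = aeval (y ^ ℓ) g := by
          rw [aeval_eq_sum_range]
          refine Finset.sum_congr rfl fun i _ => ?_
          rw [Algebra.smul_def]
      _ = aeval y (minpoly K y) := by rw [← hgm, expand_aeval]
      _ = 0 := minpoly.aeval K y
  have hG0 : ∀ r < ℓ, aeval y (G r) = 0 := hindep _ hsum
  have hgdeg : 0 < n := hg.natDegree_pos
  have hmdeg : (minpoly K y).natDegree = n * ℓ := by rw [← hgm, natDegree_expand]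
  have hGdeg : ∀ r, (G r).natDegree ≤ n := by
    intro r
    refine Polynomial.natDegree_sum_le_of_forall_le _ _ fun i hi => ?_
    refine (Polynomial.natDegree_C_mul_X_pow_le _ _).trans ?_
    exact Nat.lt_succ_iff.mp (Finset.mem_range.mp hi)
  have hGz : ∀ r < ℓ, G r = 0 := by
    intro r hr
    by_contra hne
    have h1 := Polynomial.natDegree_le_natDegree
      (minpoly.degree_le_of_ne_zero K y hne (hG0 r hr))
    rw [hmdeg] at h1
    have h2 := hGdeg r
    have h3 : n * 2 ≤ n * ℓ := Nat.mul_le_mul_left n hℓ.two_le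
    omega
  have hcoeff : ∀ r i, i ≤ n → (G r).coeff i = b (g.coeff i) r := by
    intro r i hi
    simp only [G, Polynomial.finsetSum_coeff, Polynomial.coeff_C_mul, Polynomial.coeff_X_pow]
    rw [Finset.sum_eq_single i]
    · simp
    · intro j _ hj
      simp [hj.symm]
    · intro h
      exact absurd (Finset.mem_range.mpr (Nat.lt_succ_of_le hi)) h
  have hg0 : ∀ i, g.coeff i = 0 := by
    intro i
    by_cases hi : i ≤ n
    · rw [hb (g.coeff i)]
      refine Finset.sum_eq_zero fun r hr => ?_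
      rw [← hcoeff r i hi, hGz r (Finset.mem_range.mp hr), Polynomial.coeff_zero,
        zero_pow hℓ.ne_zero, mul_zero]
    · exact Polynomial.coeff_eq_zero_of_natDegree_lt (not_le.mp hi)
  exact hg.ne_zero (Polynomial.ext hg0)

end Criterion

section Span

variable {k F : Type*} [Field k] [Field F] [Algebra k F]
variable (ℓ : ℕ) [Fact ℓ.Prime] [CharP F ℓ] (K : IntermediateField k F) (x : F)

/-- the set of all `Σ_{r<ℓ} x^r b_r^ℓ` with `b_r ∈ K` -/
def pSpan : Set F :=
  {a | ∃ b : ℕ → F, (∀ r, b r ∈ K) ∧ a = ∑ r ∈ Finset.range ℓ, x ^ r * (b r) ^ ℓ}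

omit [CharP F ℓ] in
theorem pSpan_zero : (0 : F) ∈ pSpan ℓ K x :=
  ⟨fun _ => 0, fun _ => K.zero_mem, by simp [zero_pow (Fact.out : ℓ.Prime).ne_zero]⟩

theorem pSpan_add {a a' : F} (ha : a ∈ pSpan ℓ K x) (ha' : a' ∈ pSpan ℓ K x) :
    a + a' ∈ pSpan ℓ K x := by
  obtain ⟨b, hb, rfl⟩ := ha
  obtain ⟨b', hb', rfl⟩ := ha'
  refine ⟨fun r => b r + b' r, fun r => K.add_mem (hb r) (hb' r), ?_⟩
  rw [← Finset.sum_add_distrib]
  refine Finset.sum_congr rfl fun r _ => ?_
  rw [add_pow_char, mul_add]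

omit [CharP F ℓ] [Fact ℓ.Prime] in
theorem pSpan_pow_mul {c a : F} (hc : c ∈ K) (ha : a ∈ pSpan ℓ K x) :
    c ^ ℓ * a ∈ pSpan ℓ K x := by
  obtain ⟨b, hb, rfl⟩ := ha
  refine ⟨fun r => c * b r, fun r => K.mul_mem hc (hb r), ?_⟩
  rw [Finset.mul_sum]
  refine Finset.sum_congr rfl fun r _ => ?_
  rw [mul_pow]
  ring

omit [CharP F ℓ] in
theorem pSpan_x_mul (hx : x ∈ K) {a : F} (ha : a ∈ pSpan ℓ K x) : x * a ∈ pSpan ℓ K x := by
  obtain ⟨b, hb, rfl⟩ := ha
  obtain ⟨m, hm⟩ : ∃ m, ℓ = m + 1 :=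
    ⟨ℓ - 1, by have := (Fact.out : ℓ.Prime).pos; omega⟩
  refine ⟨fun r => if r = 0 then x * b m else b (r - 1), fun r => ?_, ?_⟩
  · show (if r = 0 then x * b m else b (r - 1)) ∈ K
    split_ifs
    · exact K.mul_mem hx (hb m)
    · exact hb _
  · have hr : Finset.range ℓ = Finset.range (m + 1) := by rw [hm]
    have hxℓ : x ^ ℓ = x ^ m * x := by rw [← pow_succ, ← hm]
    rw [hr, Finset.sum_range_succ, Finset.sum_range_succ', mul_add, Finset.mul_sum]
    congr 1
    · refine Finset.sum_congr rfl fun r _ => ?_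
      simp only [Nat.add_eq_zero_iff, one_ne_zero, and_false, if_false, Nat.add_sub_cancel]
      ring
    · simp only [if_true, pow_zero, one_mul]
      rw [mul_pow, hxℓ]
      ring

omit [CharP F ℓ] in
theorem pSpan_x_pow_mul (hx : x ∈ K) (s : ℕ) {a : F} (ha : a ∈ pSpan ℓ K x) :
    x ^ s * a ∈ pSpan ℓ K x := by
  induction s with
  | zero => simpa using ha
  | succ s ih =>
    rw [pow_succ', mul_assoc]
    exact pSpan_x_mul ℓ K x hx ih

theorem pSpan_sum {ι : Type*} (s : Finset ι) (f : ι → F) (hf : ∀ i ∈ s, f i ∈ pSpan ℓ K x) :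
    ∑ i ∈ s, f i ∈ pSpan ℓ K x := by
  classical
  induction s using Finset.induction_on with
  | empty => simpa using pSpan_zero ℓ K x
  | insert i s hi ih =>
    rw [Finset.sum_insert hi]
    exact pSpan_add ℓ K x (hf i (Finset.mem_insert_self i s))
      (ih fun j hj => hf j (Finset.mem_insert_of_mem hj))

theorem pSpan_mul (hx : x ∈ K) {a a' : F} (ha : a ∈ pSpan ℓ K x) (ha' : a' ∈ pSpan ℓ K x) :
    a * a' ∈ pSpan ℓ K x := by
  obtain ⟨c, hc, rfl⟩ := ha'
  rw [Finset.mul_sum]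
  refine pSpan_sum ℓ K x _ _ fun s _ => ?_
  have h : a * (x ^ s * c s ^ ℓ) = c s ^ ℓ * (x ^ s * a) := by ring
  rw [h]
  exact pSpan_pow_mul ℓ K x (hc s) (pSpan_x_pow_mul ℓ K x hx s ha)

omit [CharP F ℓ] [Fact ℓ.Prime] in
theorem pSpan_le (hx : x ∈ K) {a : F} (ha : a ∈ pSpan ℓ K x) : a ∈ K := by
  obtain ⟨b, hb, rfl⟩ := ha
  exact K.sum_mem fun r _ => K.mul_mem (pow_mem hx r) (pow_mem (hb r) ℓ)

omit [CharP F ℓ] in
theorem pSpan_algebraMap (hk : ∀ a : k, ∃ b : k, b ^ ℓ = a) (c : k) :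
    algebraMap k F c ∈ pSpan ℓ K x := by
  obtain ⟨d, rfl⟩ := hk c
  refine ⟨fun r => if r = 0 then algebraMap k F d else 0, fun r => ?_, ?_⟩
  · show (if r = 0 then algebraMap k F d else 0) ∈ K
    split_ifs
    · exact K.algebraMap_mem d
    · exact K.zero_mem
  · rw [Finset.sum_eq_single 0]
    · simp
    · intro r _ hr
      simp [hr, zero_pow (Fact.out : ℓ.Prime).ne_zero]
    · intro h
      exact absurd (Finset.mem_range.mpr (Fact.out : ℓ.Prime).pos) h

omit [CharP F ℓ] in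
theorem pSpan_self : x ∈ pSpan ℓ K x := by
  refine ⟨fun r => if r = 1 then 1 else 0, fun r => ?_, ?_⟩
  · show (if r = 1 then (1 : F) else 0) ∈ K
    split_ifs
    · exact K.one_mem
    · exact K.zero_mem
  · rw [Finset.sum_eq_single 1]
    · simp
    · intro r _ hr
      simp [hr, zero_pow (Fact.out : ℓ.Prime).ne_zero]
    · intro h
      exact absurd (Finset.mem_range.mpr (Fact.out : ℓ.Prime).one_lt) h

theorem pSpan_pow (hk : ∀ a : k, ∃ b : k, b ^ ℓ = a) (hx : x ∈ K) {a : F}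
    (ha : a ∈ pSpan ℓ K x) (n : ℕ) : a ^ n ∈ pSpan ℓ K x := by
  induction n with
  | zero =>
    rw [pow_zero, ← map_one (algebraMap k F)]
    exact pSpan_algebraMap ℓ K x hk 1
  | succ n ih =>
    rw [pow_succ]
    exact pSpan_mul ℓ K x hx ih ha

theorem pSpan_inv (hk : ∀ a : k, ∃ b : k, b ^ ℓ = a) (hx : x ∈ K) {a : F}
    (ha : a ∈ pSpan ℓ K x) : a⁻¹ ∈ pSpan ℓ K x := by
  by_cases h0 : a = 0
  · rw [h0, inv_zero]
    exact pSpan_zero ℓ K x
  have hℓ : 0 < ℓ := (Fact.out : ℓ.Prime).pos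
  have h : a⁻¹ = (a⁻¹) ^ ℓ * a ^ (ℓ - 1) := by
    have h1 : a ^ ℓ = a ^ (ℓ - 1) * a := by rw [← pow_succ, Nat.sub_add_cancel hℓ]
    rw [inv_pow, h1]
    field_simp
  rw [h]
  exact pSpan_pow_mul ℓ K x (K.inv_mem (pSpan_le ℓ K x hx ha)) (pSpan_pow ℓ K x hk hx ha _)

/-- **Spanning.**  If `k` is perfect of characteristic `ℓ`, every element of `k(x)` is of the
form `Σ_{r<ℓ} x^r b_r^ℓ` with `b_r ∈ k(x)`. -/
theorem exists_pDecomp_of_mem_adjoin (hk : ∀ a : k, ∃ b : k, b ^ ℓ = a) {a : F}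
    (ha : a ∈ IntermediateField.adjoin k {x}) :
    ∃ b : ℕ → F, (∀ r, b r ∈ IntermediateField.adjoin k {x}) ∧
      a = ∑ r ∈ Finset.range ℓ, x ^ r * (b r) ^ ℓ := by
  have hx : x ∈ IntermediateField.adjoin k {x} := IntermediateField.mem_adjoin_simple_self k x
  refine IntermediateField.adjoin_induction k
    (p := fun a _ => a ∈ pSpan ℓ (IntermediateField.adjoin k {x}) x) ?_ ?_ ?_ ?_ ?_ ha
  · intro y hy
    rw [Set.mem_singleton_iff] at hy
    subst hy
    exact pSpan_self ℓ _ y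
  · intro c
    exact pSpan_algebraMap ℓ _ x hk c
  · intro a a' _ _ h1 h2
    exact pSpan_add ℓ _ x h1 h2
  · intro a _ h1
    exact pSpan_inv ℓ _ x hk hx h1
  · intro a a' _ _ h1 h2
    exact pSpan_mul ℓ _ x hx h1 h2

end Span

section Laurent

variable {k : Type*} [Field k]

/-- **Independence.**  In `k((q))`, if `x` has order `-1`, then `1, x, …, x^{ℓ-1}` are linearly
independent over the `ℓ`-th powers: the nonzero terms of `Σ_{r<ℓ} x^r c_r^ℓ` have pairwise
distinct orders (distinct modulo `ℓ`). -/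
theorem laurent_pIndep (ℓ : ℕ) [Fact ℓ.Prime] (x : LaurentSeries k) (hx : x.order = -1)
    (c : ℕ → LaurentSeries k) (h : ∑ r ∈ Finset.range ℓ, x ^ r * (c r) ^ ℓ = 0) :
    ∀ r < ℓ, c r = 0 := by
  classical
  have hℓ : ℓ.Prime := Fact.out
  have hx0 : x ≠ 0 := by
    intro h0
    rw [h0, HahnSeries.order_zero] at hx
    omega
  by_contra hcon
  obtain ⟨r₁, hcon⟩ := not_forall.mp hcon
  obtain ⟨hr₁, hc₁⟩ := Classical.not_imp.mp hcon
  set S := (Finset.range ℓ).filter (fun r => c r ≠ 0) with hS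
  have hSne : S.Nonempty := ⟨r₁, by simp [hS, hr₁, hc₁]⟩
  let t : ℕ → LaurentSeries k := fun r => x ^ r * (c r) ^ ℓ
  have hord : ∀ r, c r ≠ 0 → (t r).order = -(r : ℤ) + ℓ * (c r).order := by
    intro r hr
    simp only [t]
    rw [HahnSeries.order_mul (pow_ne_zero _ hx0) (pow_ne_zero _ hr), HahnSeries.order_pow,
      HahnSeries.order_pow, hx]
    simp
  obtain ⟨r₀, hr₀S, hmin⟩ := S.exists_min_image (fun r => (t r).order) hSne
  have hr₀ : r₀ < ℓ ∧ c r₀ ≠ 0 := by simpa [hS] using hr₀S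
  have ht₀ : t r₀ ≠ 0 := mul_ne_zero (pow_ne_zero _ hx0) (pow_ne_zero _ hr₀.2)
  have hcoef : (∑ r ∈ Finset.range ℓ, t r).coeff (t r₀).order = 0 := by
    have : ∑ r ∈ Finset.range ℓ, t r = 0 := h
    rw [this, HahnSeries.coeff_zero]
  rw [HahnSeries.coeff_sum, Finset.sum_eq_single r₀] at hcoef
  · exact (HahnSeries.coeff_order_eq_zero.not.mpr ht₀) hcoef
  · intro r hr hne
    by_cases hcr : c r = 0
    · simp [t, hcr, zero_pow hℓ.ne_zero]
    · apply HahnSeries.coeff_eq_zero_of_lt_order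
      have hrℓ : r < ℓ := Finset.mem_range.mp hr
      have hrS : r ∈ S := by simp [hS, hrℓ, hcr]
      have hle := hmin r hrS
      refine lt_of_le_of_ne hle ?_
      intro heq
      rw [hord r hcr, hord r₀ hr₀.2] at heq
      have h1 : (r : ℤ) = r₀ + ℓ * ((c r).order - (c r₀).order) := by linarith
      have h2 : (r : ℤ) % ℓ = (r₀ : ℤ) % ℓ := by
        rw [h1, Int.add_mul_emod_self_left]
      rw [Int.emod_eq_of_lt (by positivity) (by exact_mod_cast hrℓ),
        Int.emod_eq_of_lt (by positivity) (by exact_mod_cast hr₀.1)] at h2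
      exact hne (by exact_mod_cast h2)
  · intro h
    exact absurd (Finset.mem_range.mpr hr₀.1) h

end Laurent

end Fermat.Agent.H89
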