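import Mathlib
import Fermat.Agent.H27.ESD.Interfaces1b
import Fermat.Agent.H89.ESDA3AlgClosed
import Fermat.Agent.H89.ESDA3Sep
import Fermat.Agent.H89.ESDA3Fin
import Fermat.Agent.H17.HeckeDataComplex
import Fermat.Agent.H67.IgusaTransfer

/-!
# ES-D-A3: `F_k` satisfies the hypotheses of Riemann's theorem (`FFModLStatement`)

`k` = residue field of a valuation subring `A` of `ℚ̄` over `ℓ ∤ N`, `F_k = k(j(q^d) : d ∣ N)`
inside `k((q))`, `x = j`.

* `k` is algebraically closed (`isAlgClosed_residueField`);
* `x` is transcendental over `k` (order `-1`);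
* `F_k / k(x)` is finite (`finiteDimensional_fullC`, formal Hecke data);
* `F_k / k(x)` is separable (`isSeparable_of_pIndep`: `1, x, …, x^{ℓ-1}` stay linearly
  independent over the `ℓ`-th powers of `k((q))`).
-/

set_option autoImplicit false
set_option synthInstance.maxHeartbeats 400000
set_option linter.style.haveILetI false

noncomputable section

open ModularCurve Polynomial Fermat.Agent.H27

namespace Fermat.Agent.H89

/-- the core of D-A3 over any algebraically closed field of characteristic `ℓ ∤ N` with formal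
Hecke data -/
theorem ffModL_core (k : Type) [Field k] [IsAlgClosed k] (N : ℕ) [NeZero N] (ℓ : ℕ)
    [Fact ℓ.Prime] [CharP k ℓ] (hℓN : ¬ ℓ ∣ N) (hM : HasHeckeData k) :
    ∃ x : ↥(modularFunctionFieldFullC k N),
      Transcendental k x ∧
      FiniteDimensional (IntermediateField.adjoin k {x}) ↥(modularFunctionFieldFullC k N) ∧
      Algebra.IsSeparable (IntermediateField.adjoin k {x}) ↥(modularFunctionFieldFullC k N) := by
  have hℓ : ℓ.Prime := Fact.out
  have hN : (N : k) ≠ 0 := by
    intro h
    exact hℓN ((CharP.cast_eq_zero_iff k ℓ N).mp h)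
  have hfin := finiteDimensional_fullC k N hM hN
  refine ⟨⟨jqModC k, jqModC_mem_full k N⟩, ?_, hfin, ?_⟩
  · intro halg
    have h2 : IsAlgebraic k (algebraMap ↥(modularFunctionFieldFullC k N) (LaurentSeries k)
        ⟨jqModC k, jqModC_mem_full k N⟩) := halg.algebraMap
    exact P2MW.S_ModularCurve_coeff_jqModC_neg_one.ModularCurve.CharLRows.transcendental_jqModC k
      h2
  · set F := modularFunctionFieldFullC k N with hF
    set x : ↥F := ⟨jqModC k, jqModC_mem_full k N⟩ with hx
    set K₁ := IntermediateField.adjoin k {x} with hK₁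
    have hxK : x ∈ K₁ := IntermediateField.mem_adjoin_simple_self k x
    have hkperf : ∀ a : k, ∃ b : k, b ^ ℓ = a := fun a =>
      IsAlgClosed.exists_pow_nat_eq a hℓ.pos
    haveI : CharP ↥F ℓ := charP_of_injective_algebraMap (algebraMap k ↥F).injective ℓ
    haveI : CharP ↥K₁ ℓ := charP_of_injective_algebraMap (algebraMap k ↥K₁).injective ℓ
    haveI : Algebra.IsIntegral ↥K₁ ↥F := Algebra.IsIntegral.of_finite ↥K₁ ↥F
    refine ⟨fun y => isSeparable_of_pIndep ℓ (⟨x, hxK⟩ : ↥K₁) ?_ ?_ y
      (Algebra.IsIntegral.isIntegral y)⟩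
    · intro a
      obtain ⟨b, hb, hab⟩ := exists_pDecomp_of_mem_adjoin ℓ x hkperf a.2
      refine ⟨fun r => ⟨b r, hb r⟩, ?_⟩
      apply Subtype.ext
      rw [hab]
      push_cast
      rfl
    · intro c hc
      have h1 : ∑ r ∈ Finset.range ℓ, (jqModC k) ^ r * ((c r : ↥F) : LaurentSeries k) ^ ℓ = 0 := by
        have h2 := congrArg (algebraMap ↥F (LaurentSeries k)) hc
        rw [map_sum, map_zero] at h2
        rw [← h2]
        refine Finset.sum_congr rfl fun r _ => ?_
        rw [map_mul, map_pow, map_pow]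
        rfl
      have h3 := laurent_pIndep ℓ (jqModC k)
        (P2MW.S_ModularCurve_coeff_jqModC_neg_one.ModularCurve.CharLRows.order_jqModC k)
        (fun r => ((c r : ↥F) : LaurentSeries k)) h1
      intro r hr
      exact Subtype.ext (h3 r hr)

/-- **ES-D-A3.** -/
theorem ffModLStatement : Fermat.Agent.H27.ESD.FFModLStatement := by
  intro N _ ℓ _ hℓN A hA
  haveI hk : IsAlgClosed (IsLocalRing.ResidueField A) := isAlgClosed_residueField A
  haveI hchar : CharP (IsLocalRing.ResidueField A) ℓ :=
    charP_residueField_of_liesOverPrime A ℓ hA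
  exact ⟨hk, ffModL_core (IsLocalRing.ResidueField A) N ℓ hℓN
    (Fermat.Agent.H67.hasHeckeData_of_complex Fermat.Agent.H17.hasHeckeData_complex _)⟩

end Fermat.Agent.H89
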