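import Mathlib
import Fermat.Agent.H22.ES.KLSetting

/-!
# P-ES / KEY LEMMA, row KL-N-G: the Gauss closure and good bases under `x ↦ x⁻¹`

* `gaussClosureStatement : Fermat.Agent.H22.KL.GaussClosureStatement`
* `goodBasisInvStatement : Fermat.Agent.H22.KL.GoodBasisInvStatement`

Mathlib only.  `A` a discrete valuation ring with uniformiser `ϖ`, `E ⊇ A` a field, `x ∈ E`
transcendental over `A`; `A[x] ≅ A[X]`, `ϖ A[x]` is a prime ideal, and
`x⁻ᴺ p(x) = (reflect N p)(x⁻¹)` for `N ≥ deg p`.
-/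

set_option autoImplicit false
set_option linter.style.haveILetI false
set_option linter.unusedSectionVars false

noncomputable section

open Polynomial Fermat.Agent.H22.KL
open Fermat.Agent.H67.KLConn (PiDvd)

namespace Fermat.Agent.H89

section Basics

variable {A : Type} [CommRing A] {E : Type} [Field E] [Algebra A E]

theorem klg_mem_chartRing_iff (x h : E) :
    h ∈ chartRing A E x ↔ ∃ p : A[X], aeval x p = h := by
  rw [chartRing, Algebra.adjoin_singleton_eq_range_aeval]
  rfl

theorem klg_aeval_mem_chartRing (x : E) (p : A[X]) : aeval x p ∈ chartRing A E x :=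
  (klg_mem_chartRing_iff x _).mpr ⟨p, rfl⟩

theorem klg_mem_chartClosure_iff (x y : E) :
    y ∈ chartClosure A E x ↔ IsIntegral (chartRing A E x) y := Iff.rfl

theorem klg_chartRing_le_chartClosure (x : E) : chartRing A E x ≤ chartClosure A E x := by
  intro y hy
  rw [klg_mem_chartClosure_iff]
  exact isIntegral_algebraMap (R := chartRing A E x) (A := E) (x := ⟨y, hy⟩)

/-- `aeval x p ∈ ϖ A[x]` iff `ϖ ∣ p` in `A[X]`. -/
theorem klg_piDvd_aeval_iff {x : E} (hx : Transcendental A x) (ϖ : A) (p : A[X]) :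
    PiDvd ϖ (chartRing A E x) 1 (aeval x p) ↔ C ϖ ∣ p := by
  constructor
  · rintro ⟨r, hr, h⟩
    obtain ⟨q, rfl⟩ := (klg_mem_chartRing_iff x r).mp hr
    have h2 : aeval x p = aeval x (C ϖ * q) := by
      rw [h, pow_one, map_mul, aeval_C, Algebra.smul_def]
    exact ⟨q, (transcendental_iff_injective.mp hx) h2⟩
  · rintro ⟨q, rfl⟩
    exact ⟨aeval x q, klg_aeval_mem_chartRing x q, by
      rw [pow_one, map_mul, aeval_C, Algebra.smul_def]⟩

/-- an element of `A[x]` outside `ϖ A[x]` is `p(x)` with `ϖ ∤ p` -/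
theorem klg_exists_poly {x : E} (hx : Transcendental A x) (ϖ : A) {h : E}
    (hh : h ∈ chartRing A E x) (hnd : ¬ PiDvd ϖ (chartRing A E x) 1 h) :
    ∃ p : A[X], aeval x p = h ∧ ¬ C ϖ ∣ p := by
  obtain ⟨p, rfl⟩ := (klg_mem_chartRing_iff x h).mp hh
  exact ⟨p, rfl, fun hd => hnd ((klg_piDvd_aeval_iff hx ϖ p).mpr hd)⟩

/-- `x⁻ᴺ p(x) = (reflect N p)(x⁻¹)` for `N ≥ deg p`. -/
theorem klg_inv_pow_mul_aeval {x : E} (hx0 : x ≠ 0) (p : A[X]) (N : ℕ)
    (hN : p.natDegree ≤ N) : (x⁻¹) ^ N * aeval x p = aeval x⁻¹ (reflect N p) := by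
  letI : Invertible x := invertibleOfNonzero hx0
  have h := eval₂_reflect_mul_pow (algebraMap A E) x N p hN
  rw [invOf_eq_inv] at h
  rw [aeval_def, aeval_def, ← h, inv_pow]
  field_simp

theorem klg_transcendental_inv {x : E} (hx : Transcendental A x) : Transcendental A x⁻¹ := by
  intro h
  apply hx
  have := h.inv
  rwa [inv_inv] at this

theorem klg_ne_zero [Nontrivial A] {x : E} (hx : Transcendental A x) : x ≠ 0 := by
  rintro rfl
  exact hx isAlgebraic_zero

/-- `ϖ ∣ reflect N p` iff `ϖ ∣ p` (`N ≥ deg p`). -/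
theorem klg_C_dvd_reflect_iff (ϖ : A) (p : A[X]) (N : ℕ) :
    C ϖ ∣ reflect N p ↔ C ϖ ∣ p := by
  rw [C_dvd_iff_dvd_coeff, C_dvd_iff_dvd_coeff]
  constructor
  · intro h i
    have := h (revAt N i)
    rwa [coeff_reflect, revAt_invol] at this
  · intro h i
    rw [coeff_reflect]
    exact h _

/-- integrality from a monic polynomial over `E` with coefficients in the subalgebra -/
theorem klg_isIntegral_of_coeff_mem (S : Subalgebra A E) (w : E) (q : E[X]) (hq : q.Monic)
    (hc : ∀ i, q.coeff i ∈ S) (hw : q.eval w = 0) : IsIntegral S w := by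
  have hl : q ∈ Polynomial.lifts (algebraMap S E) := by
    rw [Polynomial.lifts_iff_coeff_lifts]
    intro i
    exact ⟨⟨q.coeff i, hc i⟩, rfl⟩
  obtain ⟨Q, hQ, -, hQm⟩ := Polynomial.lifts_and_degree_eq_and_monic hl hq
  exact ⟨Q, hQm, by rw [← Polynomial.eval_map, hQ, hw]⟩

/-- **Change of chart.**  For `z` integral over `A[x]`, `x⁻ᴷ z` is integral over `A[x⁻¹]` for
all large `K`. -/
theorem klg_exists_inv_pow_mul_mem {x : E} (hx0 : x ≠ 0) {z : E}
    (hz : z ∈ chartClosure A E x) :
    ∃ K₀ : ℕ, ∀ K, K₀ ≤ K → (x⁻¹) ^ K * z ∈ chartClosure A E x⁻¹ := by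
  classical
  obtain ⟨P, hPm, hPz⟩ := (klg_mem_chartClosure_iff x z).mp hz
  have hc : ∀ i, ∃ c : A[X], aeval x c = ((P.coeff i : chartRing A E x) : E) := fun i =>
    (klg_mem_chartRing_iff x _).mp (P.coeff i).2
  choose c hcc using hc
  set n := P.natDegree with hn
  refine ⟨(Finset.range (n + 1)).sup fun i => (c i).natDegree, fun K hK => ?_⟩
  set p : E[X] := P.map (algebraMap (chartRing A E x) E) with hp
  have hpm : p.Monic := hPm.map _
  have hpn : p.natDegree = n := hPm.natDegree_map _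
  have hpz : p.eval z = 0 := by rw [hp, Polynomial.eval_map]; exact hPz
  refine klg_isIntegral_of_coeff_mem _ _ (p.scaleRoots ((x⁻¹) ^ K))
    ((monic_scaleRoots_iff _).mpr hpm) ?_ ?_
  · intro i
    rw [coeff_scaleRoots, hpn]
    rcases lt_trichotomy i n with hi | hi | hi
    · have hci : p.coeff i = aeval x (c i) := by
        rw [hp, Polynomial.coeff_map, hcc]
        rfl
      have hdeg : (c i).natDegree ≤ K * (n - i) := by
        have h1 : (c i).natDegree ≤ (Finset.range (n + 1)).sup fun i => (c i).natDegree :=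
          Finset.le_sup (f := fun i => (c i).natDegree)
            (Finset.mem_range.mpr (Nat.lt_succ_of_lt hi))
        have h2 : 1 ≤ n - i := by omega
        calc (c i).natDegree ≤ K := h1.trans hK
          _ = K * 1 := (mul_one K).symm
          _ ≤ K * (n - i) := Nat.mul_le_mul_left K h2
      rw [hci, ← pow_mul, mul_comm, klg_inv_pow_mul_aeval hx0 (c i) _ hdeg]
      exact klg_aeval_mem_chartRing _ _
    · subst hi
      have : p.coeff p.natDegree = 1 := hpm
      rw [← hpn, this, Nat.sub_self, pow_zero, mul_one]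
      exact (chartRing A E x⁻¹).one_mem
    · rw [Polynomial.coeff_eq_zero_of_natDegree_lt (by rw [hpn]; exact hi), zero_mul]
      exact (chartRing A E x⁻¹).zero_mem
  · have h := scaleRoots_eval₂_mul (p := p) (RingHom.id E) z ((x⁻¹) ^ K)
    simp only [RingHom.id_apply, Polynomial.eval₂_id] at h
    rw [h, hpz, mul_zero]

end Basics

section Gauss

variable {A : Type} [CommRing A] [IsDomain A] [IsDiscreteValuationRing A]
  {E : Type} [Field E] [Algebra A E]

theorem klg_prime_C {ϖ : A} (hϖ : Irreducible ϖ) : Prime (C ϖ : A[X]) :=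
  prime_C_iff.mpr hϖ.prime

theorem klg_not_dvd_one {ϖ : A} (hϖ : Irreducible ϖ) : ¬ C ϖ ∣ (1 : A[X]) := by
  intro h
  exact (klg_prime_C hϖ).not_isUnit (isUnit_of_dvd_one h)

theorem klg_not_dvd_mul {ϖ : A} (hϖ : Irreducible ϖ) {p q : A[X]} (hp : ¬ C ϖ ∣ p)
    (hq : ¬ C ϖ ∣ q) : ¬ C ϖ ∣ p * q := by
  intro h
  rcases (klg_prime_C hϖ).dvd_or_dvd h with h1 | h1
  · exact hp h1
  · exact hq h1

theorem klg_chartClosure_le_gaussClosure {ϖ : A} (hϖ : Irreducible ϖ) {x : E}
    (hx : Transcendental A x) {y : E} (hy : y ∈ chartClosure A E x) :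
    y ∈ gaussClosure A E ϖ x := by
  refine ⟨1, (chartRing A E x).one_mem, ?_, by rwa [one_mul]⟩
  intro h
  have h1 : PiDvd ϖ (chartRing A E x) 1 (aeval x (1 : A[X])) := by rwa [map_one]
  exact klg_not_dvd_one hϖ ((klg_piDvd_aeval_iff hx ϖ 1).mp h1)

theorem klg_gaussClosure_ops {ϖ : A} (hϖ : Irreducible ϖ) {x : E}
    (hx : Transcendental A x) {y z : E} (hy : y ∈ gaussClosure A E ϖ x)
    (hz : z ∈ gaussClosure A E ϖ x) :
    y + z ∈ gaussClosure A E ϖ x ∧ y * z ∈ gaussClosure A E ϖ x ∧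
      -y ∈ gaussClosure A E ϖ x := by
  obtain ⟨h, hh, hnd, hhy⟩ := hy
  obtain ⟨h', hh', hnd', hhz⟩ := hz
  obtain ⟨p, rfl, hp⟩ := klg_exists_poly hx ϖ hh hnd
  obtain ⟨q, rfl, hq⟩ := klg_exists_poly hx ϖ hh' hnd'
  have hpq : ¬ PiDvd ϖ (chartRing A E x) 1 (aeval x p * aeval x q) := by
    rw [← map_mul, klg_piDvd_aeval_iff hx]
    exact klg_not_dvd_mul hϖ hp hq
  have hB := klg_chartRing_le_chartClosure (A := A) x
  refine ⟨⟨aeval x p * aeval x q, (chartRing A E x).mul_mem hh hh', hpq, ?_⟩,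
    ⟨aeval x p * aeval x q, (chartRing A E x).mul_mem hh hh', hpq, ?_⟩,
    ⟨aeval x p, hh, hnd, ?_⟩⟩
  · have e : aeval x p * aeval x q * (y + z) =
        aeval x q * (aeval x p * y) + aeval x p * (aeval x q * z) := by ring
    rw [e]
    exact (chartClosure A E x).add_mem ((chartClosure A E x).mul_mem (hB hh') hhy)
      ((chartClosure A E x).mul_mem (hB hh) hhz)
  · have e : aeval x p * aeval x q * (y * z) = (aeval x p * y) * (aeval x q * z) := by ring
    rw [e]
    exact (chartClosure A E x).mul_mem hhy hhz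
  · rw [mul_neg]
    exact (chartClosure A E x).neg_mem hhy

theorem klg_gaussClosure_le_inv {ϖ : A} {x : E} (hx : Transcendental A x) {y : E}
    (hy : y ∈ gaussClosure A E ϖ x) : y ∈ gaussClosure A E ϖ x⁻¹ := by
  have hx0 : x ≠ 0 := klg_ne_zero hx
  have hxi : Transcendental A x⁻¹ := klg_transcendental_inv hx
  obtain ⟨h, hh, hnd, hhy⟩ := hy
  obtain ⟨p, rfl, hp⟩ := klg_exists_poly hx ϖ hh hnd
  obtain ⟨K₀, hK₀⟩ := klg_exists_inv_pow_mul_mem hx0 hhy
  set K := max K₀ p.natDegree with hK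
  have hKp : p.natDegree ≤ K := le_max_right _ _
  refine ⟨aeval x⁻¹ (reflect K p), klg_aeval_mem_chartRing _ _, ?_, ?_⟩
  · rw [klg_piDvd_aeval_iff hxi, klg_C_dvd_reflect_iff]
    exact hp
  · rw [← klg_inv_pow_mul_aeval hx0 p K hKp, mul_assoc]
    exact hK₀ K (le_max_left _ _)

/-- **KL-N-G (1).** -/
theorem gaussClosureStatement : GaussClosureStatement := by
  intro A _ _ _ E _ _ _ ϖ hϖ x hx
  refine ⟨fun y hy => klg_chartClosure_le_gaussClosure hϖ hx hy,
    fun y hy z hz => klg_gaussClosure_ops hϖ hx hy hz, ?_⟩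
  apply Set.Subset.antisymm
  · intro y hy
    have := klg_gaussClosure_le_inv (klg_transcendental_inv hx) hy
    rwa [inv_inv] at this
  · intro y hy
    exact klg_gaussClosure_le_inv hx hy

end Gauss

section GoodBasis

variable {A : Type} [CommRing A] {E : Type} [Field E] [Algebra A E]

/-- `GoodBasis` with the subfield, the integral closure and the chart ring as free
parameters -/
def KlgGoodBasisAt (A : Type) [CommRing A] (E : Type) [Field E] [Algebra A E] (ϖ : A)
    (K : Subfield E) (S R : Subalgebra A E) : Prop :=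
  ∃ (n : ℕ) (b : Module.Basis (Fin n) K E), (∀ i, b i ∈ S) ∧
    ¬ PiDvd ϖ R 1 ((Algebra.discr K (fun i => b i) : K) : E)

theorem klg_goodBasis_iff (ϖ : A) (x : E) :
    GoodBasis A E ϖ x ↔
      KlgGoodBasisAt A E ϖ (chartField A E x) (chartClosure A E x) (chartRing A E x) :=
  Iff.rfl

theorem klg_chartRing_inv_subset (x : E) :
    (chartRing A E x⁻¹ : Set E) ⊆ chartField A E x := by
  intro y hy
  obtain ⟨p, rfl⟩ := (klg_mem_chartRing_iff x⁻¹ y).mp hy
  rw [aeval_eq_sum_range]
  refine sum_mem fun i _ => ?_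
  rw [Algebra.smul_def]
  refine mul_mem ?_ (pow_mem (inv_mem
    (Subfield.subset_closure (Algebra.self_mem_adjoin_singleton A x))) i)
  exact Subfield.subset_closure ((chartRing A E x).algebraMap_mem _)

theorem klg_chartField_inv (x : E) : chartField A E x⁻¹ = chartField A E x := by
  apply le_antisymm
  · exact Subfield.closure_le.mpr (klg_chartRing_inv_subset x)
  · have := klg_chartRing_inv_subset (A := A) x⁻¹
    rw [inv_inv] at this
    exact Subfield.closure_le.mpr this

end GoodBasis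

section IntClosed

variable {A : Type} [CommRing A] [IsDomain A] [IsDiscreteValuationRing A]
  {E : Type} [Field E] [Algebra A E]

theorem klg_exists_lift {x : E} (hx : Transcendental A x) :
    ∃ ψ : FractionRing A[X] →+* E,
      ∀ r : A[X], ψ (algebraMap A[X] (FractionRing A[X]) r) = aeval x r := by
  have hφinj : Function.Injective ((aeval x : A[X] →ₐ[A] E) : A[X] →+* E) :=
    transcendental_iff_injective.mp hx
  exact ⟨IsFractionRing.lift hφinj, fun r => IsFractionRing.lift_algebraMap hφinj r⟩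

theorem klg_mem_closure {x d : E} (hd : d ∈ chartField A E x) :
    ∃ p q : A[X], d = aeval x p / aeval x q := by
  have hle : Subring.closure (chartRing A E x : Set E) ≤ (chartRing A E x).toSubring :=
    Subring.closure_le.mpr fun y hy => hy
  obtain ⟨y, hy, z, hz, rfl⟩ := Subfield.mem_closure_iff.mp hd
  obtain ⟨p, rfl⟩ := (klg_mem_chartRing_iff x y).mp (hle hy)
  obtain ⟨q, rfl⟩ := (klg_mem_chartRing_iff x z).mp (hle hz)
  exact ⟨p, q, rfl⟩

theorem klg_exists_monic_lift {x d : E} (hint : IsIntegral (chartRing A E x) d) :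
    ∃ Q : A[X][X], Q.Monic ∧
      Q.eval₂ ((aeval x : A[X] →ₐ[A] E) : A[X] →+* E) d = 0 := by
  obtain ⟨P, hPm, hP⟩ := hint
  have hl : P.map (algebraMap (chartRing A E x) E) ∈
      Polynomial.lifts ((aeval x : A[X] →ₐ[A] E) : A[X] →+* E) := by
    rw [Polynomial.lifts_iff_coeff_lifts]
    intro i
    rw [Polynomial.coeff_map]
    obtain ⟨c, hc⟩ := (klg_mem_chartRing_iff x _).mp (P.coeff i).2
    exact ⟨c, hc⟩
  obtain ⟨Q, hQ, -, hQm⟩ := Polynomial.lifts_and_degree_eq_and_monic hl (hPm.map _)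
  refine ⟨Q, hQm, ?_⟩
  rw [← Polynomial.eval_map, hQ, Polynomial.eval_map]
  exact hP

theorem klg_mem_chartRing_of_isIntegral {x : E} (hx : Transcendental A x) {d : E}
    (hd : d ∈ chartField A E x) (hint : IsIntegral (chartRing A E x) d) :
    d ∈ chartRing A E x := by
  obtain ⟨ψ, hψa⟩ := klg_exists_lift hx
  obtain ⟨p, q, rfl⟩ := klg_mem_closure hd
  have hψδ : ψ (algebraMap A[X] (FractionRing A[X]) p / algebraMap A[X] (FractionRing A[X]) q)
      = aeval x p / aeval x q := by
    rw [map_div₀, hψa, hψa]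
  have hδint : IsIntegral A[X]
      (algebraMap A[X] (FractionRing A[X]) p / algebraMap A[X] (FractionRing A[X]) q) := by
    obtain ⟨Q, hQm, hQ⟩ := klg_exists_monic_lift hint
    refine ⟨Q, hQm, ?_⟩
    apply ψ.injective
    rw [map_zero, Polynomial.hom_eval₂, hψδ]
    have hcomp : ψ.comp (algebraMap A[X] (FractionRing A[X])) =
        ((aeval x : A[X] →ₐ[A] E) : A[X] →+* E) := RingHom.ext hψa
    rw [hcomp]
    exact hQ
  obtain ⟨r, hr⟩ := IsIntegrallyClosed.isIntegral_iff.mp hδint
  have : aeval x p / aeval x q = aeval x r := by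
    rw [← hψδ, ← hr, hψa]
  rw [this]
  exact klg_aeval_mem_chartRing x r

/-- the inclusion `A[x] ⊆ K₀(x)` -/
def klgIncl (A : Type) [CommRing A] (E : Type) [Field E] [Algebra A E] (x : E) :
    chartRing A E x →+* chartField A E x where
  toFun r := ⟨r, Subfield.subset_closure r.2⟩
  map_one' := rfl
  map_mul' _ _ := rfl
  map_zero' := rfl
  map_add' _ _ := rfl

theorem klg_discr_mem {x : E} (hx : Transcendental A x) {n : ℕ}
    (b : Module.Basis (Fin n) (chartField A E x) E) (hb : ∀ i, b i ∈ chartClosure A E x) :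
    ((Algebra.discr (chartField A E x) (fun i => b i) : chartField A E x) : E) ∈
      chartRing A E x := by
  classical
  letI : Algebra (chartRing A E x) (chartField A E x) := (klgIncl A E x).toAlgebra
  haveI : IsScalarTower (chartRing A E x) (chartField A E x) E :=
    IsScalarTower.of_algebraMap_eq fun r => rfl
  haveI : Module.Finite (chartField A E x) E := Module.Finite.of_basis b
  have h1 : IsIntegral (chartRing A E x) (Algebra.discr (chartField A E x) (fun i => b i)) :=
    Algebra.discr_isIntegral (chartField A E x) (fun i => hb i)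
  have h2 : IsIntegral (chartRing A E x)
      (algebraMap (chartField A E x) E (Algebra.discr (chartField A E x) (fun i => b i))) :=
    h1.algebraMap
  exact klg_mem_chartRing_of_isIntegral hx (Subtype.mem _) h2

theorem klg_discr_unitsSMul {K : Type*} [Field K] [Algebra K E] {n : ℕ}
    (b : Module.Basis (Fin n) K E) (u : Kˣ) :
    Algebra.discr K (fun i => b.unitsSMul (fun _ => u) i) =
      ((u : K) ^ n) ^ 2 * Algebra.discr K (fun i => b i) := by
  classical
  have h := Algebra.discr_of_matrix_mulVec (fun i => b i)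
    (Matrix.diagonal (fun _ : Fin n => (u : K)))
  rw [Matrix.det_diagonal, Finset.prod_const, Finset.card_univ, Fintype.card_fin] at h
  rw [← h]
  congr 1
  funext i
  rw [Module.Basis.unitsSMul_apply, Matrix.diagonal_map (map_zero _), Matrix.mulVec_diagonal,
    Units.smul_def, Algebra.smul_def]

theorem klg_goodBasisAt_inv {ϖ : A} {x : E} (hx : Transcendental A x)
    (h : KlgGoodBasisAt A E ϖ (chartField A E x) (chartClosure A E x) (chartRing A E x)) :
    KlgGoodBasisAt A E ϖ (chartField A E x) (chartClosure A E x⁻¹) (chartRing A E x⁻¹) := by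
  classical
  obtain ⟨n, b, hb, hD⟩ := h
  have hx0 : x ≠ 0 := klg_ne_zero hx
  have hxi : Transcendental A x⁻¹ := klg_transcendental_inv hx
  have hxK : x ∈ chartField A E x :=
    Subfield.subset_closure (Algebra.self_mem_adjoin_singleton A x)
  have hex : ∀ i, ∃ K₀ : ℕ, ∀ k, K₀ ≤ k → (x⁻¹) ^ k * b i ∈ chartClosure A E x⁻¹ := fun i =>
    klg_exists_inv_pow_mul_mem hx0 (hb i)
  choose K₀ hK₀ using hex
  set k := Finset.univ.sup K₀ with hk
  have hxK0 : (⟨x, hxK⟩ : chartField A E x) ≠ 0 := fun h => hx0 (congrArg Subtype.val h)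
  obtain ⟨u, hu⟩ : ∃ u : (chartField A E x)ˣ, ((u : chartField A E x) : E) = (x⁻¹) ^ k :=
    ⟨(Units.mk0 _ hxK0)⁻¹ ^ k, by simp⟩
  have hb' : ∀ i, b.unitsSMul (fun _ => u) i = (x⁻¹) ^ k * b i := by
    intro i
    rw [Module.Basis.unitsSMul_apply, Units.smul_def, ← hu]
    rfl
  refine ⟨n, b.unitsSMul (fun _ => u), fun i => ?_, ?_⟩
  · rw [hb']
    exact hK₀ i k (Finset.le_sup (Finset.mem_univ i))
  · obtain ⟨P, hP⟩ := (klg_mem_chartRing_iff x _).mp (klg_discr_mem hx b hb)
    rw [← hP, klg_piDvd_aeval_iff hx] at hD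
    rw [klg_discr_unitsSMul b u]
    intro hcon
    apply hD
    obtain ⟨r, hr, hr2⟩ := hcon
    obtain ⟨q, rfl⟩ := (klg_mem_chartRing_iff x⁻¹ r).mp hr
    have hr3 : (x⁻¹) ^ (k * n * 2) * aeval x P = algebraMap A E ϖ * aeval x⁻¹ q := by
      have e1 : (x⁻¹) ^ (k * n * 2) * aeval x P =
          (((((u : chartField A E x) ^ n) ^ 2 *
            Algebra.discr (chartField A E x) (fun i => b i) : chartField A E x)) : E) := by
        push_cast
        rw [hu, hP, ← pow_mul, ← pow_mul, mul_assoc]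
      rw [e1, hr2, pow_one, Algebra.smul_def]
    set T := k * n * 2 with hT
    set M := max q.natDegree T with hM
    have hqM : q.natDegree ≤ M := le_max_left _ _
    have hTM : T ≤ M := le_max_right _ _
    have h1 : x ^ M * aeval x⁻¹ q = aeval x (reflect M q) := by
      have := klg_inv_pow_mul_aeval (A := A) (inv_ne_zero hx0) q M hqM
      rwa [inv_inv] at this
    have h2 : aeval x (X ^ (M - T) * P) = aeval x (C ϖ * reflect M q) := by
      rw [map_mul, map_mul, aeval_C, map_pow, aeval_X, ← h1]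
      have h3 : x ^ (M - T) = x ^ M * (x⁻¹) ^ T := by
        rw [inv_pow, ← div_eq_mul_inv, eq_div_iff (pow_ne_zero _ hx0), ← pow_add,
          Nat.sub_add_cancel hTM]
      rw [h3, mul_assoc, hr3]
      ring
    have h4 : X ^ (M - T) * P = C ϖ * reflect M q := (transcendental_iff_injective.mp hx) h2
    rw [C_dvd_iff_dvd_coeff]
    intro i
    have h5 := (C_dvd_iff_dvd_coeff ϖ (X ^ (M - T) * P)).mp ⟨_, h4⟩ (i + (M - T))
    rwa [Polynomial.coeff_X_pow_mul] at h5

/-- **KL-N-G (2).** -/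
theorem goodBasisInvStatement : GoodBasisInvStatement := by
  intro A _ _ _ E _ _ _ ϖ _ x hx h
  rw [klg_goodBasis_iff, klg_chartField_inv]
  exact klg_goodBasisAt_inv hx ((klg_goodBasis_iff ϖ x).mp h)

end IntClosed

end Fermat.Agent.H89
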