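/-
helper89, P-CFT row 524 (FR-RETR), generic core (Mathlib + H13 frame definitions only).

`dualityP_of_retract`: the property `DualityP` (H¹ epi, H² iso, H³ mono) of a morphism of
cochain complexes is stable under retracts in the arrow category.
-/
import Fermat.Agent.H13.Cft.Homological

set_option autoImplicit false

universe u

open CategoryTheory

namespace Fermat.Agent.H89

open Fermat.Agent.H13.Cft

section core

variable {k : Type u} [CommRing k]

/-- `Hⁿ` of a retract diagram of morphisms of complexes is a retract diagram. -/
noncomputable def homologyRetractArrow {K L K' L' : CochainComplex (ModuleCat.{u} k) ℕ}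
    (f : K ⟶ L) (f' : K' ⟶ L') (a : K ⟶ K') (b : K' ⟶ K) (c : L ⟶ L') (d : L' ⟶ L)
    (hab : a ≫ b = 𝟙 K) (hcd : c ≫ d = 𝟙 L) (h1 : a ≫ f' = f ≫ c) (h2 : b ≫ f = f' ≫ d)
    (n : ℕ) :
    RetractArrow (HomologicalComplex.homologyMap f n) (HomologicalComplex.homologyMap f' n) where
  i := Arrow.homMk (HomologicalComplex.homologyMap a n) (HomologicalComplex.homologyMap c n)
    (by
      show HomologicalComplex.homologyMap a n ≫ HomologicalComplex.homologyMap f' n
        = HomologicalComplex.homologyMap f n ≫ HomologicalComplex.homologyMap c n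
      rw [← HomologicalComplex.homologyMap_comp, ← HomologicalComplex.homologyMap_comp, h1])
  r := Arrow.homMk (HomologicalComplex.homologyMap b n) (HomologicalComplex.homologyMap d n)
    (by
      show HomologicalComplex.homologyMap b n ≫ HomologicalComplex.homologyMap f n
        = HomologicalComplex.homologyMap f' n ≫ HomologicalComplex.homologyMap d n
      rw [← HomologicalComplex.homologyMap_comp, ← HomologicalComplex.homologyMap_comp, h2])
  retract := by
    apply Arrow.hom_ext
    · show HomologicalComplex.homologyMap a n ≫ HomologicalComplex.homologyMap b n = 𝟙 _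
      rw [← HomologicalComplex.homologyMap_comp, hab, HomologicalComplex.homologyMap_id]
    · show HomologicalComplex.homologyMap c n ≫ HomologicalComplex.homologyMap d n = 𝟙 _
      rw [← HomologicalComplex.homologyMap_comp, hcd, HomologicalComplex.homologyMap_id]

/-- **Generic core of [F-RETR]**: `DualityP` is stable under retracts of morphisms of
complexes. -/
theorem dualityP_of_retract {K L K' L' : CochainComplex (ModuleCat.{u} k) ℕ}
    (f : K ⟶ L) (f' : K' ⟶ L') (a : K ⟶ K') (b : K' ⟶ K) (c : L ⟶ L') (d : L' ⟶ L)
    (hab : a ≫ b = 𝟙 K) (hcd : c ≫ d = 𝟙 L) (h1 : a ≫ f' = f ≫ c) (h2 : b ≫ f = f' ≫ d)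
    (h : DualityP f') : DualityP f := by
  obtain ⟨he, hi, hm⟩ := h
  refine ⟨?_, ?_, ?_⟩
  · exact MorphismProperty.of_retract (P := MorphismProperty.epimorphisms _)
      (homologyRetractArrow f f' a b c d hab hcd h1 h2 1) he
  · exact MorphismProperty.of_retract (P := MorphismProperty.isomorphisms _)
      (homologyRetractArrow f f' a b c d hab hcd h1 h2 2) hi
  · exact MorphismProperty.of_retract (P := MorphismProperty.monomorphisms _)
      (homologyRetractArrow f f' a b c d hab hcd h1 h2 3) hm

end core

end Fermat.Agent.H89
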