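/-
helper89, P-CFT row 524 (FR-RETR): the functoriality needed for the retract statement.

* `rtrConeMap`     : functoriality of `coneShift` in commutative squares
* `rtrLocMap`      : functoriality of `locComplex` in the coefficients
* `rtrCcMap`       : functoriality of `ccComplex` in the coefficients
* `rtrDualTwistMap`: `M ↦ M^*(χ)` is a contravariant functor
* `rtrDualCxMap`   : `K ↦ dualCx K` is a contravariant functor
* `rtrDualSideMap` : `M ↦ dualCx (C(M^*(χ)))` is a covariant functor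
* `rtr_theta_natural` : naturality of `Θ`
-/
import Fermat.Agent.H13.Cft.Interfaces

set_option autoImplicit false

universe u

open CategoryTheory groupCohomology

namespace Fermat.Agent.H89

open Fermat.Agent.H13.Cft

section coneMap

variable {k : Type u} [CommRing k]
variable {K L K' L' K'' L'' : CochainComplex (ModuleCat.{u} k) ℕ}

/-- Components of the map of shifted cones induced by a commutative square. -/
noncomputable def rtrConeMapF (α : K ⟶ K') (β : L ⟶ L') : ∀ n, coneX K L n ⟶ coneX K' L' n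
  | 0 => α.f 0
  | n + 1 => ModuleCat.ofHom (LinearMap.prodMap (α.f (n + 1)).hom (β.f n).hom)

lemma rtrConeMapF_zero_apply (α : K ⟶ K') (β : L ⟶ L') (a : K.X 0) :
    (rtrConeMapF α β 0).hom a = (α.f 0).hom a := rfl

lemma rtrConeMapF_succ_apply (α : K ⟶ K') (β : L ⟶ L') (n : ℕ) (a : K.X (n + 1)) (b : L.X n) :
    (rtrConeMapF α β (n + 1)).hom (a, b) = ((α.f (n + 1)).hom a, (β.f n).hom b) := rfl

lemma rtrConeMapF_comm (φ : K ⟶ L) (φ' : K' ⟶ L') (α : K ⟶ K') (β : L ⟶ L')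
    (h : φ ≫ β = α ≫ φ') (n : ℕ) :
    rtrConeMapF α β n ≫ coneD φ' n = coneD φ n ≫ rtrConeMapF α β (n + 1) := by
  have hα : ∀ (i : ℕ) (a : K.X i),
      (α.f (i + 1)).hom ((K.d i (i + 1)).hom a) = (K'.d i (i + 1)).hom ((α.f i).hom a) := by
    intro i a
    have := LinearMap.congr_fun (congrArg ModuleCat.Hom.hom (α.comm i (i + 1))) a
    exact this.symm
  have hβ : ∀ (i : ℕ) (b : L.X i),
      (β.f (i + 1)).hom ((L.d i (i + 1)).hom b) = (L'.d i (i + 1)).hom ((β.f i).hom b) := by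
    intro i b
    have := LinearMap.congr_fun (congrArg ModuleCat.Hom.hom (β.comm i (i + 1))) b
    exact this.symm
  have hsq : ∀ (i : ℕ) (a : K.X i),
      (β.f i).hom ((φ.f i).hom a) = (φ'.f i).hom ((α.f i).hom a) := by
    intro i a
    have := LinearMap.congr_fun
      (congrArg ModuleCat.Hom.hom (congrArg (fun ψ => ψ.f i) h)) a
    exact this
  cases n with
  | zero =>
    have h0 : ∀ a : K.X 0, (coneD φ' 0).hom ((rtrConeMapF α β 0).hom a)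
        = (rtrConeMapF α β 1).hom ((coneD φ 0).hom a) := by
      intro a
      rw [coneD_zero_apply, rtrConeMapF_zero_apply, coneD_zero_apply, rtrConeMapF_succ_apply,
        hα, hsq]
    ext a : 2
    exact h0 a
  | succ n =>
    have h1 : ∀ (a : K.X (n + 1)) (b : L.X n),
        (coneD φ' (n + 1)).hom ((rtrConeMapF α β (n + 1)).hom (a, b))
          = (rtrConeMapF α β (n + 2)).hom ((coneD φ (n + 1)).hom (a, b)) := by
      intro a b
      rw [rtrConeMapF_succ_apply, coneD_succ_apply, coneD_succ_apply, rtrConeMapF_succ_apply,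
        hα, map_sub, hβ, hsq]
    ext x : 2
    exact h1 x.1 x.2

/-- **(a)** The map of shifted cones induced by a commutative square. -/
noncomputable def rtrConeMap (φ : K ⟶ L) (φ' : K' ⟶ L') (α : K ⟶ K') (β : L ⟶ L')
    (h : φ ≫ β = α ≫ φ') : coneShift φ ⟶ coneShift φ' where
  f n := rtrConeMapF α β n
  comm' i j (hij : _ = _) := by
    subst hij
    simp only [coneShift, CochainComplex.of_d]
    exact rtrConeMapF_comm φ φ' α β h i

lemma rtrConeMap_f (φ : K ⟶ L) (φ' : K' ⟶ L') (α : K ⟶ K') (β : L ⟶ L')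
    (h : φ ≫ β = α ≫ φ') (n : ℕ) : (rtrConeMap φ φ' α β h).f n = rtrConeMapF α β n := rfl

lemma rtrConeMapF_id : ∀ n, rtrConeMapF (𝟙 K) (𝟙 L) n = 𝟙 (coneX K L n)
  | 0 => rfl
  | _ + 1 => rfl

lemma rtrConeMapF_comp (α : K ⟶ K') (β : L ⟶ L') (α' : K' ⟶ K'') (β' : L' ⟶ L'') :
    ∀ n, rtrConeMapF (α ≫ α') (β ≫ β') n = rtrConeMapF α β n ≫ rtrConeMapF α' β' n
  | 0 => rfl
  | _ + 1 => rfl

lemma rtrConeMap_id (φ : K ⟶ L) (h : φ ≫ 𝟙 L = 𝟙 K ≫ φ) :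
    rtrConeMap φ φ (𝟙 K) (𝟙 L) h = 𝟙 (coneShift φ) := by
  apply HomologicalComplex.hom_ext
  intro n
  exact rtrConeMapF_id n

lemma rtrConeMap_comp (φ : K ⟶ L) (φ' : K' ⟶ L') (φ'' : K'' ⟶ L'') (α : K ⟶ K') (β : L ⟶ L')
    (α' : K' ⟶ K'') (β' : L' ⟶ L'') (h : φ ≫ β = α ≫ φ') (h' : φ' ≫ β' = α' ≫ φ'')
    (h'' : φ ≫ (β ≫ β') = (α ≫ α') ≫ φ'') :
    rtrConeMap φ φ'' (α ≫ α') (β ≫ β') h''
      = rtrConeMap φ φ' α β h ≫ rtrConeMap φ' φ'' α' β' h' := by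
  apply HomologicalComplex.hom_ext
  intro n
  exact rtrConeMapF_comp α β α' β' n

end coneMap

section cc

variable {k G : Type u} [CommRing k] [Group G] (𝔄 : ArithDatum k G)

/-- Functoriality of the product of the local level complexes in the coefficients. -/
noncomputable def rtrLocMap {M M' : Rep.{u} k G} (f : M ⟶ M') :
    locComplex 𝔄 M ⟶ locComplex 𝔄 M' where
  f n := ModuleCat.ofHom (LinearMap.pi fun v =>
    ((lvlMap (𝔄.lvlv v) ((Rep.resFunctor (𝔄.loc v)).map f)).f n).hom ∘ₗ LinearMap.proj v)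
  comm' i j (hij : _ = _) := by
    subst hij
    ext x : 2
    funext v
    have := LinearMap.congr_fun (congrArg ModuleCat.Hom.hom
      ((lvlMap (𝔄.lvlv v) ((Rep.resFunctor (𝔄.loc v)).map f)).comm i (i + 1))) (x v)
    simp only [CochainComplex.of.d, dif_pos, eqToHom_refl, Category.comp_id, ModuleCat.hom_comp,
      LinearMap.comp_apply] at this
    simp only [locComplex, CochainComplex.of.d, dif_pos, eqToHom_refl, Category.comp_id,
      ModuleCat.hom_comp]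
    exact this

lemma rtrLocMap_f_apply {M M' : Rep.{u} k G} (f : M ⟶ M') (n : ℕ)
    (x : ∀ v, lvlCochains (𝔄.lvlv v) (Rep.res (𝔄.loc v) M) n) (v : 𝔄.ι) :
    (((rtrLocMap 𝔄 f).f n).hom x : ∀ v, lvlCochains (𝔄.lvlv v) (Rep.res (𝔄.loc v) M') n) v
      = ((lvlMap (𝔄.lvlv v) ((Rep.resFunctor (𝔄.loc v)).map f)).f n).hom (x v) := rfl

lemma rtrLocMap_id (M : Rep.{u} k G) : rtrLocMap 𝔄 (𝟙 M) = 𝟙 (locComplex 𝔄 M) := by
  apply HomologicalComplex.hom_ext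
  intro n
  ext x : 2
  rfl

lemma rtrLocMap_comp {M M' M'' : Rep.{u} k G} (f : M ⟶ M') (g : M' ⟶ M'') :
    rtrLocMap 𝔄 (f ≫ g) = rtrLocMap 𝔄 f ≫ rtrLocMap 𝔄 g := by
  apply HomologicalComplex.hom_ext
  intro n
  ext x : 2
  rfl

/-- Naturality of the total localisation map. -/
lemma rtr_resTot_natural {M M' : Rep.{u} k G} (f : M ⟶ M') :
    resTot 𝔄 M ≫ rtrLocMap 𝔄 f = lvlMap 𝔄.lvl f ≫ resTot 𝔄 M' := by
  apply HomologicalComplex.hom_ext
  intro n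
  ext x : 2
  rfl

/-- **(b)** Functoriality of the compact-support complex in the coefficients. -/
noncomputable def rtrCcMap {M M' : Rep.{u} k G} (f : M ⟶ M') :
    ccComplex 𝔄 M ⟶ ccComplex 𝔄 M' :=
  rtrConeMap (resTot 𝔄 M) (resTot 𝔄 M') (lvlMap 𝔄.lvl f) (rtrLocMap 𝔄 f)
    (rtr_resTot_natural 𝔄 f)

lemma rtrCcMap_f {M M' : Rep.{u} k G} (f : M ⟶ M') (n : ℕ) :
    (rtrCcMap 𝔄 f).f n = rtrConeMapF (lvlMap 𝔄.lvl f) (rtrLocMap 𝔄 f) n := rfl

lemma rtrCcMap_id (M : Rep.{u} k G) : rtrCcMap 𝔄 (𝟙 M) = 𝟙 (ccComplex 𝔄 M) := by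
  apply HomologicalComplex.hom_ext
  intro n
  rw [rtrCcMap_f, lvlMap_id, rtrLocMap_id]
  exact rtrConeMapF_id n

lemma rtrCcMap_comp {M M' M'' : Rep.{u} k G} (f : M ⟶ M') (g : M' ⟶ M'') :
    rtrCcMap 𝔄 (f ≫ g) = rtrCcMap 𝔄 f ≫ rtrCcMap 𝔄 g := by
  apply HomologicalComplex.hom_ext
  intro n
  rw [rtrCcMap_f, lvlMap_comp, rtrLocMap_comp]
  exact rtrConeMapF_comp _ _ _ _ n

end cc

section dualside

variable {k G : Type u} [CommRing k] [Group G]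

/-- **(c)** `M ↦ M^*(χ)` on morphisms: precomposition (contravariant). -/
noncomputable def rtrDualTwistMap (χ : G →* kˣ) {M M' : Rep.{u} k G} (f : M ⟶ M') :
    M'.dualTwist χ ⟶ M.dualTwist χ :=
  Rep.ofHom (LinearMap.intertwiningMap_of_isIntertwiningMap _ _
    (Module.Dual.transpose (R := k) f.hom.toLinearMap) (by
      intro g ξ
      refine LinearMap.ext fun m => ?_
      show ((M'.dualTwist χ).ρ g ξ) (f.hom m)
        = ((M.dualTwist χ).ρ g (ξ ∘ₗ f.hom.toLinearMap)) m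
      rw [Rep.dualTwist_ρ_apply, Rep.dualTwist_ρ_apply]
      simp only [LinearMap.smul_apply, LinearMap.comp_apply]
      congr 2
      exact (Rep.hom_comm_apply f g⁻¹ m).symm))

lemma rtrDualTwistMap_apply (χ : G →* kˣ) {M M' : Rep.{u} k G} (f : M ⟶ M')
    (ξ : Module.Dual k M') (m : M) :
    ((rtrDualTwistMap χ f).hom ξ : Module.Dual k M) m = ξ (f.hom m) := rfl

lemma rtrDualTwistMap_id (χ : G →* kˣ) (M : Rep.{u} k G) :
    rtrDualTwistMap χ (𝟙 M) = 𝟙 (M.dualTwist χ) := by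
  apply Rep.hom_ext
  apply Representation.IntertwiningMap.ext
  refine LinearMap.ext fun ξ => LinearMap.ext fun m => ?_
  rfl

lemma rtrDualTwistMap_comp (χ : G →* kˣ) {M M' M'' : Rep.{u} k G} (f : M ⟶ M')
    (g : M' ⟶ M'') :
    rtrDualTwistMap χ (f ≫ g) = rtrDualTwistMap χ g ≫ rtrDualTwistMap χ f := by
  apply Rep.hom_ext
  apply Representation.IntertwiningMap.ext
  refine LinearMap.ext fun ξ => LinearMap.ext fun m => ?_
  rfl

variable {K K' K'' : CochainComplex (ModuleCat.{u} k) ℕ}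

/-- Components of the transpose of a morphism of complexes. -/
noncomputable def rtrDualCxMapF (g : K ⟶ K') : ∀ n, dualX K' n ⟶ dualX K n
  | 0 => ModuleCat.ofHom (Module.Dual.transpose (R := k) (g.f 3).hom)
  | 1 => ModuleCat.ofHom (Module.Dual.transpose (R := k) (g.f 2).hom)
  | 2 => ModuleCat.ofHom (Module.Dual.transpose (R := k) (g.f 1).hom)
  | 3 => ModuleCat.ofHom (Module.Dual.transpose (R := k) (g.f 0).hom)
  | _ + 4 => 𝟙 _

lemma rtrDualCxMapF_comm (g : K ⟶ K') (n : ℕ) :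
    rtrDualCxMapF g n ≫ dualD K n = dualD K' n ≫ rtrDualCxMapF g (n + 1) := by
  have hg : ∀ (i : ℕ) (a : K.X i),
      (g.f (i + 1)).hom ((K.d i (i + 1)).hom a) = (K'.d i (i + 1)).hom ((g.f i).hom a) := by
    intro i a
    have := LinearMap.congr_fun (congrArg ModuleCat.Hom.hom (g.comm i (i + 1))) a
    exact this.symm
  match n with
  | 0 =>
    have h0 : ∀ ξ : Module.Dual k (K'.X 3), (dualD K 0).hom ((rtrDualCxMapF g 0).hom ξ)
        = (rtrDualCxMapF g 1).hom ((dualD K' 0).hom ξ) := by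
      intro ξ
      refine LinearMap.ext fun a => ?_
      show ξ ((g.f 3).hom ((K.d 2 3).hom a)) = ξ ((K'.d 2 3).hom ((g.f 2).hom a))
      rw [hg 2 a]
    ext ξ : 2
    exact h0 ξ
  | 1 =>
    have h1 : ∀ ξ : Module.Dual k (K'.X 2), (dualD K 1).hom ((rtrDualCxMapF g 1).hom ξ)
        = (rtrDualCxMapF g 2).hom ((dualD K' 1).hom ξ) := by
      intro ξ
      refine LinearMap.ext fun a => ?_
      show ξ ((g.f 2).hom ((K.d 1 2).hom a)) = ξ ((K'.d 1 2).hom ((g.f 1).hom a))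
      rw [hg 1 a]
    ext ξ : 2
    exact h1 ξ
  | 2 =>
    have h2 : ∀ ξ : Module.Dual k (K'.X 1), (dualD K 2).hom ((rtrDualCxMapF g 2).hom ξ)
        = (rtrDualCxMapF g 3).hom ((dualD K' 2).hom ξ) := by
      intro ξ
      refine LinearMap.ext fun a => ?_
      show ξ ((g.f 1).hom ((K.d 0 1).hom a)) = ξ ((K'.d 0 1).hom ((g.f 0).hom a))
      rw [hg 0 a]
    ext ξ : 2
    exact h2 ξ
  | 3 =>
    show rtrDualCxMapF g 3 ≫ (0 : dualX K 3 ⟶ dualX K 4) = (0 : dualX K' 3 ⟶ dualX K' 4) ≫ _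
    rw [Limits.comp_zero, Limits.zero_comp]
  | n + 4 =>
    show rtrDualCxMapF g (n + 4) ≫ (0 : dualX K (n + 4) ⟶ dualX K (n + 5))
      = (0 : dualX K' (n + 4) ⟶ dualX K' (n + 5)) ≫ _
    rw [Limits.comp_zero, Limits.zero_comp]

/-- **(d)** The transpose of a morphism of complexes (contravariant). -/
noncomputable def rtrDualCxMap (g : K ⟶ K') : dualCx K' ⟶ dualCx K where
  f n := rtrDualCxMapF g n
  comm' i j (hij : _ = _) := by
    subst hij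
    simp only [dualCx, CochainComplex.of_d]
    exact rtrDualCxMapF_comm g i

lemma rtrDualCxMap_f (g : K ⟶ K') (n : ℕ) : (rtrDualCxMap g).f n = rtrDualCxMapF g n := rfl

lemma rtrDualCxMapF_id : ∀ n, rtrDualCxMapF (𝟙 K) n = 𝟙 (dualX K n)
  | 0 => rfl
  | 1 => rfl
  | 2 => rfl
  | 3 => rfl
  | _ + 4 => rfl

lemma rtrDualCxMapF_comp (g : K ⟶ K') (g' : K' ⟶ K'') :
    ∀ n, rtrDualCxMapF (g ≫ g') n = rtrDualCxMapF g' n ≫ rtrDualCxMapF g n
  | 0 => rfl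
  | 1 => rfl
  | 2 => rfl
  | 3 => rfl
  | _ + 4 => (Category.comp_id _).symm

lemma rtrDualCxMap_id (K : CochainComplex (ModuleCat.{u} k) ℕ) :
    rtrDualCxMap (𝟙 K) = 𝟙 (dualCx K) := by
  apply HomologicalComplex.hom_ext
  intro n
  exact rtrDualCxMapF_id n

lemma rtrDualCxMap_comp (g : K ⟶ K') (g' : K' ⟶ K'') :
    rtrDualCxMap (g ≫ g') = rtrDualCxMap g' ≫ rtrDualCxMap g := by
  apply HomologicalComplex.hom_ext
  intro n
  exact rtrDualCxMapF_comp g g' n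

variable (𝔄 : ArithDatum k G)

/-- The covariant functoriality of the dual side `M ↦ dualCx (C(M^*(χ)))`. -/
noncomputable def rtrDualSideMap {M M' : Rep.{u} k G} (f : M ⟶ M') :
    dualCx (lvlComplex 𝔄.lvl (M.dualTwist 𝔄.χ))
      ⟶ dualCx (lvlComplex 𝔄.lvl (M'.dualTwist 𝔄.χ)) :=
  rtrDualCxMap (lvlMap 𝔄.lvl (rtrDualTwistMap 𝔄.χ f))

lemma rtrDualSideMap_id (M : Rep.{u} k G) :
    rtrDualSideMap 𝔄 (𝟙 M) = 𝟙 (dualCx (lvlComplex 𝔄.lvl (M.dualTwist 𝔄.χ))) := by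
  unfold rtrDualSideMap
  rw [rtrDualTwistMap_id, lvlMap_id, rtrDualCxMap_id]

lemma rtrDualSideMap_comp {M M' M'' : Rep.{u} k G} (f : M ⟶ M') (g : M' ⟶ M'') :
    rtrDualSideMap 𝔄 (f ≫ g) = rtrDualSideMap 𝔄 f ≫ rtrDualSideMap 𝔄 g := by
  unfold rtrDualSideMap
  rw [rtrDualTwistMap_comp, lvlMap_comp, rtrDualCxMap_comp]

end dualside

section natural

variable {k G : Type u} [CommRing k] [Group G]

/-- Naturality of the cup product on level cochains with respect to adjoint pairs of maps. -/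
lemma rtr_cupLvl_natural (𝒰 : LevelSys G) {A A' B B' C : Rep.{u} k G}
    (β : RepPairing A B C) (β' : RepPairing A' B' C) (f : A ⟶ A') (g : B' ⟶ B)
    (hfg : ∀ (a : A) (b' : B'), β'.toLin (f.hom a) b' = β.toLin a (g.hom b'))
    (i j : ℕ) (a : lvlCochains 𝒰 A i) (y' : lvlCochains 𝒰 B' j) :
    cupLvl 𝒰 β' i j (((lvlMap 𝒰 f).f i).hom a) y'
      = cupLvl 𝒰 β i j a (((lvlMap 𝒰 g).f j).hom y') := by
  apply Subtype.ext
  funext t
  rw [cupLvl_apply, cupLvl_apply, lvlCochainsMap_f_coe, lvlCochainsMap_f_coe, hfg,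
    Rep.hom_comm_apply]
  rfl

variable (𝔄 : ArithDatum k G)

/-- The action of `rtrCcMap` on `C_c^(n+1)` in product coordinates. -/
noncomputable def rtrCcProdMap {M M' : Rep.{u} k G} (f : M ⟶ M') (n : ℕ) :
    CcProd 𝔄 M n →ₗ[k] CcProd 𝔄 M' n :=
  LinearMap.prodMap ((lvlMap 𝔄.lvl f).f (n + 1)).hom ((rtrLocMap 𝔄 f).f n).hom

lemma rtrCcProdMap_fst {M M' : Rep.{u} k G} (f : M ⟶ M') (n : ℕ) (x : CcProd 𝔄 M n) :
    (rtrCcProdMap 𝔄 f n x).1 = ((lvlMap 𝔄.lvl f).f (n + 1)).hom x.1 := rfl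

lemma rtrCcProdMap_snd {M M' : Rep.{u} k G} (f : M ⟶ M') (n : ℕ) (x : CcProd 𝔄 M n)
    (v : 𝔄.ι) :
    (rtrCcProdMap 𝔄 f n x).2 v
      = ((lvlMap (𝔄.lvlv v) ((Rep.resFunctor (𝔄.loc v)).map f)).f n).hom (x.2 v) := rfl

/-- Naturality of the compact-support cup product. -/
lemma rtr_ccCup_natural {M M' : Rep.{u} k G} (f : M ⟶ M') (i j : ℕ) (x : CcProd 𝔄 M i)
    (y' : lvlCochains 𝔄.lvl (M'.dualTwist 𝔄.χ) j) :
    ccCup 𝔄 M' i j (rtrCcProdMap 𝔄 f i x) y'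
      = ccCup 𝔄 M i j x (((lvlMap 𝔄.lvl (rtrDualTwistMap 𝔄.χ f)).f j).hom y') := by
  refine Prod.ext ?_ ?_
  · exact rtr_cupLvl_natural 𝔄.lvl (evPairing 𝔄.χ M) (evPairing 𝔄.χ M') f
      (rtrDualTwistMap 𝔄.χ f) (fun _ _ => rfl) (i + 1) j x.1 y'
  · funext v
    exact rtr_cupLvl_natural (𝔄.lvlv v) ((evPairing 𝔄.χ M).res (𝔄.loc v))
      ((evPairing 𝔄.χ M').res (𝔄.loc v)) ((Rep.resFunctor (𝔄.loc v)).map f)
      ((Rep.resFunctor (𝔄.loc v)).map (rtrDualTwistMap 𝔄.χ f)) (fun _ _ => rfl) i j (x.2 v)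
      (locRes 𝔄 (M'.dualTwist 𝔄.χ) v j y')

variable {𝔄}

lemma rtr_theta0_natural (T : Trace 𝔄) {M M' : Rep.{u} k G} (f : M ⟶ M')
    (a : lvlCochains 𝔄.lvl M 0) (y' : lvlCochains 𝔄.lvl (M'.dualTwist 𝔄.χ) 3) :
    theta0 M' T (((lvlMap 𝔄.lvl f).f 0).hom a) y'
      = theta0 M T a (((lvlMap 𝔄.lvl (rtrDualTwistMap 𝔄.χ f)).f 3).hom y') := by
  show T.τ (cupLvl 𝔄.lvl (evPairing 𝔄.χ M') 0 3 (((lvlMap 𝔄.lvl f).f 0).hom a) y', 0)
    = T.τ (cupLvl 𝔄.lvl (evPairing 𝔄.χ M) 0 3 a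
        (((lvlMap 𝔄.lvl (rtrDualTwistMap 𝔄.χ f)).f 3).hom y'), 0)
  rw [rtr_cupLvl_natural 𝔄.lvl (evPairing 𝔄.χ M) (evPairing 𝔄.χ M') f
      (rtrDualTwistMap 𝔄.χ f) (fun _ _ => rfl) 0 3 a y']

lemma rtr_theta1_natural (T : Trace 𝔄) {M M' : Rep.{u} k G} (f : M ⟶ M')
    (x : CcProd 𝔄 M 0) (y' : lvlCochains 𝔄.lvl (M'.dualTwist 𝔄.χ) 2) :
    theta1 M' T (rtrCcProdMap 𝔄 f 0 x) y'
      = theta1 M T x (((lvlMap 𝔄.lvl (rtrDualTwistMap 𝔄.χ f)).f 2).hom y') := by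
  show -(T.τ (ccCup 𝔄 M' 0 2 (rtrCcProdMap 𝔄 f 0 x) y'))
    = -(T.τ (ccCup 𝔄 M 0 2 x (((lvlMap 𝔄.lvl (rtrDualTwistMap 𝔄.χ f)).f 2).hom y')))
  rw [rtr_ccCup_natural]

lemma rtr_theta2_natural (T : Trace 𝔄) {M M' : Rep.{u} k G} (f : M ⟶ M')
    (x : CcProd 𝔄 M 1) (y' : lvlCochains 𝔄.lvl (M'.dualTwist 𝔄.χ) 1) :
    theta2 M' T (rtrCcProdMap 𝔄 f 1 x) y'
      = theta2 M T x (((lvlMap 𝔄.lvl (rtrDualTwistMap 𝔄.χ f)).f 1).hom y') := by
  show -(T.τ (ccCup 𝔄 M' 1 1 (rtrCcProdMap 𝔄 f 1 x) y'))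
    = -(T.τ (ccCup 𝔄 M 1 1 x (((lvlMap 𝔄.lvl (rtrDualTwistMap 𝔄.χ f)).f 1).hom y')))
  rw [rtr_ccCup_natural]

lemma rtr_theta3_natural (T : Trace 𝔄) {M M' : Rep.{u} k G} (f : M ⟶ M')
    (x : CcProd 𝔄 M 2) (y' : lvlCochains 𝔄.lvl (M'.dualTwist 𝔄.χ) 0) :
    theta3 M' T (rtrCcProdMap 𝔄 f 2 x) y'
      = theta3 M T x (((lvlMap 𝔄.lvl (rtrDualTwistMap 𝔄.χ f)).f 0).hom y') := by
  show T.τ (ccCup 𝔄 M' 2 0 (rtrCcProdMap 𝔄 f 2 x) y')
    = T.τ (ccCup 𝔄 M 2 0 x (((lvlMap 𝔄.lvl (rtrDualTwistMap 𝔄.χ f)).f 0).hom y'))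
  rw [rtr_ccCup_natural]

/-- Componentwise naturality of `Θ`. -/
lemma rtr_thetaF_natural (T : Trace 𝔄) {M M' : Rep.{u} k G} (f : M ⟶ M') (n : ℕ) :
    (rtrCcMap 𝔄 f).f n ≫ thetaF M' T n = thetaF M T n ≫ (rtrDualSideMap 𝔄 f).f n := by
  match n with
  | 0 =>
    refine ModuleCat.hom_ext (LinearMap.ext fun a => ?_)
    refine LinearMap.ext fun y' => ?_
    exact rtr_theta0_natural T f a y'
  | 1 =>
    refine ModuleCat.hom_ext (LinearMap.ext fun x => ?_)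
    refine LinearMap.ext fun y' => ?_
    exact rtr_theta1_natural T f x y'
  | 2 =>
    refine ModuleCat.hom_ext (LinearMap.ext fun x => ?_)
    refine LinearMap.ext fun y' => ?_
    exact rtr_theta2_natural T f x y'
  | 3 =>
    refine ModuleCat.hom_ext (LinearMap.ext fun x => ?_)
    refine LinearMap.ext fun y' => ?_
    exact rtr_theta3_natural T f x y'
  | n + 4 =>
    show (rtrCcMap 𝔄 f).f (n + 4) ≫ (0 : _ ⟶ _) = (0 : _ ⟶ _) ≫ (rtrDualSideMap 𝔄 f).f (n + 4)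
    rw [Limits.comp_zero, Limits.zero_comp]

/-- **(e)** Naturality of the duality morphism `Θ`. -/
theorem rtr_theta_natural (T : Trace 𝔄) {M M' : Rep.{u} k G} (f : M ⟶ M')
    (h : ThetaComm M T) (h' : ThetaComm M' T) :
    rtrCcMap 𝔄 f ≫ thetaHom M' T h' = thetaHom M T h ≫ rtrDualSideMap 𝔄 f := by
  apply HomologicalComplex.hom_ext
  intro n
  exact rtr_thetaF_natural T f n

end natural

end Fermat.Agent.H89
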