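/-
helper89, P-CFT row 524 (FR-RETR): `RetractClosedStatement`.

The class `{M | Θ¹ epi, Θ² iso, Θ³ mono}` is closed under retracts: by functoriality of both
sides of `Θ` and naturality of `Θ` (`CftRetractNat`), `Hⁿ(Θ_M)` is a retract of `Hⁿ(Θ_M')` in the
arrow category, and epi / iso / mono are stable under retracts (`CftRetractCore`).
-/
import Fermat.Agent.H89.CftRetractCore
import Fermat.Agent.H89.CftRetractNat

set_option autoImplicit false

universe u

open CategoryTheory

namespace Fermat.Agent.H89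

open Fermat.Agent.H13.Cft

/-- **[F-RETR]** The class `{M | Θ¹ epi, Θ² iso, Θ³ mono}` is closed under retracts. -/
theorem retractClosedStatement : RetractClosedStatement.{u} := by
  intro k G _ _ 𝔄 T hc M M' i r hir h
  refine dualityP_of_retract (thetaHom M T (hc M)) (thetaHom M' T (hc M'))
    (rtrCcMap 𝔄 i) (rtrCcMap 𝔄 r) (rtrDualSideMap 𝔄 i) (rtrDualSideMap 𝔄 r) ?_ ?_ ?_ ?_ h
  · rw [← rtrCcMap_comp, hir, rtrCcMap_id]
  · rw [← rtrDualSideMap_comp, hir, rtrDualSideMap_id]
  · exact rtr_theta_natural T i (hc M) (hc M')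
  · exact rtr_theta_natural T r (hc M') (hc M)

end Fermat.Agent.H89
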