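import Mathlib
import Fermat.Agent.H43.Cft.HasseNorm

/-!
# P-CFT G2-CL (row 615): class groups become trivial after enlarging `T`

`existsClTrivial : ExistsClTrivialStatement`: for number fields `K ⊆ L` and a finite set `T₀` of
primes of `K` there is a finite `T ⊇ T₀` with `Cl_T(K) = 0` and `Cl_{T_L}(L) = 0`.

Proof: the class group of a number field `F` is finite; choose for each class `c` a nonzero
integral ideal `I_c` of class `c⁻¹`, and let `T₁` be the set of primes dividing some `I_c`.  For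
`v ∉ T ⊇ T₁` the ideal `v · I_c` (`c` the class of `v`) is principal, generated by `a`, and `a` has
valuation `exp (-1)` at `v` and `1` at every other prime outside `T`.
-/

set_option autoImplicit false

open NumberField IsDedekindDomain

namespace Fermat.Agent.H89

open Fermat.Agent.H43.Cft

section one

variable (F : Type*) [Field F] [NumberField F]

/-- `ClTrivial` is monotone in `T`. -/
lemma clTrivial_mono {T T' : Finset (HeightOneSpectrum (𝓞 F))} (h : T ⊆ T')
    (hT : ClTrivial F T) : ClTrivial F T' := by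
  intro v hv
  obtain ⟨x, hx, hx'⟩ := hT v (fun h' => hv (h h'))
  exact ⟨x, hx, fun w hw hwv => hx' w (fun h' => hw (h h')) hwv⟩

/-- A generator of `v · I` with `v ∤ I` has valuation `exp (-1)` at `v` and valuation `1` at every
other prime not dividing `I`. -/
lemma intValuation_of_span_eq_mul {v : HeightOneSpectrum (𝓞 F)} {I : Ideal (𝓞 F)} {a : 𝓞 F}
    (ha : Ideal.span {a} = v.asIdeal * I) (hvI : ¬ I ≤ v.asIdeal) :
    v.intValuation a = WithZero.exp (-1 : ℤ) ∧
      ∀ w : HeightOneSpectrum (𝓞 F), ¬ I ≤ w.asIdeal → w ≠ v → w.intValuation a = 1 := by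
  have hamem : ∀ J : Ideal (𝓞 F), a ∈ J ↔ v.asIdeal * I ≤ J := fun J => by
    rw [← ha, Ideal.span_singleton_le_iff_mem]
  constructor
  · have h1 : v.intValuation a ≤ WithZero.exp (-((1 : ℕ) : ℤ)) := by
      rw [v.intValuation_le_pow_iff_mem a 1, hamem, pow_one]
      exact Ideal.mul_le_left (I := v.asIdeal) (J := I)
    have h2 : ¬ v.intValuation a ≤ WithZero.exp (-((2 : ℕ) : ℤ)) := by
      rw [v.intValuation_le_pow_iff_mem a 2, hamem]
      intro hle
      apply hvI
      rw [← Ideal.dvd_iff_le] at hle ⊢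
      rw [pow_two] at hle
      exact (mul_dvd_mul_iff_left v.ne_bot).mp hle
    have h0 : v.intValuation a ≠ 0 := by
      intro h0
      rw [h0] at h2
      exact h2 zero_le
    rw [← WithZero.exp_log h0] at h1 h2 ⊢
    rw [WithZero.exp_le_exp] at h1 h2
    rw [WithZero.exp_inj]
    push_cast at h1 h2
    omega
  · intro w hwI hwv
    have hnot : a ∉ w.asIdeal := by
      rw [hamem]
      intro hle
      rcases (w.isPrime.mul_le).mp hle with h1 | h1
      · have h2 : v.asIdeal = w.asIdeal := v.isMaximal.eq_of_le w.isPrime.ne_top h1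
        exact hwv (HeightOneSpectrum.ext h2.symm)
      · exact hwI h1
    have h3 := (w.intValuation_lt_one_iff_mem a).not.mpr hnot
    exact le_antisymm (w.intValuation_le_one a) (not_lt.mp h3)

/-- For a number field `F` there is a finite set `T₁` of primes such that `Cl_T(F) = 0` for every
finite `T ⊇ T₁`. -/
theorem exists_finset_clTrivial :
    ∃ T₁ : Finset (HeightOneSpectrum (𝓞 F)),
      ∀ T : Finset (HeightOneSpectrum (𝓞 F)), T₁ ⊆ T → ClTrivial F T := by
  classical
  choose I hI using fun c : ClassGroup (𝓞 F) => ClassGroup.mk0_surjective c⁻¹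
  have hfin : ∀ c : ClassGroup (𝓞 F),
      {w : HeightOneSpectrum (𝓞 F) | w.asIdeal ∣ (I c : Ideal (𝓞 F))}.Finite := fun c =>
    Ideal.finite_factors (nonZeroDivisors.coe_ne_zero (I c))
  refine ⟨Finset.univ.biUnion fun c => (hfin c).toFinset, fun T hT v hv => ?_⟩
  have hv0 : v.asIdeal ∈ nonZeroDivisors (Ideal (𝓞 F)) :=
    mem_nonZeroDivisors_of_ne_zero v.ne_bot
  have hmemT : ∀ (c : ClassGroup (𝓞 F)) (w : HeightOneSpectrum (𝓞 F)), w ∉ T →
      ¬ (I c : Ideal (𝓞 F)) ≤ w.asIdeal := by
    intro c w hw hle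
    apply hw
    apply hT
    rw [Finset.mem_biUnion]
    refine ⟨c, Finset.mem_univ _, ?_⟩
    rw [Set.Finite.mem_toFinset, Set.mem_ofPred_eq, Ideal.dvd_iff_le]
    exact hle
  obtain ⟨a, ha⟩ : ∃ a : 𝓞 F, Ideal.span {a}
      = v.asIdeal * (I (ClassGroup.mk0 ⟨v.asIdeal, hv0⟩) : Ideal (𝓞 F)) := by
    have hprod : ClassGroup.mk0
        (⟨v.asIdeal, hv0⟩ * I (ClassGroup.mk0 ⟨v.asIdeal, hv0⟩)) = 1 := by
      rw [map_mul, hI]
      exact mul_inv_cancel _
    rw [ClassGroup.mk0_eq_one_iff] at hprod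
    obtain ⟨a, ha⟩ := hprod.principal
    exact ⟨a, ha.symm⟩
  obtain ⟨hv1, hw1⟩ := intValuation_of_span_eq_mul F ha (hmemT _ v hv)
  have ha0 : algebraMap (𝓞 F) F a ≠ 0 := by
    intro h0
    have h00 : v.valuation F (algebraMap (𝓞 F) F a) = 0 := by rw [h0, map_zero]
    rw [HeightOneSpectrum.valuation_of_algebraMap, hv1] at h00
    exact WithZero.exp_ne_zero h00
  refine ⟨Units.mk0 _ ha0, ?_, fun w hw hwv => ?_⟩
  · rw [Units.val_mk0, HeightOneSpectrum.valuation_of_algebraMap, hv1]
  · rw [Units.val_mk0, HeightOneSpectrum.valuation_of_algebraMap]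
    exact hw1 w (hmemT _ w hw) hwv

end one

universe u v

/-- **G2-CL.** The class groups of `K` and `L` become trivial after enlarging `T`. -/
theorem existsClTrivial : ExistsClTrivialStatement.{u, v} := by
  classical
  intro K _ _ L _ _ _ T₀
  obtain ⟨TK, hTK⟩ := exists_finset_clTrivial K
  obtain ⟨TL, hTL⟩ := exists_finset_clTrivial L
  refine ⟨T₀ ∪ TK ∪ TL.image (fun w => w.under (𝓞 K)), ?_, ?_, ?_⟩
  · exact fun v hv => Finset.mem_union_left _ (Finset.mem_union_left _ hv)
  · exact hTK _ fun v hv => Finset.mem_union_left _ (Finset.mem_union_right _ hv)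
  · refine hTL _ fun w hw => ?_
    rw [mem_primesAbove]
    exact Finset.mem_union_right _ (Finset.mem_image_of_mem _ hw)

end Fermat.Agent.H89
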