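import Fermat.Agent.H53.S14T.Interfaces
import Fermat.Agent.H13.S14Final

/-!
# P-S14, block T, row T-L: the local lemma at `p` (assembly)

`localLemma_of_parts : CycloLocalStatement → MoveStatement → FixedFieldStatement →
  LocalLemmaStatement`.
-/

set_option autoImplicit false

open scoped NumberField nonZeroDivisors

namespace Fermat.Agent.H89

open Fermat.Agent.H13 Fermat.Agent.H53

/-- Elements of `ℚ̄` integral over `ℤ` lie in every valuation subring. -/
theorem mem_valuationSubring_of_isIntegral (A : ValuationSubring (AlgebraicClosure ℚ))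
    {x : AlgebraicClosure ℚ} (hx : IsIntegral ℤ x) : x ∈ A := by
  have h1 : IsIntegral A x := hx.tower_top
  obtain ⟨y, hy⟩ := IsIntegrallyClosed.isIntegral_iff.mp h1
  rw [← hy]
  exact y.2

/-- Integers of `K` land in every valuation subring of `ℚ̄`. -/
theorem iota_integer_mem (K : Type) [Field K] [NumberField K]
    (ι : K →ₐ[ℚ] AlgebraicClosure ℚ) (A : ValuationSubring (AlgebraicClosure ℚ)) (x : 𝓞 K) :
    ι (x : K) ∈ A :=
  mem_valuationSubring_of_isIntegral A
    (map_isIntegral_int ι (NumberField.RingOfIntegers.isIntegral_coe x))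

/-- Units of `𝓞 K` have valuation one. -/
theorem valuation_iota_unit (K : Type) [Field K] [NumberField K]
    (ι : K →ₐ[ℚ] AlgebraicClosure ℚ) (A : ValuationSubring (AlgebraicClosure ℚ)) (u : 𝓞 K)
    (hu : IsUnit u) : A.valuation (ι (u : K)) = 1 := by
  obtain ⟨w, hw⟩ := hu.exists_right_inv
  have h1 : A.valuation (ι (u : K)) ≤ 1 :=
    (A.valuation_le_one_iff _).mpr (iota_integer_mem K ι A u)
  have h2 : A.valuation (ι (w : K)) ≤ 1 :=
    (A.valuation_le_one_iff _).mpr (iota_integer_mem K ι A w)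
  have h3 : A.valuation (ι (u : K)) * A.valuation (ι (w : K)) = 1 := by
    rw [← map_mul, ← map_mul]
    have : ((u : K) * (w : K)) = 1 := by
      have := congrArg (fun t : 𝓞 K => (t : K)) hw
      simpa using this
    rw [this, map_one, map_one]
  rcases lt_or_eq_of_le h1 with h | h
  · exfalso
    have : A.valuation (ι (u : K)) * A.valuation (ι (w : K)) < 1 :=
      mul_lt_one_of_lt_of_le h h2
    exact this.ne h3
  · exact h


/-- Key valuation computation: if `y ^ p = U` with `v U = 1`, `D = U - c0 ^ p`,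
`v p < v D < 1`, then `v ((y - c0) ^ p) = v D`. -/
theorem valuation_root_sub_pow (p : ℕ) (hp : p.Prime)
    (A : ValuationSubring (AlgebraicClosure ℚ)) (hA : A.LiesOverPrime p)
    (U D : AlgebraicClosure ℚ) (c0 : ℤ) (hD : D = U - (c0 : AlgebraicClosure ℚ) ^ p)
    (hU : A.valuation U = 1) (hD1 : A.valuation D < 1)
    (hD2 : A.valuation ((p : ℕ) : AlgebraicClosure ℚ) < A.valuation D)
    (y : AlgebraicClosure ℚ) (hy : y ^ p = U) :
    A.valuation ((y - (c0 : AlgebraicClosure ℚ)) ^ p) = A.valuation D := by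
  have hp0 : p ≠ 0 := hp.ne_zero
  have hvp1 : A.valuation ((p : ℕ) : AlgebraicClosure ℚ) < 1 := A.mem_nonunits_iff.mp hA
  have hvp0 : 0 < A.valuation ((p : ℕ) : AlgebraicClosure ℚ) := by
    rw [Valuation.pos_iff]
    exact_mod_cast hp0
  -- `y ∈ A`
  have hvy : A.valuation y = 1 := by
    have h : A.valuation y ^ p = 1 := by rw [← map_pow, hy, hU]
    exact (pow_eq_one_iff_of_nonneg zero_le hp0).mp h
  have hyA : y ∈ A := (A.valuation_le_one_iff y).mp hvy.le
  have hcA : (c0 : AlgebraicClosure ℚ) ∈ A := intCast_mem A c0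
  -- binomial expansion inside `A`
  obtain ⟨r, hr⟩ := exists_add_pow_prime_eq hp
    ((⟨y, hyA⟩ : A) - ⟨(c0 : AlgebraicClosure ℚ), hcA⟩) (⟨(c0 : AlgebraicClosure ℚ), hcA⟩ : A)
  have hr' := congrArg (fun t : A => (t : AlgebraicClosure ℚ)) hr
  simp only [sub_add_cancel] at hr'
  push_cast at hr'
  set z : AlgebraicClosure ℚ := y - (c0 : AlgebraicClosure ℚ) with hz
  set t : AlgebraicClosure ℚ := (p : AlgebraicClosure ℚ) * z * (c0 : AlgebraicClosure ℚ) * (r : AlgebraicClosure ℚ) with ht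
  have hzp : z ^ p = D - t := by
    rw [hD, ← hy, hr']
    ring
  have hvz1 : A.valuation z ≤ 1 := (A.valuation_le_one_iff z).mpr (A.sub_mem hyA hcA)
  have hvc1 : A.valuation (c0 : AlgebraicClosure ℚ) ≤ 1 := (A.valuation_le_one_iff _).mpr hcA
  have hvr1 : A.valuation (r : AlgebraicClosure ℚ) ≤ 1 := A.valuation_le_one r
  have hvt : A.valuation t ≤ A.valuation ((p : ℕ) : AlgebraicClosure ℚ) * A.valuation z := by
    rw [ht, map_mul, map_mul, map_mul, mul_assoc]
    calc A.valuation (p : AlgebraicClosure ℚ) * A.valuation z *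
          (A.valuation (c0 : AlgebraicClosure ℚ) * A.valuation (r : AlgebraicClosure ℚ))
        ≤ A.valuation (p : AlgebraicClosure ℚ) * A.valuation z * 1 := by
          gcongr
          exact mul_le_one' hvc1 hvr1
      _ = A.valuation ((p : ℕ) : AlgebraicClosure ℚ) * A.valuation z := by rw [mul_one]
  -- `v z < 1`
  have hvz : A.valuation z < 1 := by
    rcases lt_or_eq_of_le hvz1 with h | h
    · exact h
    · exfalso
      have h1 : A.valuation (z ^ p) = 1 := by rw [map_pow, h, one_pow]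
      have h2 : A.valuation t < 1 := by
        refine lt_of_le_of_lt hvt ?_
        rw [h, mul_one]
        exact hvp1
      have h3 : A.valuation (D - t) < 1 := Valuation.map_sub_lt _ hD1 h2
      rw [hzp] at h1
      exact h3.ne h1
  have hvt2 : A.valuation t < A.valuation D := by
    refine lt_of_le_of_lt hvt (lt_trans ?_ hD2)
    calc A.valuation ((p : ℕ) : AlgebraicClosure ℚ) * A.valuation z
        < A.valuation ((p : ℕ) : AlgebraicClosure ℚ) * 1 := by
          exact mul_lt_mul_of_pos_left hvz hvp0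
      _ = A.valuation ((p : ℕ) : AlgebraicClosure ℚ) := mul_one _
  rw [hzp]
  exact Valuation.map_sub_eq_of_lt_left _ hvt2


/-- Fermat's little theorem in the form `p ∣ c - c ^ p` over `ℤ`. -/
theorem int_prime_dvd_sub_pow (p : ℕ) (hp : p.Prime) (c : ℤ) : (p : ℤ) ∣ c - c ^ p := by
  have : Fact p.Prime := ⟨hp⟩
  rw [← ZMod.intCast_zmod_eq_zero_iff_dvd]
  push_cast
  rw [ZMod.pow_card, sub_self]

/-- Exponent bookkeeping: if `a ^ (p - 1) < a ^ j < 1` with `0 < a < 1` then `0 < j < p - 1`. -/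
theorem zpow_exponent_bounds {Γ : Type*} [LinearOrderedCommGroupWithZero Γ] (a : Γ)
    (ha0 : 0 < a) (ha1 : a < 1) (p : ℕ) (j : ℤ) (h1 : a ^ j < 1)
    (h2 : a ^ (p - 1) < a ^ j) : 0 < j ∧ j < ((p - 1 : ℕ) : ℤ) := by
  constructor
  · have : a ^ j < a ^ (0 : ℤ) := by simpa using h1
    exact (zpow_lt_zpow_iff_right_of_lt_one₀ ha0 ha1).mp this
  · have : a ^ (((p - 1 : ℕ) : ℤ)) < a ^ j := by
      rw [zpow_natCast]
      exact h2
    exact (zpow_lt_zpow_iff_right_of_lt_one₀ ha0 ha1).mp this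

/-- If `v (z ^ p) = a ^ j` with `p ∤ j`, then `v z` is not an integral power of `a`. -/
theorem valuation_ne_zpow_of_not_dvd {Γ : Type*} [LinearOrderedCommGroupWithZero Γ] (a : Γ)
    (ha0 : 0 < a) (ha1 : a < 1) (p : ℕ) (j : ℤ) (hj : ¬ (p : ℤ) ∣ j) (w : Γ)
    (hw : w ^ p = a ^ j) (i : ℤ) : w ≠ a ^ i := by
  intro h
  have hanti : StrictAnti (fun n : ℤ => a ^ n) := zpow_right_strictAnti₀ ha0 ha1
  have h1 : a ^ (i * (p : ℤ)) = a ^ j := by
    rw [zpow_mul, zpow_natCast, ← h, hw]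
  have h2 : i * (p : ℤ) = j := hanti.injective h1
  exact hj ⟨i, by rw [← h2, mul_comm]⟩

/-- **T-L**: the local lemma at `p`, assembled from the cyclotomic local statement, the moving
statement and the fixed-field statement. -/
theorem localLemma_of_parts (hC : CycloLocalStatement) (hM : MoveStatement)
    (hG4 : FixedFieldStatement) : LocalLemmaStatement := by
  intro p _ hp3 K _ _ _ ι ζ hζ u hu y hy hnp A hA hfix
  have hp : p.Prime := Fact.out
  have : NeZero p := ⟨hp.ne_zero⟩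
  obtain ⟨hπ1, hπp, hπj, hres, -, hdiv⟩ := hC p hp3 K ι ζ hζ A hA
  obtain ⟨c0, hc0⟩ := hres u
  refine ⟨c0 ^ p, ?_⟩
  by_contra hnd
  -- the uniformizer
  have hζ1 : ζ - 1 ≠ 0 := by
    intro h
    have h1 : ζ = 1 := sub_eq_zero.mp h
    have := hζ.ne_one hp.one_lt
    exact this h1
  have hπ0 : 0 < A.valuation (ι (ζ - 1)) := by
    rw [Valuation.pos_iff]
    exact (map_ne_zero_iff ι ι.injective).mpr hζ1
  have hvp1 : A.valuation ((p : ℕ) : AlgebraicClosure ℚ) < 1 := A.mem_nonunits_iff.mp hA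
  -- the element `d = u - c0 ^ p`
  obtain ⟨d, hd⟩ : ∃ d : 𝓞 K, d = u - ((c0 ^ p : ℤ) : 𝓞 K) := ⟨_, rfl⟩
  rw [← hd] at hnd
  have hdK : (d : K) = (u : K) - (c0 : K) ^ p := by
    rw [hd]
    push_cast
    rfl
  have hιd : ι (d : K) = ι (u : K) - (c0 : AlgebraicClosure ℚ) ^ p := by
    rw [hdK, map_sub, map_pow, map_intCast]
  have hvd2 : A.valuation ((p : ℕ) : AlgebraicClosure ℚ) < A.valuation (ι (d : K)) := by
    by_contra h
    exact hnd (hdiv d (not_lt.mp h))
  have hd0 : (d : K) ≠ 0 := by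
    intro h
    rw [h, map_zero, map_zero] at hvd2
    exact not_lt_zero hvd2
  have hvu : A.valuation (ι (u : K)) = 1 := valuation_iota_unit K ι A u hu
  have hvd1 : A.valuation (ι (d : K)) < 1 := by
    have h1 : A.valuation (ι ((u : K) - (c0 : K))) < 1 := A.mem_nonunits_iff.mp hc0
    obtain ⟨m, hm⟩ := int_prime_dvd_sub_pow p hp c0
    have h2 : A.valuation ((c0 : AlgebraicClosure ℚ) - (c0 : AlgebraicClosure ℚ) ^ p) < 1 := by
      have e : (c0 : AlgebraicClosure ℚ) - (c0 : AlgebraicClosure ℚ) ^ p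
          = ((p : ℕ) : AlgebraicClosure ℚ) * (m : AlgebraicClosure ℚ) := by
        have := congrArg (fun t : ℤ => (t : AlgebraicClosure ℚ)) hm
        simpa using this
      rw [e, map_mul]
      have hm1 : A.valuation (m : AlgebraicClosure ℚ) ≤ 1 :=
        (A.valuation_le_one_iff _).mpr (intCast_mem A m)
      exact mul_lt_one_of_lt_of_le hvp1 hm1
    have e2 : ι (d : K) = ι ((u : K) - (c0 : K))
        + ((c0 : AlgebraicClosure ℚ) - (c0 : AlgebraicClosure ℚ) ^ p) := by
      rw [hιd, map_sub, map_intCast]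
      ring
    rw [e2]
    exact Valuation.map_add_lt _ h1 h2
  -- exponent of `d`
  obtain ⟨j, hj⟩ := hπj (d : K) hd0
  have hjb : 0 < j ∧ j < ((p - 1 : ℕ) : ℤ) := by
    refine zpow_exponent_bounds _ hπ0 hπ1 p j ?_ ?_
    · rw [← hj]; exact hvd1
    · rw [← hj, ← hπp]; exact hvd2
  have hpj : ¬ (p : ℤ) ∣ j := by
    intro h
    have h1 := Int.le_of_dvd hjb.1 h
    have h2 : ((p - 1 : ℕ) : ℤ) ≤ (p : ℤ) := by
      exact_mod_cast Nat.sub_le p 1
    omega
  -- valuations attached to an arbitrary `p`-th root of `ι u`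
  have key : ∀ y' : AlgebraicClosure ℚ, y' ^ p = ι (u : K) →
      A.valuation ((y' - (c0 : AlgebraicClosure ℚ)) ^ p) = A.valuation (ι (d : K)) ∧
      ∀ c : K, c ≠ 0 → A.valuation (y' - (c0 : AlgebraicClosure ℚ)) ≠ A.valuation (ι c) := by
    intro y' hy'
    have h1 := valuation_root_sub_pow p hp A hA (ι (u : K)) (ι (d : K)) c0 hιd hvu hvd1 hvd2 y' hy'
    refine ⟨h1, ?_⟩
    intro c hc
    obtain ⟨i, hi⟩ := hπj c hc
    rw [hi]
    refine valuation_ne_zpow_of_not_dvd _ hπ0 hπ1 p j hpj _ ?_ i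
    rw [← map_pow, h1, hj]
  -- `y` is not in the image of `ι`, so it is moved by some `τ` fixing `ι ζ`
  have hynot : ¬ ∃ k : K, ι k = y := by
    rintro ⟨k, hk⟩
    have h1 : ι (k ^ p) = ι (u : K) := by rw [map_pow, hk, hy]
    exact hnp ⟨k, ι.injective h1⟩
  obtain ⟨τ, hτζ, hτy⟩ : ∃ τ : GQ, τ (ι ζ) = ι ζ ∧ τ y ≠ y := by
    by_contra h
    refine hynot (hG4 p K ι ζ hζ y (fun τ hτ => ?_))
    by_contra h2
    exact h ⟨τ, hτ, h2⟩
  have hτK : ∀ k : K, τ (ι k) = ι k := fun k => fixes_range_of_fixes_zeta p K ι ζ hζ τ hτζ k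
  have hτiK : ∀ k : K, τ⁻¹ (ι k) = ι k := by
    intro k
    have h1 : τ⁻¹ (τ (ι k)) = ι k := τ.symm_apply_apply (ι k)
    rw [hτK k] at h1
    exact h1
  -- `τ y = ι (ζ ^ i) * y`
  have hy0 : y ≠ 0 := by
    intro h
    rw [h, zero_pow hp.ne_zero] at hy
    have : A.valuation (ι (u : K)) = 0 := by rw [← hy, map_zero]
    rw [hvu] at this
    exact one_ne_zero this
  have hτyp : (τ y / y) ^ p = 1 := by
    rw [div_pow, ← map_pow, hy, hτK]
    exact div_self (by rw [← hy]; exact pow_ne_zero _ hy0)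
  have hιζ : IsPrimitiveRoot (ι ζ) p := hζ.map_of_injective ι.injective
  obtain ⟨i, -, hi⟩ := hιζ.eq_pow_of_pow_eq_one hτyp
  have hτy' : τ y = ι (ζ ^ i) * y := by
    rw [map_pow, hi]
    field_simp
  -- the polynomial
  set z : AlgebraicClosure ℚ := y - (c0 : AlgebraicClosure ℚ) with hz
  have hzy : y = z + (c0 : AlgebraicClosure ℚ) := by rw [hz]; ring
  let f : Polynomial K := (Polynomial.X + Polynomial.C (c0 : K)) ^ p - Polynomial.C (u : K)
  have hdeg1 : ((Polynomial.X + Polynomial.C (c0 : K)) ^ p : Polynomial K).natDegree = p :=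
    Polynomial.natDegree_pow_X_add_C p _
  have hmon1 : ((Polynomial.X + Polynomial.C (c0 : K)) ^ p : Polynomial K).Monic :=
    (Polynomial.monic_X_add_C _).pow p
  have hfm : f.Monic := by
    refine hmon1.sub_of_left ?_
    refine lt_of_le_of_lt Polynomial.degree_C_le ?_
    rw [Polynomial.degree_eq_natDegree hmon1.ne_zero, hdeg1]
    exact_mod_cast hp.pos
  have hfd : f.natDegree = p := by
    have : (Polynomial.C (u : K)).natDegree <
        ((Polynomial.X + Polynomial.C (c0 : K)) ^ p : Polynomial K).natDegree := by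
      rw [Polynomial.natDegree_C, hdeg1]
      exact hp.pos
    rw [show f = (Polynomial.X + Polynomial.C (c0 : K)) ^ p - Polynomial.C (u : K) from rfl,
      Polynomial.natDegree_sub_eq_left_of_natDegree_lt this, hdeg1]
  have hfe : Polynomial.eval₂ (ι : K →+* AlgebraicClosure ℚ) z f = 0 := by
    rw [show f = (Polynomial.X + Polynomial.C (c0 : K)) ^ p - Polynomial.C (u : K) from rfl,
      Polynomial.eval₂_sub, Polynomial.eval₂_pow, Polynomial.eval₂_add, Polynomial.eval₂_X,
      Polynomial.eval₂_C, Polynomial.eval₂_C]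
    have : (ι : K →+* AlgebraicClosure ℚ) (c0 : K) = (c0 : AlgebraicClosure ℚ) := map_intCast _ _
    rw [this, ← hzy, hy]
    exact sub_self _
  -- `τ z` lies in `ι K (z)`
  have hτz : τ z = ι (ζ ^ i) * (z + (c0 : AlgebraicClosure ℚ)) - (c0 : AlgebraicClosure ℚ) := by
    rw [← hzy, ← hτy', hz, map_sub, map_intCast]
  have hτzmem : τ z ∈ IntermediateField.adjoin ℚ (Set.range ι ∪ {z}) := by
    rw [hτz]
    have hc : (c0 : AlgebraicClosure ℚ) ∈ IntermediateField.adjoin ℚ (Set.range ι ∪ {z}) :=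
      intCast_mem _ c0
    refine sub_mem (mul_mem ?_ (add_mem ?_ hc)) hc
    · exact IntermediateField.subset_adjoin _ _ (Or.inl ⟨_, rfl⟩)
    · exact IntermediateField.subset_adjoin _ _ (Or.inr rfl)
  -- valuations for `z` and `τ⁻¹ z`
  obtain ⟨hv1, hv2⟩ := key y hy
  have hτiy : (τ⁻¹ y) ^ p = ι (u : K) := by
    rw [← map_pow, hy, hτiK]
  obtain ⟨hv3, hv4⟩ := key (τ⁻¹ y) hτiy
  have hτiz : τ⁻¹ z = τ⁻¹ y - (c0 : AlgebraicClosure ℚ) := by
    rw [hz, map_sub, map_intCast]
  rw [← hτiz] at hv3 hv4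
  obtain ⟨σ, hσD, hσK, hσz⟩ :=
    hM p hp K ι z f hfm hfd hfe (d : K) hd0 A p hp hA τ hτK hτzmem hv1 hv2 hv3 hv4
  have hσy : σ y = τ y := by
    rw [hzy, map_add, map_add, hσz, map_intCast, map_intCast]
  exact hτy (by rw [← hσy]; exact hfix σ hσD (hσK ζ))

end Fermat.Agent.H89
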