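import Fermat.Agent.H36.ESE.TorsionInterfaces
import Fermat.Agent.H42.ESEKronDescent
import Fermat.Agent.H89.ESDA3AlgClosed

/-!
# P-ES / ES-E, row Q-ES-2: the norm congruence

`NormCongruenceStatement N` from `NormSeriesStatement N` (Q-ES-1):
for an `A`-integral Laurent series `a` in `F_L`, the series `Tm a` is `A`-integral and its
reduction `t` satisfies `t(q^ℓ) = abar(q^{ℓ²}) · abar(q)^ℓ`.

Proof: a primitive `ℓ`-th root of unity `ζ` lies in `A` and reduces to `1`; the right hand side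
of Q-ES-1 is the coefficient extension of the series
`R = a(q^{ℓ²}) ∏_b a(ζ^b q)` over `A`, which is therefore supported on `ℓℤ`; `a' := R(q^{1/ℓ})`.
-/

set_option autoImplicit false
set_option linter.style.haveILetI false

noncomputable section

open ModularCurve Polynomial Fermat.Agent.H27 Fermat.Agent.H36

namespace Fermat.Agent.H89

/-- a root of unity of a field lies in every valuation subring, as a unit -/
theorem exists_unit_of_pow_eq_one {L : Type*} [Field L] (A : ValuationSubring L) (ζ : Lˣ)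
    (n : ℕ) (hn : 0 < n) (hζ : ζ ^ n = 1) : ∃ ζA : Aˣ, Units.map A.subtype.toMonoidHom ζA = ζ := by
  have hmem : ∀ ξ : Lˣ, ξ ^ n = 1 → (ξ : L) ∈ A := by
    intro ξ hξ
    have hint : IsIntegral A (ξ : L) := by
      refine ⟨X ^ n - 1, Polynomial.monic_X_pow_sub_C (1 : A) hn.ne', ?_⟩
      have h1 : ((ξ : L)) ^ n = 1 := by
        rw [← Units.val_pow_eq_pow_val, hξ, Units.val_one]
      simp [h1]
    obtain ⟨y, hy⟩ := IsIntegrallyClosed.isIntegral_iff.mp hint
    rw [← hy]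
    exact y.2
  have hinv : ζ⁻¹ ^ n = 1 := by rw [inv_pow, hζ, inv_one]
  refine ⟨⟨⟨ζ, hmem ζ hζ⟩, ⟨(ζ⁻¹ : Lˣ), hmem ζ⁻¹ hinv⟩, ?_, ?_⟩, ?_⟩
  · apply Subtype.ext
    simp
  · apply Subtype.ext
    simp
  · apply Units.ext
    rfl

/-- in a domain of characteristic `ℓ`, the only `ℓ`-th root of unity is `1` -/
theorem eq_one_of_pow_char_eq_one {k : Type*} [CommRing k] [IsDomain k] (ℓ : ℕ) [Fact ℓ.Prime]
    [CharP k ℓ] (x : k) (hx : x ^ ℓ = 1) : x = 1 := by
  have h : (x - 1) ^ ℓ = 0 := by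
    rw [sub_pow_char, hx, one_pow, sub_self]
  exact sub_eq_zero.mp (pow_eq_zero_iff (Fact.out : ℓ.Prime).ne_zero |>.mp h)

/-- **Q-ES-2.** -/
theorem normCongruence_of_normSeries (N : ℕ) [NeZero N] (h1 : NormSeriesStatement N) :
    NormCongruenceStatement N := by
  intro ℓ _ hℓ hℓN A hA a ha
  haveI : Fact ℓ.Prime := ⟨hℓ⟩
  haveI hchar : CharP (IsLocalRing.ResidueField A) ℓ :=
    charP_residueField_of_liesOverPrime A ℓ hA
  -- a primitive `ℓ`-th root of unity
  have hℓ0 : ((ℓ : ℕ) : AlgebraicClosure ℚ) ≠ 0 := Nat.cast_ne_zero.mpr hℓ.ne_zero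
  haveI : NeZero ((ℓ : ℕ) : AlgebraicClosure ℚ) := ⟨hℓ0⟩
  obtain ⟨ζ₀, hζ₀⟩ := HasEnoughRootsOfUnity.exists_primitiveRoot (AlgebraicClosure ℚ) ℓ
  obtain ⟨ζ, hζ⟩ : ∃ ζ : (AlgebraicClosure ℚ)ˣ, IsPrimitiveRoot (ζ : AlgebraicClosure ℚ) ℓ :=
    ⟨(hζ₀.isUnit hℓ.ne_zero).unit, by simpa using hζ₀⟩
  have hζpow : ζ ^ ℓ = 1 := Units.ext (by
    rw [Units.val_pow_eq_pow_val, hζ.pow_eq_one, Units.val_one])
  obtain ⟨ζA, hζA⟩ := exists_unit_of_pow_eq_one A ζ ℓ hℓ.pos hζpow
  have hζApow : ζA ^ ℓ = 1 := by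
    apply Units.map_injective (f := A.subtype.toMonoidHom) Subtype.val_injective
    rw [map_pow, hζA, hζpow, map_one]
  have hres : Units.map (IsLocalRing.residue A).toMonoidHom ζA = 1 := by
    apply Units.ext
    rw [Units.coe_map, Units.val_one]
    apply eq_one_of_pow_char_eq_one ℓ
    have := congrArg (fun u : Aˣ => IsLocalRing.residue A (u : A)) hζApow
    simpa using this
  -- the series over `A`
  set R : LaurentSeries A :=
    qExpand A ℓ (qExpand A ℓ a) * ∏ b ∈ Finset.range ℓ, twist (ζA ^ b) a with hR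
  have hRL : coeffMap A.subtype R =
      qExpand (AlgebraicClosure ℚ) ℓ
        ((heckeTm (AlgebraicClosure ℚ) N ℓ ⟨coeffMap A.subtype a, ha⟩ :
          modularFunctionFieldBar N) : LaurentSeries (AlgebraicClosure ℚ)) := by
    rw [h1 ℓ hℓ hℓN ζ hζ ⟨coeffMap A.subtype a, ha⟩, hR, map_mul, map_prod,
      ModularCurve.coeffMap_qExpand, ModularCurve.coeffMap_qExpand]
    congr 1
    refine Finset.prod_congr rfl fun b _ => ?_
    rw [Fermat.Agent.H67.coeffMap_twist, map_pow]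
    have h3 : Units.map ((A.subtype : A →+* AlgebraicClosure ℚ) : A →* AlgebraicClosure ℚ) ζA =
        ζ := hζA
    rw [h3]
  have hsupp : ∀ n : ℤ, ¬ (ℓ : ℤ) ∣ n → R.coeff n = 0 := by
    intro n hn
    have h2 := congrArg (fun x => x.coeff n) hRL
    simp only [coeffMap_coeff] at h2
    rw [qExpand_coeff_of_not_dvd ℓ _ hn] at h2
    exact Subtype.ext h2
  refine ⟨Fermat.Agent.H42.qContract ℓ R, ?_, ?_⟩
  · apply qExpand_injective (R := AlgebraicClosure ℚ) ℓ
    rw [← ModularCurve.coeffMap_qExpand, Fermat.Agent.H42.qExpand_qContract ℓ R hsupp, hRL]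
  · rw [← ModularCurve.coeffMap_qExpand, Fermat.Agent.H42.qExpand_qContract ℓ R hsupp, hR,
      map_mul, map_prod, ModularCurve.coeffMap_qExpand, ModularCurve.coeffMap_qExpand]
    congr 1
    have hb : ∀ b ∈ Finset.range ℓ, coeffMap (IsLocalRing.residue A) (twist (ζA ^ b) a) =
        coeffMap (IsLocalRing.residue A) a := by
      intro b _
      rw [Fermat.Agent.H67.coeffMap_twist, map_pow]
      have : Units.map ((IsLocalRing.residue A : A →+* IsLocalRing.ResidueField A) :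
          A →* IsLocalRing.ResidueField A) ζA = 1 := hres
      rw [this, one_pow, Fermat.Agent.H42.twist_one']
    rw [Finset.prod_congr rfl hb, Finset.prod_const, Finset.card_range]

end Fermat.Agent.H89
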