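import Fermat.Agent.H27.ESD.Interfaces1c
import Fermat.Agent.H89.ESDA3
import Fermat.Agent.H16.FFPrincipal
import Fermat.Agent.H58.RR.Growth

/-!
# ES-D target [T1]: `RRModLStatement`

Assembly of
* `Fermat.Agent.H89.ffModLStatement` (row 302: `k` algebraically closed, `F_k / k(j)` finite
  separable, `j` transcendental),
* helper16's characteristic-free basics (`ffb_deg_eq_one`, `ffb_hasPrincipalDivisors`,
  `ffb_fundamentalIdentity_zeros`),
* helper58's growth lemma (`rrHyp_of_finite`).

* `rrHyp_of_separating`: `RRHyp K F` for every function field with a separating element over an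
  algebraically closed field of any characteristic.
* `riemannTheoremStatement`: the wave-1 form (`RiemannTheoremStatement`).
* `rrModLStatement : RRModLStatement`.
-/

set_option autoImplicit false
set_option synthInstance.maxHeartbeats 400000
set_option linter.style.haveILetI false

noncomputable section

open AlgebraicCurve IntermediateField ModularCurve

namespace Fermat.Agent.H89

/-- **Riemann hypotheses from a separating element** (any characteristic). -/
theorem rrHyp_of_separating {K F : Type*} [Field K] [Field F] [Algebra K F] [IsAlgClosed K]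
    (x : F) (hx : Transcendental K x) [FiniteDimensional K⟮x⟯ F]
    [Algebra.IsSeparable K⟮x⟯ F] : Fermat.Agent.H58.RRHyp K F := by
  classical
  haveI hP : HasPrincipalDivisors K F := Fermat.Agent.H16.ffb_hasPrincipalDivisors x
  have hdeg : ∀ v : Place K F, v.deg = 1 := fun v => Fermat.Agent.H16.ffb_deg_eq_one x v
  have hxi : Transcendental K x⁻¹ := by
    intro h
    apply hx
    have := h.inv
    rwa [inv_inv] at this
  have hinv : K⟮x⁻¹⟯ = K⟮x⟯ := Fermat.Agent.H16.ffb_adjoin_simple_inv x
  have key : {v : Place K F | 0 < v.ord x⁻¹}.Finite ∧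
      ∑ᶠ v ∈ {v : Place K F | 0 < v.ord x⁻¹}, v.ord x⁻¹ = (Module.finrank K⟮x⟯ F : ℤ) := by
    have h1 : ∀ (E : IntermediateField K F), E = K⟮x⟯ → K⟮x⁻¹⟯ = E →
        {v : Place K F | 0 < v.ord x⁻¹}.Finite ∧
        ∑ᶠ v ∈ {v : Place K F | 0 < v.ord x⁻¹}, v.ord x⁻¹ = (Module.finrank E F : ℤ) := by
      intro E hE hE'
      subst hE'
      have : FiniteDimensional K⟮x⁻¹⟯ F := hE ▸ (inferInstance : FiniteDimensional K⟮x⟯ F)
      have : Algebra.IsSeparable K⟮x⁻¹⟯ F := hE ▸ (inferInstance : Algebra.IsSeparable K⟮x⟯ F)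
      exact Fermat.Agent.H16.ffb_fundamentalIdentity_zeros x⁻¹ hxi
    exact h1 K⟮x⟯ rfl hinv
  obtain ⟨hfinset, hsum⟩ := key
  -- the pole divisor of `x`
  let B : Divisor K F := Finsupp.ofSupportFinite (fun v => max 0 (-(v.ord x))) (by
    refine hfinset.subset fun v hv => ?_
    rw [Function.mem_support] at hv
    rw [Set.mem_ofPred_eq, Place.ord_inv]
    by_contra hcon
    exact hv (max_eq_left (by omega)))
  have hB : ∀ v : Place K F, B v = max 0 (-(v.ord x)) := fun v => rfl
  have hB0 : 0 ≤ B := by
    rw [Finsupp.le_def]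
    intro v
    rw [hB]
    exact le_max_left _ _
  have hBx : ∀ v : Place K F, -B v ≤ v.ord x := by
    intro v
    rw [hB]
    have := le_max_right 0 (-(v.ord x))
    omega
  have hBdeg : Divisor.degree B = (Module.finrank K⟮x⟯ F : ℤ) := by
    rw [← hsum, Fermat.Agent.H58.rr_degree_eq_sum_of_deg_one hdeg, Finsupp.sum]
    have hsupp : (B.support : Set (Place K F)) = {v : Place K F | 0 < v.ord x⁻¹} := by
      ext v
      rw [Finset.mem_coe, Finsupp.mem_support_iff, hB, Set.mem_ofPred_eq, Place.ord_inv]
      constructor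
      · intro h
        by_contra hcon
        exact h (max_eq_left (by omega))
      · intro h
        have := le_max_right 0 (-(v.ord x))
        omega
    rw [← hsupp, finsum_mem_coe_finset]
    refine Finset.sum_congr rfl fun v hv => ?_
    have hv' : v ∈ {v : Place K F | 0 < v.ord x⁻¹} := by
      rw [← hsupp]; exact hv
    rw [Set.mem_ofPred_eq, Place.ord_inv] at hv'
    rw [hB, Place.ord_inv]
    exact max_eq_right (by omega)
  have hpos : 0 < Module.finrank K⟮x⟯ F := Module.finrank_pos
  exact Fermat.Agent.H58.rrHyp_of_finite hdeg x hx B hB0 hBx hBdeg.le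
    (by rw [hBdeg]; exact_mod_cast hpos)

/-- **ES-D target [T1].** -/
theorem rrModLStatement : Fermat.Agent.H27.ESD.RRModLStatement := by
  intro N _ ℓ _ hℓN A hA
  obtain ⟨hk, x, hx, hfin, hsep⟩ := ffModLStatement N ℓ hℓN A hA
  haveI := hk
  haveI := hfin
  haveI := hsep
  exact ⟨hk, rrHyp_of_separating x hx⟩

/-- **ES-D-A1 (wave-1 form)**: Riemann's theorem in any characteristic. -/
theorem riemannTheoremStatement : Fermat.Agent.H27.ESD.RiemannTheoremStatement := by
  intro K F _ _ _ _ x hx hfin hsep
  haveI := hfin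
  haveI := hsep
  haveI : Infinite K := IsAlgClosed.instInfinite
  exact ⟨_, Fermat.Agent.H27.ESD.riemannPackage_of_rrHyp (rrHyp_of_separating x hx)⟩

/-- **ES-D-A3 (wave-1 form)**: the Riemann package for `F_k`. -/
theorem riemannModLStatement : Fermat.Agent.H27.ESD.RiemannModLStatement :=
  Fermat.Agent.H27.ESD.riemannModL_of riemannTheoremStatement ffModLStatement

end Fermat.Agent.H89
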