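import Mathlib
import Fermat.Agent.H62.Cheb2.Interfaces
import Fermat.Agent.H62.Cheb.DegOne

/-!
# P-CHEB phase 2, row CH2-EULER: Euler product and logarithm of `L_E(s, χ ∘ N)`

`eulerLog : Fermat.Agent.H62.Cheb2.EulerLogStatement`.

For a number field `E`, a Dirichlet character `χ` mod `m` and real `s > 1`:
`z_v(s) = χ(N v) N(v)^(-s)`, `ℓ(s) = ∑_v -log(1 - z_v(s))`.  Then `exp ℓ(s) = L_E(s, χ ∘ N)`
(Euler product over ideals), `ℓ` is continuous on `(1, ∞)` and
`ℓ(s) - ∑_p χ(p) #{v : N v = p} p^(-s)` is bounded by `∑_{deg v ≥ 2} N(v)⁻¹ + ∑_v N(v)⁻²`.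
-/

set_option autoImplicit false
set_option linter.style.haveILetI false
set_option linter.unusedSectionVars false

noncomputable section

open NumberField Ideal IsDedekindDomain Filter Topology
open scoped Pointwise Classical

namespace Fermat.Agent.H89

open Fermat.Agent.H62 Fermat.Agent.H62.Cheb Fermat.Agent.H62.Cheb2

variable (E : Type) [Field E] [NumberField E] (m : ℕ) [NeZero m] (χ : DirichletCharacter ℂ m)

/-- `χ(N I) N(I)^(-s)` on ideals -/
def ceTerm (s : ℝ) (I : Ideal (𝓞 E)) : ℂ :=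
  χ ((absNorm I : ℕ) : ZMod m) * (((absNorm I : ℝ) ^ (-s) : ℝ) : ℂ)

theorem ce_norm_term_le (s : ℝ) (I : Ideal (𝓞 E)) :
    ‖ceTerm E m χ s I‖ ≤ (absNorm I : ℝ) ^ (-s) := by
  rw [ceTerm, norm_mul, Complex.norm_real,
    Real.norm_of_nonneg (Real.rpow_nonneg (Nat.cast_nonneg _) _)]
  calc ‖χ ((absNorm I : ℕ) : ZMod m)‖ * (absNorm I : ℝ) ^ (-s)
      ≤ 1 * (absNorm I : ℝ) ^ (-s) :=
        mul_le_mul_of_nonneg_right (χ.norm_le_one _) (Real.rpow_nonneg (Nat.cast_nonneg _) _)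
    _ = _ := one_mul _

/-- `χ(N I) N(I)^(-s)` as a multiplicative function on ideals -/
def ceHom (s : ℝ) (hs : s ≠ 0) : Ideal (𝓞 E) →*₀ ℂ where
  toFun I := ceTerm E m χ s I
  map_zero' := by
    simp [ceTerm, Real.zero_rpow (neg_ne_zero.mpr hs)]
  map_one' := by simp [ceTerm]
  map_mul' I J := by
    simp only [ceTerm, map_mul, Nat.cast_mul]
    rw [Real.mul_rpow (Nat.cast_nonneg _) (Nat.cast_nonneg _)]
    push_cast
    ring

theorem ce_summable_norm {s : ℝ} (hs : 1 < s) :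
    Summable fun I : Ideal (𝓞 E) => ‖ceTerm E m χ s I‖ :=
  Summable.of_nonneg_of_le (fun _ => norm_nonneg _) (ce_norm_term_le E m χ s)
    (summable_absNorm_rpow E hs)

theorem ce_summable {s : ℝ} (hs : 1 < s) :
    Summable fun I : Ideal (𝓞 E) => ceTerm E m χ s I :=
  (ce_summable_norm E m χ hs).of_norm

/-- (1) absolute convergence of the `L`-series -/
theorem ce_lseriesSummable {s : ℝ} (hs : 1 < s) :
    LSeriesSummable (normCharCoeff E m χ) (s : ℂ) := by
  have h := lseriesSummable_card E hs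
  rw [LSeriesSummable] at h ⊢
  refine Summable.of_norm_bounded h.norm fun n => ?_
  refine LSeries.norm_term_le (s : ℂ) ?_
  rw [normCharCoeff, idealCount, norm_mul]
  calc ‖χ (n : ZMod m)‖ * ‖((Nat.card {I : Ideal (𝓞 E) // absNorm I = n} : ℕ) : ℂ)‖
      ≤ 1 * ‖((Nat.card {I : Ideal (𝓞 E) // absNorm I = n} : ℕ) : ℂ)‖ :=
        mul_le_mul_of_nonneg_right (χ.norm_le_one _) (norm_nonneg _)
    _ = _ := by rw [one_mul]; simp

/-! ### The `L`-series as a sum over ideals -/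

theorem ce_term_eq {s : ℝ} (hs : 1 < s) (n : ℕ) :
    LSeries.term (normCharCoeff E m χ) (s : ℂ) n =
      (idealCount E n : ℂ) * (χ (n : ZMod m) * (((n : ℝ) ^ (-s) : ℝ) : ℂ)) := by
  rcases Nat.eq_zero_or_pos n with rfl | hn
  · have : -s ≠ 0 := by linarith
    simp [LSeries.term, Real.zero_rpow this]
  · rw [LSeries.term_of_ne_zero hn.ne', normCharCoeff,
      Complex.ofReal_cpow (Nat.cast_nonneg n), Complex.ofReal_neg, Complex.cpow_neg]
    push_cast
    rw [div_eq_mul_inv]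
    ring

theorem ce_hasSum_term {s : ℝ} (hs : 1 < s) :
    HasSum (LSeries.term (normCharCoeff E m χ) (s : ℂ))
      (∑' I : Ideal (𝓞 E), ceTerm E m χ s I) := by
  have h0 := (ce_summable E m χ hs).hasSum
  have h1 : HasSum (fun x : (Σ n : ℕ, {I : Ideal (𝓞 E) // absNorm I = n}) =>
      ceTerm E m χ s x.2.1) (∑' I : Ideal (𝓞 E), ceTerm E m χ s I) :=
    (Equiv.sigmaFiberEquiv (fun I : Ideal (𝓞 E) => absNorm I)).hasSum_iff.mpr h0
  refine h1.sigma fun n => ?_
  have hfin : Finite {I : Ideal (𝓞 E) // absNorm I = n} := finite_setOfPred_absNorm_eq n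
  have : Fintype {I : Ideal (𝓞 E) // absNorm I = n} := Fintype.ofFinite _
  have hterm : ∀ I : {I : Ideal (𝓞 E) // absNorm I = n},
      ceTerm E m χ s I.1 = χ (n : ZMod m) * (((n : ℝ) ^ (-s) : ℝ) : ℂ) := fun I => by
    rw [ceTerm, I.2]
  simp only [hterm]
  have h2 := hasSum_fintype
    (fun _ : {I : Ideal (𝓞 E) // absNorm I = n} => χ (n : ZMod m) * (((n : ℝ) ^ (-s) : ℝ) : ℂ))
  rw [Finset.sum_const, Finset.card_univ, nsmul_eq_mul, ← Nat.card_eq_fintype_card] at h2
  rw [ce_term_eq E m χ hs, idealCount]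
  exact h2

theorem ce_lseries_eq {s : ℝ} (hs : 1 < s) :
    LSeries (normCharCoeff E m χ) (s : ℂ) = ∑' I : Ideal (𝓞 E), ceTerm E m χ s I :=
  (ce_hasSum_term E m χ hs).tsum_eq

/-! ### The logarithm -/

/-- `z_v(s) = χ(N v) N(v)^(-s)` -/
def ceZ (s : ℝ) (v : HeightOneSpectrum (𝓞 E)) : ℂ := ceTerm E m χ s v.asIdeal

theorem ce_norm_z_le (s : ℝ) (v : HeightOneSpectrum (𝓞 E)) :
    ‖ceZ E m χ s v‖ ≤ primeTerm E s v := ce_norm_term_le E m χ s v.asIdeal

theorem ce_norm_z_le_half {s : ℝ} (hs : 1 ≤ s) (v : HeightOneSpectrum (𝓞 E)) :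
    ‖ceZ E m χ s v‖ ≤ 1 / 2 := (ce_norm_z_le E m χ s v).trans (primeTerm_le_half E hs v)

/-- the logarithm of the Euler product -/
def ceLog (s : ℝ) : ℂ := ∑' v : HeightOneSpectrum (𝓞 E), -Complex.log (1 - ceZ E m χ s v)

theorem ce_one_sub_ne_zero {s : ℝ} (hs : 1 ≤ s) (v : HeightOneSpectrum (𝓞 E)) :
    1 - ceZ E m χ s v ≠ 0 := by
  intro h
  have h1 : ceZ E m χ s v = 1 := (sub_eq_zero.mp h).symm
  have h2 := ce_norm_z_le_half E m χ hs v
  rw [h1, norm_one] at h2
  norm_num at h2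

theorem ce_norm_log_le {s : ℝ} (hs : 1 ≤ s) (v : HeightOneSpectrum (𝓞 E)) :
    ‖-Complex.log (1 - ceZ E m χ s v)‖ ≤ 2 * primeTerm E s v := by
  have hz := ce_norm_z_le_half E m χ hs v
  have hz' : ‖-ceZ E m χ s v‖ < 1 := by rw [norm_neg]; linarith
  have h := Complex.norm_log_one_add_le hz'
  rw [norm_neg] at h ⊢
  rw [← sub_eq_add_neg] at h
  set t := ‖ceZ E m χ s v‖ with ht
  have ht0 : 0 ≤ t := norm_nonneg _
  have hinv : (1 - t)⁻¹ ≤ 2 := by
    rw [inv_le_comm₀ (by linarith) (by norm_num)]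
    linarith
  have h3 : t ^ 2 * (1 - t)⁻¹ / 2 ≤ t := by
    have : t ^ 2 * (1 - t)⁻¹ ≤ t ^ 2 * 2 := mul_le_mul_of_nonneg_left hinv (sq_nonneg t)
    nlinarith
  have h4 := ce_norm_z_le E m χ s v
  linarith

theorem ce_norm_log_sub_le {s : ℝ} (hs : 1 ≤ s) (v : HeightOneSpectrum (𝓞 E)) :
    ‖-Complex.log (1 - ceZ E m χ s v) - ceZ E m χ s v‖ ≤ primeTerm E 2 v := by
  have hz := ce_norm_z_le_half E m χ hs v
  have hz' : ‖-ceZ E m χ s v‖ < 1 := by rw [norm_neg]; linarith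
  have h := Complex.norm_log_one_add_sub_self_le hz'
  rw [norm_neg, ← sub_eq_add_neg, sub_neg_eq_add] at h
  have e : -Complex.log (1 - ceZ E m χ s v) - ceZ E m χ s v =
      -(Complex.log (1 - ceZ E m χ s v) + ceZ E m χ s v) := by ring
  rw [e, norm_neg]
  set t := ‖ceZ E m χ s v‖ with ht
  have ht0 : 0 ≤ t := norm_nonneg _
  have hinv : (1 - t)⁻¹ ≤ 2 := by
    rw [inv_le_comm₀ (by linarith) (by norm_num)]
    linarith
  have h3 : t ^ 2 * (1 - t)⁻¹ / 2 ≤ t ^ 2 := by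
    have : t ^ 2 * (1 - t)⁻¹ ≤ t ^ 2 * 2 := mul_le_mul_of_nonneg_left hinv (sq_nonneg t)
    linarith
  have h4 : t ^ 2 ≤ primeTerm E s v ^ 2 :=
    pow_le_pow_left₀ ht0 (ce_norm_z_le E m χ s v) 2
  have h5 := primeTerm_sq_le E hs v
  linarith

theorem ce_summable_log {s : ℝ} (hs : 1 < s) :
    Summable fun v : HeightOneSpectrum (𝓞 E) => -Complex.log (1 - ceZ E m χ s v) :=
  Summable.of_norm_bounded ((summable_primeTerm E hs).mul_left 2)
    (ce_norm_log_le E m χ hs.le)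

/-- (3a) `exp ℓ(s) = L_E(s, χ ∘ N)` -/
theorem ce_exp_log {s : ℝ} (hs : 1 < s) :
    Complex.exp (ceLog E m χ s) = LSeries (normCharCoeff E m χ) (s : ℂ) := by
  have hs0 : s ≠ 0 := by linarith
  have hprod := eulerProduct_hasProd_ideal (ceHom E m χ s hs0) (ce_summable_norm E m χ hs)
  have hexp := (ce_summable_log E m χ hs).hasSum.cexp
  have hfun : (Complex.exp ∘ fun v : HeightOneSpectrum (𝓞 E) =>
      -Complex.log (1 - ceZ E m χ s v)) =
      fun v : HeightOneSpectrum (𝓞 E) => (1 - ceHom E m χ s hs0 v.asIdeal)⁻¹ := by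
    funext v
    simp only [Function.comp]
    rw [Complex.exp_neg, Complex.exp_log (ce_one_sub_ne_zero E m χ hs.le v)]
    rfl
  rw [hfun] at hexp
  have h := hexp.unique hprod
  rw [ce_lseries_eq E m χ hs]
  exact h

/-! ### Continuity -/

theorem ce_continuous_z (v : HeightOneSpectrum (𝓞 E)) :
    Continuous fun s : ℝ => ceZ E m χ s v := by
  unfold ceZ ceTerm
  refine continuous_const.mul (Complex.continuous_ofReal.comp ?_)
  have hpos : (0 : ℝ) < absNorm v.asIdeal := by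
    have := two_le_absNorm E v
    exact_mod_cast (by omega : 0 < absNorm v.asIdeal)
  exact continuous_const.rpow continuous_neg fun _ => Or.inl hpos.ne'

/-- (3b) `ℓ` is continuous on `(1, ∞)` -/
theorem ce_continuousOn_log : ContinuousOn (ceLog E m χ) (Set.Ioi 1) := by
  intro s₀ hs₀
  have hs₀' : (1 : ℝ) < s₀ := hs₀
  set η := (s₀ - 1) / 2 with hη
  have hη1 : 1 < 1 + η := by rw [hη]; linarith
  have hcont : ContinuousOn
      (fun s => ∑' v : HeightOneSpectrum (𝓞 E), -Complex.log (1 - ceZ E m χ s v))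
      (Set.Ioi (1 + η)) := by
    refine continuousOn_tsum (u := fun v => 2 * primeTerm E (1 + η) v) (fun v => ?_)
      ((summable_primeTerm E hη1).mul_left 2) (fun v s hs => ?_)
    · refine (ContinuousOn.clog ?_ ?_).neg
      · exact (continuous_const.sub (ce_continuous_z E m χ v)).continuousOn
      · intro s hs
        have hs1 : (1 : ℝ) ≤ s := by
          have : 1 + η < s := hs
          linarith
        have hz := ce_norm_z_le_half E m χ hs1 v
        have hz' : ‖-ceZ E m χ s v‖ < 1 := by rw [norm_neg]; linarith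
        have := Complex.mem_slitPlane_of_norm_lt_one hz'
        rwa [← sub_eq_add_neg] at this
    · have hs' : 1 + η < s := hs
      have hs1 : (1 : ℝ) ≤ s := by linarith
      exact (ce_norm_log_le E m χ hs1 v).trans
        (mul_le_mul_of_nonneg_left (primeTerm_anti E hs'.le v) (by norm_num))
  have hmem : Set.Ioi (1 + η) ∈ 𝓝 s₀ := Ioi_mem_nhds (by rw [hη]; linarith)
  exact (hcont.continuousAt hmem).continuousWithinAt

/-! ### Comparison with the degree-one prime sum -/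

theorem ce_summable_z {s : ℝ} (hs : 1 < s) :
    Summable fun v : HeightOneSpectrum (𝓞 E) => ceZ E m χ s v :=
  Summable.of_norm_bounded (summable_primeTerm E hs) (ce_norm_z_le E m χ s)

theorem ce_z_degOneEquiv (s : ℝ) (p : Nat.Primes)
    (v : {v : HeightOneSpectrum (𝓞 E) // absNorm v.asIdeal = (p : ℕ)}) :
    ceZ E m χ s ((degOneEquiv E ⟨p, v⟩ : degOneSet E) : HeightOneSpectrum (𝓞 E)) =
      χ ((p : ℕ) : ZMod m) * ((((p : ℕ) : ℝ) ^ (-s) : ℝ) : ℂ) := by
  have h1 : ((degOneEquiv E ⟨p, v⟩ : degOneSet E) : HeightOneSpectrum (𝓞 E)) = v.1 := rfl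
  rw [h1, ceZ, ceTerm, v.2]

theorem ce_hasSum_fibre (s : ℝ) (p : Nat.Primes) :
    HasSum (fun v : {v : HeightOneSpectrum (𝓞 E) // absNorm v.asIdeal = (p : ℕ)} =>
        ceZ E m χ s ((degOneEquiv E ⟨p, v⟩ : degOneSet E) : HeightOneSpectrum (𝓞 E)))
      (χ ((p : ℕ) : ZMod m) * (primeCount E p : ℂ) * ((((p : ℕ) : ℝ) ^ (-s) : ℝ) : ℂ)) := by
  have : Fintype {v : HeightOneSpectrum (𝓞 E) // absNorm v.asIdeal = (p : ℕ)} :=
    Fintype.ofFinite _
  have h2 := hasSum_fintype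
    (fun v : {v : HeightOneSpectrum (𝓞 E) // absNorm v.asIdeal = (p : ℕ)} =>
      ceZ E m χ s ((degOneEquiv E ⟨p, v⟩ : degOneSet E) : HeightOneSpectrum (𝓞 E)))
  have e : ∑ v : {v : HeightOneSpectrum (𝓞 E) // absNorm v.asIdeal = (p : ℕ)},
      ceZ E m χ s ((degOneEquiv E ⟨p, v⟩ : degOneSet E) : HeightOneSpectrum (𝓞 E)) =
      χ ((p : ℕ) : ZMod m) * (primeCount E p : ℂ) * ((((p : ℕ) : ℝ) ^ (-s) : ℝ) : ℂ) := by
    rw [Finset.sum_congr rfl fun v _ => ce_z_degOneEquiv E m χ s p v, Finset.sum_const,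
      Finset.card_univ, nsmul_eq_mul, primeCount, Nat.card_eq_fintype_card]
    ring
  rw [e] at h2
  exact h2

/-- the twisted degree-one prime sum, as a sum over the primes of prime norm -/
theorem ce_hasSum_degOne {s : ℝ} (hs : 1 < s) :
    HasSum (fun p : Nat.Primes =>
        χ ((p : ℕ) : ZMod m) * (primeCount E p : ℂ) * (((p : ℕ) : ℝ) ^ (-s) : ℝ))
      (∑' v : degOneSet E, ceZ E m χ s v) := by
  have hsum : Summable (fun v : degOneSet E => ceZ E m χ s v) :=
    (ce_summable_z E m χ hs).subtype _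
  have h1 : HasSum ((fun v : degOneSet E => ceZ E m χ s v) ∘ (degOneEquiv E))
      (∑' v : degOneSet E, ceZ E m χ s v) :=
    (degOneEquiv E).hasSum_iff.mpr hsum.hasSum
  exact HasSum.sigma (γ := fun p : Nat.Primes =>
      {v : HeightOneSpectrum (𝓞 E) // absNorm v.asIdeal = (p : ℕ)})
    (f := (fun v : degOneSet E => ceZ E m χ s v) ∘ (degOneEquiv E))
    (g := fun p : Nat.Primes =>
      χ ((p : ℕ) : ZMod m) * (primeCount E p : ℂ) * ((((p : ℕ) : ℝ) ^ (-s) : ℝ) : ℂ))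
    h1 (fun p => ce_hasSum_fibre E m χ s p)

/-- (3c) the bound -/
theorem ce_bound {s : ℝ} (hs : 1 < s) :
    ‖ceLog E m χ s - charDegOneSum E m χ s‖ ≤ negConst E + primeZetaSum E 2 := by
  have hsumz := ce_summable_z E m χ hs
  have hsumlog := ce_summable_log E m χ hs
  have hsumr : Summable fun v : HeightOneSpectrum (𝓞 E) =>
      -Complex.log (1 - ceZ E m χ s v) - ceZ E m χ s v := hsumlog.sub hsumz
  have hP : charDegOneSum E m χ s = ∑' v : degOneSet E, ceZ E m χ s v :=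
    (ce_hasSum_degOne E m χ hs).tsum_eq
  have hsplit : ∑' v : HeightOneSpectrum (𝓞 E), ceZ E m χ s v =
      ∑' v : degOneSet E, ceZ E m χ s v +
        ∑' v : ((degOneSet E)ᶜ : Set _), ceZ E m χ s v :=
    (hsumz.tsum_subtype_add_tsum_subtype_compl (degOneSet E)).symm
  have hlog : ceLog E m χ s = ∑' v : HeightOneSpectrum (𝓞 E), ceZ E m χ s v +
      ∑' v : HeightOneSpectrum (𝓞 E), (-Complex.log (1 - ceZ E m χ s v) - ceZ E m χ s v) := by
    rw [← hsumz.tsum_add hsumr, ceLog]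
    congr 1
    funext v
    ring
  have e : ceLog E m χ s - charDegOneSum E m χ s =
      ∑' v : ((degOneSet E)ᶜ : Set _), ceZ E m χ s v +
        ∑' v : HeightOneSpectrum (𝓞 E),
          (-Complex.log (1 - ceZ E m χ s v) - ceZ E m χ s v) := by
    rw [hlog, hP, hsplit]
    ring
  rw [e]
  refine (norm_add_le _ _).trans (add_le_add ?_ ?_)
  · have hn : Summable fun v : ((degOneSet E)ᶜ : Set _) => ‖ceZ E m χ s v‖ :=
      Summable.of_nonneg_of_le (fun _ => norm_nonneg _) (fun v => ce_norm_z_le E m χ s v)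
        ((summable_primeTerm E hs).subtype _)
    refine (norm_tsum_le_tsum_norm hn).trans ?_
    exact (hn.tsum_le_tsum (fun v : ((degOneSet E)ᶜ : Set _) => ce_norm_z_le E m χ s v.1)
      ((summable_primeTerm E hs).subtype _)).trans (tsum_compl_le E hs)
  · have hnr : Summable fun v : HeightOneSpectrum (𝓞 E) =>
        ‖-Complex.log (1 - ceZ E m χ s v) - ceZ E m χ s v‖ :=
      Summable.of_nonneg_of_le (fun _ => norm_nonneg _)
        (fun v => ce_norm_log_sub_le E m χ hs.le v) (summable_primeTerm E one_lt_two)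
    refine (norm_tsum_le_tsum_norm hnr).trans ?_
    exact hnr.tsum_le_tsum (fun v => ce_norm_log_sub_le E m χ hs.le v)
      (summable_primeTerm E one_lt_two)

/-- **CH2-EULER.** -/
theorem eulerLog : EulerLogStatement := by
  intro E _ _ m _ χ
  exact ⟨fun s hs => ce_lseriesSummable E m χ hs,
    fun s hs => (ce_hasSum_degOne E m χ hs).summable,
    ceLog E m χ, negConst E + primeZetaSum E 2, ce_continuousOn_log E m χ,
    fun s hs => ce_exp_log E m χ hs, fun s hs _ => ce_bound E m χ hs⟩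

end Fermat.Agent.H89
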