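import Mathlib
import Fermat.Agent.H29.ES1.Interfaces
import Fermat.Agent.H8.InertiaBasic
import Fermat.Agent.H79.TorsionUnramified

/-!
# P-DS / ES1-U (row 579): inertia acts trivially on prime-to-`p` torsion of `J₁(M)`

Port of `Fermat.Agent.H79.torsionUnramified` (row 364, helper79), made generic in the level field
`F₀ : IntermediateField ℚ (LaurentSeries ℚ)`:

* `torsionUnramifiedGen` : `KeyLemmaGenStatement F₀ p → GaussNormalFormGenStatement F₀ →`
  inertia at `p` fixes every `m`-torsion point (`p ∤ m`) of `Pic⁰(ℚ̄ · F₀)`.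
* `j1Unramified : KeyLemma1Statement → GaussNormalForm1Statement → J1UnramifiedStatement`.
-/

set_option autoImplicit false
set_option linter.style.haveILetI false
set_option synthInstance.maxHeartbeats 400000

open AlgebraicCurve ModularCurve

namespace Fermat.Agent.H89

open Fermat.Agent.H29.ES1 Fermat.Agent.H79

/-- **(U) from the key lemma**, generic in the level field `F₀`. -/
theorem torsionUnramifiedGen (F₀ : IntermediateField ℚ (LaurentSeries ℚ)) (p : ℕ) (hp : p.Prime)
    (hKL : KeyLemmaGenStatement F₀ p) (hG : GaussNormalFormGenStatement F₀)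
    (m : ℕ) (hm : 0 < m) (hpm : ¬ p ∣ m)
    (A : ValuationSubring (AlgebraicClosure ℚ)) (hA : A.LiesOverPrime p)
    (σ : AlgebraicClosure ℚ ≃ₐ[ℚ] AlgebraicClosure ℚ) (hσ : σ ∈ A.inertiaSubgroupIn ℚ)
    (x : Pic0 (AlgebraicClosure ℚ) (laurentBaseChange (AlgebraicClosure ℚ) F₀))
    (hx : m • x = 0) : σ • x = x := by
  have hσdec := Fermat.Agent.H8.mem_decomposition_of_mem_inertiaSubgroupIn A hσ
  obtain ⟨D, rfl⟩ := Pic0.mk_surjective x
  -- `m D = div f`
  have hmD : ((m • D : Divisor.degZero (K := AlgebraicClosure ℚ)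
      (F := laurentBaseChange (AlgebraicClosure ℚ) F₀)) : Divisor (AlgebraicClosure ℚ)
        (laurentBaseChange (AlgebraicClosure ℚ) F₀)) ∈
      Divisor.principal (K := AlgebraicClosure ℚ)
        (F := laurentBaseChange (AlgebraicClosure ℚ) F₀) := by
    have h1 : Pic0.mk (m • D) = 0 := hx
    have h2 := (QuotientAddGroup.eq_zero_iff _).mp h1
    exact h2
  obtain ⟨f, hf0, hfD⟩ := hmD
  have hfD' : ∀ P : Place (AlgebraicClosure ℚ) (laurentBaseChange (AlgebraicClosure ℚ) F₀),
      P.ord f = (m : ℤ) * (D : Divisor (AlgebraicClosure ℚ)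
        (laurentBaseChange (AlgebraicClosure ℚ) F₀)) P := by
    intro P
    rw [← hfD P]
    simp
  -- Gauss normal form
  obtain ⟨c, a, b, ha, hb, hc0, hared, hbred, hfab⟩ := hG A p hp hA f hf0
  have ha'0 : (⟨coeffMap A.subtype a, ha⟩ : laurentBaseChange (AlgebraicClosure ℚ) F₀) ≠ 0 :=
    fun h => coeffMap_subtype_ne_zero A a hared (congrArg Subtype.val h)
  have hb'0 : (⟨coeffMap A.subtype b, hb⟩ : laurentBaseChange (AlgebraicClosure ℚ) F₀) ≠ 0 :=
    fun h => coeffMap_subtype_ne_zero A b hbred (congrArg Subtype.val h)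
  -- the two new series
  have ha₂eq : coeffMap A.subtype (coeffMap (restrictToValuationSubring A σ hσdec) a * b) =
      (((arithmeticGalois F₀ σ •
          (⟨coeffMap A.subtype a, ha⟩ : laurentBaseChange (AlgebraicClosure ℚ) F₀)) *
        (⟨coeffMap A.subtype b, hb⟩ : laurentBaseChange (AlgebraicClosure ℚ) F₀) :
          laurentBaseChange (AlgebraicClosure ℚ) F₀) :
        LaurentSeries (AlgebraicClosure ℚ)) := by
    rw [map_mul, coeffMap_subtype_restrict]; rfl
  have hb₂eq : coeffMap A.subtype (a * coeffMap (restrictToValuationSubring A σ hσdec) b) =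
      (((⟨coeffMap A.subtype a, ha⟩ : laurentBaseChange (AlgebraicClosure ℚ) F₀) *
        (arithmeticGalois F₀ σ •
          (⟨coeffMap A.subtype b, hb⟩ : laurentBaseChange (AlgebraicClosure ℚ) F₀)) :
          laurentBaseChange (AlgebraicClosure ℚ) F₀) :
        LaurentSeries (AlgebraicClosure ℚ)) := by
    rw [map_mul, coeffMap_subtype_restrict]; rfl
  have ha₂mem : coeffMap A.subtype (coeffMap (restrictToValuationSubring A σ hσdec) a * b) ∈
      laurentBaseChange (AlgebraicClosure ℚ) F₀ := by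
    rw [ha₂eq]; exact Subtype.property _
  have hb₂mem : coeffMap A.subtype (a * coeffMap (restrictToValuationSubring A σ hσdec) b) ∈
      laurentBaseChange (AlgebraicClosure ℚ) F₀ := by
    rw [hb₂eq]; exact Subtype.property _
  have hred : coeffMap (IsLocalRing.residue A)
        (coeffMap (restrictToValuationSubring A σ hσdec) a * b) =
      coeffMap (IsLocalRing.residue A)
        (a * coeffMap (restrictToValuationSubring A σ hσdec) b) := by
    rw [map_mul, map_mul, coeffMap_residue_restrict A σ hσ, coeffMap_residue_restrict A σ hσ]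
  have hred0 : coeffMap (IsLocalRing.residue A)
        (coeffMap (restrictToValuationSubring A σ hσdec) a * b) ≠ 0 := by
    rw [map_mul, coeffMap_residue_restrict A σ hσ]
    exact mul_ne_zero hared hbred
  -- apply the key lemma
  obtain ⟨w, hw⟩ := hKL A hA m hm hpm _ _ ha₂mem hb₂mem hred hred0 (fun P => by
    rw [show (⟨_, ha₂mem⟩ : laurentBaseChange (AlgebraicClosure ℚ) F₀) = _
        from Subtype.ext ha₂eq,
      show (⟨_, hb₂mem⟩ : laurentBaseChange (AlgebraicClosure ℚ) F₀) = _
        from Subtype.ext hb₂eq,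
      ord_smul_mul_sub_ord _ _ (m : ℤ) f _ _ c hf0 ha'0 hb'0 hc0 hfD' hfab P]
    exact dvd_mul_right _ _)
  rw [show (⟨_, ha₂mem⟩ : laurentBaseChange (AlgebraicClosure ℚ) F₀) = _
      from Subtype.ext ha₂eq,
    show (⟨_, hb₂mem⟩ : laurentBaseChange (AlgebraicClosure ℚ) F₀) = _
      from Subtype.ext hb₂eq] at hw
  rw [galois_smul_pic0_def]
  exact pic0_smul_mk_eq_of_pow _ D m hm f _ _ w c hf0 ha'0 hb'0 hc0 hfD' hfab hw

/-- **ES1-U.**  The key lemma and the Gauss normal form for `X₁(M)` imply that inertia at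
`p ∤ M n` acts trivially on `J₁(M)(ℚ̄)[n]`. -/
theorem j1Unramified (hKL : KeyLemma1Statement) (hGNF : GaussNormalForm1Statement) :
    J1UnramifiedStatement := by
  intro M _ hM n hn p hp hpMn A hA σ hσ
  have hpM : ¬ p ∣ M := fun h => hpMn (Dvd.dvd.mul_right h n)
  have hpn : ¬ p ∣ n := fun h => hpMn (Dvd.dvd.mul_left h M)
  refine LinearMap.ext fun x => ?_
  apply Subtype.ext
  rw [J1.coe_torsionGaloisRep_apply]
  have hx : n • (x : J1 M) = 0 := by
    have h := x.2
    rw [Pic0.mem_torsion] at h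
    rw [← natCast_zsmul]
    exact h
  exact torsionUnramifiedGen (F1 M) p hp (hKL M hM p hp hpM) (hGNF M) n hn hpn A hA σ hσ
    (x : J1 M) hx

end Fermat.Agent.H89
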