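import Fermat.Agent.H63.S16LB.Interfaces

/-!
# P-S16, lower bound, row LB-SHIMURA: the Shimura class

`shimuraStatement (p) [Fact p.Prime] : Fermat.Agent.H63.ShimuraStatement p`.

The class is `γ ↦ ψ (d(γ) mod p)` where `ψ : (ℤ/p)ˣ → ℤ/n` is a surjective homomorphism,
`n = (p - 1) / gcd (p - 1, 12)`.
-/

set_option autoImplicit false
set_option linter.unusedSectionVars false

open CongruenceSubgroup Matrix.SpecialLinearGroup UpperHalfPlane
open scoped MatrixGroups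

namespace Fermat.Agent.H89

open P2MW.S_ModularForm_heckeT_slash_eq_self_of_mem_Gamma0.ModularForm.HeckeSlashInvariance

/-! ## A surjective character of a finite cyclic group -/

/-- A finite cyclic group of order `n * e` has a homomorphism onto `ℤ/n` killing every element
of exponent `e`. -/
theorem exists_addHom_of_isCyclic (G : Type) [CommGroup G] [IsCyclic G] [Finite G] (n e : ℕ)
    (h : Nat.card G = n * e) :
    ∃ ψ : Additive G →+ ZMod n, (∃ g : G, ψ (Additive.ofMul g) = 1) ∧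
      ∀ g : G, g ^ e = 1 → ψ (Additive.ofMul g) = 0 := by
  have hm0 : Nat.card G ≠ 0 := Nat.card_pos.ne'
  have he0 : e ≠ 0 := by
    rintro rfl
    rw [mul_zero] at h
    exact hm0 h
  have hcard : Nat.card (Additive G) = Nat.card G := rfl
  have : NeZero (Nat.card (Additive G)) := ⟨by rw [hcard]; exact hm0⟩
  have hdvd : n ∣ Nat.card (Additive G) := by
    rw [hcard, h]
    exact dvd_mul_right n e
  let φ : ZMod (Nat.card (Additive G)) ≃+ Additive G :=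
    zmodAddCyclicAddEquiv (isAddCyclic_additive_iff.2 inferInstance)
  let ψ : Additive G →+ ZMod n :=
    (ZMod.castHom hdvd (ZMod n)).toAddMonoidHom.comp φ.symm.toAddMonoidHom
  refine ⟨ψ, ⟨Additive.toMul (φ 1), ?_⟩, ?_⟩
  · show (ZMod.castHom hdvd (ZMod n)) (φ.symm (φ 1)) = 1
    rw [AddEquiv.symm_apply_apply, map_one]
  · intro g hg
    show (ZMod.castHom hdvd (ZMod n)) (φ.symm (Additive.ofMul g)) = 0
    set k : ZMod (Nat.card (Additive G)) := φ.symm (Additive.ofMul g) with hk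
    have h1 : e • k = 0 := by
      rw [hk, ← map_nsmul, ← ofMul_pow, hg, ofMul_one, map_zero]
    have h2 : ((e * k.val : ℕ) : ZMod (Nat.card (Additive G))) = 0 := by
      rw [Nat.cast_mul, ZMod.natCast_zmod_val, ← nsmul_eq_mul]
      exact h1
    rw [ZMod.natCast_eq_zero_iff] at h2
    have hc : n * e = Nat.card (Additive G) := (hcard.trans h).symm
    have h3 : n ∣ k.val := by
      have h4 : n * e ∣ e * k.val := (dvd_of_eq hc).trans h2
      have : e * n ∣ e * k.val := by rwa [mul_comm e n]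
      exact (Nat.mul_dvd_mul_iff_left (Nat.pos_of_ne_zero he0)).mp this
    rw [ZMod.castHom_apply, ZMod.cast_eq_val, ZMod.natCast_eq_zero_iff]
    exact h3


/-! ## The lower-right entry homomorphism -/

section Entries

variable (p : ℕ) [Fact p.Prime]

/-- The lower-right entry modulo `p`, as a homomorphism `Γ₀(p) → (ℤ/p)ˣ`. -/
noncomputable def lowerRight : Gamma0 p →* (ZMod p)ˣ := (Gamma0Map p).toHomUnits

theorem coe_lowerRight (γ : Gamma0 p) :
    ((lowerRight p γ : (ZMod p)ˣ) : ZMod p) = (((γ : SL(2, ℤ)) 1 1 : ℤ) : ZMod p) := rfl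

theorem gamma0_lowerLeft (γ : Gamma0 p) : (((γ : SL(2, ℤ)) 1 0 : ℤ) : ZMod p) = 0 :=
  Gamma0_mem.mp γ.2

theorem gamma0_det (γ : Gamma0 p) :
    (γ : SL(2, ℤ)) 0 0 * (γ : SL(2, ℤ)) 1 1 - (γ : SL(2, ℤ)) 0 1 * (γ : SL(2, ℤ)) 1 0 = 1 := by
  have h := (γ : SL(2, ℤ)).det_coe
  rw [Matrix.det_fin_two] at h
  exact h

theorem gamma0_ad (γ : Gamma0 p) :
    (((γ : SL(2, ℤ)) 0 0 : ℤ) : ZMod p) * (((γ : SL(2, ℤ)) 1 1 : ℤ) : ZMod p) = 1 := by
  have h := congrArg (fun t : ℤ => (t : ZMod p)) (gamma0_det p γ)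
  simp only [Int.cast_sub, Int.cast_mul, Int.cast_one] at h
  rw [gamma0_lowerLeft p γ, mul_zero, sub_zero] at h
  exact h

theorem gamma0_trace (γ : Gamma0 p) :
    ((γ : SL(2, ℤ)) : Matrix (Fin 2) (Fin 2) ℤ).trace = (γ : SL(2, ℤ)) 0 0 + (γ : SL(2, ℤ)) 1 1 :=
  Matrix.trace_fin_two _

/-- For parabolic or elliptic elements the lower-right entry is a 12-th root of unity mod `p`. -/
theorem lowerRight_pow_twelve (γ : Gamma0 p)
    (h : ((γ : SL(2, ℤ)) : Matrix (Fin 2) (Fin 2) ℤ).trace ^ 2 = 4 ∨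
      ((γ : SL(2, ℤ)) : Matrix (Fin 2) (Fin 2) ℤ).trace = 0 ∨
      ((γ : SL(2, ℤ)) : Matrix (Fin 2) (Fin 2) ℤ).trace = 1 ∨
      ((γ : SL(2, ℤ)) : Matrix (Fin 2) (Fin 2) ℤ).trace = -1) :
    lowerRight p γ ^ 12 = 1 := by
  apply Units.ext
  rw [Units.val_pow_eq_pow_val, Units.val_one, coe_lowerRight]
  have had := gamma0_ad p γ
  set a : ZMod p := (((γ : SL(2, ℤ)) 0 0 : ℤ) : ZMod p) with ha
  set d : ZMod p := (((γ : SL(2, ℤ)) 1 1 : ℤ) : ZMod p) with hd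
  have htr : ∀ t : ℤ, ((γ : SL(2, ℤ)) : Matrix (Fin 2) (Fin 2) ℤ).trace = t →
      a + d = (t : ZMod p) := by
    intro t ht
    rw [gamma0_trace] at ht
    rw [← ht, Int.cast_add]
  rcases h with h | h | h | h
  · -- parabolic
    have h1 : (a + d) ^ 2 = 4 := by
      have h2 := congrArg (fun t : ℤ => (t : ZMod p)) h
      simp only [Int.cast_pow] at h2
      rw [htr _ rfl]
      simpa using h2
    have h3 : (a - d) ^ 2 = 0 := by linear_combination h1 - 4 * had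
    have h4 : a = d := sub_eq_zero.mp ((pow_eq_zero_iff (two_ne_zero)).mp h3)
    have h5 : d ^ 2 = 1 := by rw [h4] at had; rw [pow_two]; exact had
    calc d ^ 12 = (d ^ 2) ^ 6 := by ring
      _ = 1 := by rw [h5, one_pow]
  · have h1 : a + d = 0 := by simpa using htr 0 h
    have h2 : d ^ 2 = -1 := by linear_combination d * h1 - had
    calc d ^ 12 = (d ^ 2) ^ 6 := by ring
      _ = 1 := by rw [h2]; ring
  · have h1 : a + d = 1 := by simpa using htr 1 h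
    have h2 : d ^ 2 = d - 1 := by linear_combination d * h1 - had
    have h3 : d ^ 3 = -1 := by linear_combination (d + 1) * h2
    calc d ^ 12 = (d ^ 3) ^ 4 := by ring
      _ = 1 := by rw [h3]; ring
  · have h1 : a + d = -1 := by simpa using htr (-1) h
    have h2 : d ^ 2 = -d - 1 := by linear_combination d * h1 - had
    have h3 : d ^ 3 = 1 := by linear_combination (d - 1) * h2
    calc d ^ 12 = (d ^ 3) ^ 4 := by ring
      _ = 1 := by rw [h3, one_pow]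

/-- The lower-right entry homomorphism is surjective. -/
theorem lowerRight_surjective : Function.Surjective (lowerRight p) := by
  intro u
  have hp : p.Prime := Fact.out
  have hcop : Nat.Coprime (u : ZMod p).val p := ZMod.val_coe_unit_coprime u
  have hco : IsCoprime (((u : ZMod p).val : ℕ) : ℤ) (p : ℤ) := Nat.isCoprime_iff_coprime.mpr hcop
  obtain ⟨x, y, hxy⟩ := hco
  -- `x * d + y * p = 1`
  let M : Matrix (Fin 2) (Fin 2) ℤ := !![x, -y; (p : ℤ), (((u : ZMod p).val : ℕ) : ℤ)]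
  have hdet : M.det = 1 := by
    rw [Matrix.det_fin_two_of]
    linear_combination hxy
  let g : SL(2, ℤ) := ⟨M, hdet⟩
  have hg : g ∈ Gamma0 p := by
    rw [Gamma0_mem]
    show (((p : ℤ) : ℤ) : ZMod p) = 0
    simp
  refine ⟨⟨g, hg⟩, ?_⟩
  apply Units.ext
  rw [coe_lowerRight]
  show (((((u : ZMod p).val : ℕ) : ℤ) : ℤ) : ZMod p) = (u : ZMod p)
  rw [Int.cast_natCast, ZMod.natCast_zmod_val]

end Entries


/-! ## Entries of Hecke rewriting data -/

section Rewriting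

open Fermat.Agent.H63

/-- Entrywise form of the rewriting identity `α x * γ = κ x * α (σ x)`. -/
theorem rewriting_entries (N : ℕ) {X : Type} (α : X → GL (Fin 2) ℝ) (γ : Gamma0 N)
    (σ : Equiv.Perm X) (κ : X → Gamma0 N) (h : IsRewriting N α γ σ κ) (x : X) (i j : Fin 2) :
    (α x : Matrix (Fin 2) (Fin 2) ℝ) i 0 * (((γ : SL(2, ℤ)) 0 j : ℤ) : ℝ)
      + (α x : Matrix (Fin 2) (Fin 2) ℝ) i 1 * (((γ : SL(2, ℤ)) 1 j : ℤ) : ℝ)
    = ((((κ x : Gamma0 N) : SL(2, ℤ)) i 0 : ℤ) : ℝ) * (α (σ x) : Matrix (Fin 2) (Fin 2) ℝ) 0 j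
      + ((((κ x : Gamma0 N) : SL(2, ℤ)) i 1 : ℤ) : ℝ) *
          (α (σ x) : Matrix (Fin 2) (Fin 2) ℝ) 1 j := by
  have h1 := congrArg (fun M : GL (Fin 2) ℝ => (M : Matrix (Fin 2) (Fin 2) ℝ) i j) (h x)
  simp only [Matrix.GeneralLinearGroup.coe_mul, Matrix.mul_apply, Fin.sum_univ_two,
    mapGL_coe_matrix] at h1
  simpa using h1

/-- Lower-right entry of `heckeRep ℓ x`. -/
def repD (ℓ : ℕ) (x : OnePoint (ZMod ℓ)) : ℕ := x.elim 1 (fun _ => ℓ)

/-- Upper-right entry of `heckeRep ℓ x`. -/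
def repB (ℓ : ℕ) (x : OnePoint (ZMod ℓ)) : ℕ := x.elim 0 (fun j => j.val)

theorem heckeRep_val_10 {ℓ : ℕ} (hℓ : ℓ ≠ 0) (x : OnePoint (ZMod ℓ)) :
    (heckeRep ℓ x : Matrix (Fin 2) (Fin 2) ℝ) 1 0 = 0 := by
  rcases x with _ | j
  · show (ModularForm.heckeDiagMatrix ℓ : Matrix (Fin 2) (Fin 2) ℝ) 1 0 = 0
    simp [ModularForm.val_heckeDiagMatrix hℓ]
  · show (ModularForm.heckeMatrix ℓ j.val : Matrix (Fin 2) (Fin 2) ℝ) 1 0 = 0
    simp [ModularForm.val_heckeMatrix hℓ]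

theorem heckeRep_val_11 {ℓ : ℕ} (hℓ : ℓ ≠ 0) (x : OnePoint (ZMod ℓ)) :
    (heckeRep ℓ x : Matrix (Fin 2) (Fin 2) ℝ) 1 1 = (repD ℓ x : ℝ) := by
  rcases x with _ | j
  · show (ModularForm.heckeDiagMatrix ℓ : Matrix (Fin 2) (Fin 2) ℝ) 1 1 = ((1 : ℕ) : ℝ)
    simp [ModularForm.val_heckeDiagMatrix hℓ]
  · show (ModularForm.heckeMatrix ℓ j.val : Matrix (Fin 2) (Fin 2) ℝ) 1 1 = ((ℓ : ℕ) : ℝ)
    simp [ModularForm.val_heckeMatrix hℓ]

theorem heckeRep_val_01 {ℓ : ℕ} (hℓ : ℓ ≠ 0) (x : OnePoint (ZMod ℓ)) :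
    (heckeRep ℓ x : Matrix (Fin 2) (Fin 2) ℝ) 0 1 = (repB ℓ x : ℝ) := by
  rcases x with _ | j
  · show (ModularForm.heckeDiagMatrix ℓ : Matrix (Fin 2) (Fin 2) ℝ) 0 1 = ((0 : ℕ) : ℝ)
    simp [ModularForm.val_heckeDiagMatrix hℓ]
  · show (ModularForm.heckeMatrix ℓ j.val : Matrix (Fin 2) (Fin 2) ℝ) 0 1 = ((j.val : ℕ) : ℝ)
    simp [ModularForm.val_heckeMatrix hℓ]

theorem repD_coprime {ℓ p : ℕ} (hℓ : ℓ.Prime) (hℓp : ¬ ℓ ∣ p) (x : OnePoint (ZMod ℓ)) :
    Nat.Coprime (repD ℓ x) p := by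
  rcases x with _ | j
  · exact Nat.coprime_one_left p
  · exact (Nat.Prime.coprime_iff_not_dvd hℓ).mpr hℓp

variable (p : ℕ) [Fact p.Prime]

/-- `T_ℓ`: relation between lower-right entries in `(ℤ/p)ˣ`. -/
theorem lowerRight_rewriting_T {ℓ : ℕ} (hℓ : ℓ.Prime) (hℓp : ¬ ℓ ∣ p) (γ : Gamma0 p)
    (σ : Equiv.Perm (OnePoint (ZMod ℓ))) (κ : OnePoint (ZMod ℓ) → Gamma0 p)
    (h : IsRewriting p (heckeRep ℓ) γ σ κ) (x : OnePoint (ZMod ℓ)) :
    ZMod.unitOfCoprime (repD ℓ x) (repD_coprime hℓ hℓp x) * lowerRight p γ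
      = lowerRight p (κ x) * ZMod.unitOfCoprime (repD ℓ (σ x)) (repD_coprime hℓ hℓp (σ x)) := by
  have h1 := rewriting_entries p (heckeRep ℓ) γ σ κ h x 1 1
  rw [heckeRep_val_10 hℓ.ne_zero, heckeRep_val_11 hℓ.ne_zero, heckeRep_val_01 hℓ.ne_zero,
    heckeRep_val_11 hℓ.ne_zero, zero_mul, zero_add] at h1
  have h2 : ((repD ℓ x : ℕ) : ℤ) * (γ : SL(2, ℤ)) 1 1
      = ((κ x : Gamma0 p) : SL(2, ℤ)) 1 0 * ((repB ℓ (σ x) : ℕ) : ℤ)
        + ((κ x : Gamma0 p) : SL(2, ℤ)) 1 1 * ((repD ℓ (σ x) : ℕ) : ℤ) := by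
    exact_mod_cast h1
  have h3 := congrArg (fun t : ℤ => (t : ZMod p)) h2
  simp only [Int.cast_add, Int.cast_mul, Int.cast_natCast] at h3
  rw [gamma0_lowerLeft p (κ x), zero_mul, zero_add] at h3
  apply Units.ext
  rw [Units.val_mul, Units.val_mul, ZMod.coe_unitOfCoprime, ZMod.coe_unitOfCoprime,
    coe_lowerRight, coe_lowerRight]
  exact h3

/-- `U_q`: the lower-right entries of `κ x` and `γ` agree in `(ℤ/p)ˣ`. -/
theorem lowerRight_rewriting_U {q : ℕ} (hq : q ≠ 0) (γ : Gamma0 p)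
    (σ : Equiv.Perm (ZMod q)) (κ : ZMod q → Gamma0 p)
    (h : IsRewriting p (fun x : ZMod q => ModularForm.heckeMatrix q x.val) γ σ κ) (x : ZMod q) :
    lowerRight p (κ x) = lowerRight p γ := by
  have h1 := rewriting_entries p (fun x : ZMod q => ModularForm.heckeMatrix q x.val) γ σ κ h x 0 0
  simp only [ModularForm.val_heckeMatrix hq] at h1
  have h2 : (γ : SL(2, ℤ)) 0 0 + ((x.val : ℕ) : ℤ) * (γ : SL(2, ℤ)) 1 0
      = ((κ x : Gamma0 p) : SL(2, ℤ)) 0 0 := by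
    have h1' : (((γ : SL(2, ℤ)) 0 0 : ℤ) : ℝ) + ((x.val : ℕ) : ℝ) * (((γ : SL(2, ℤ)) 1 0 : ℤ) : ℝ)
        = ((((κ x : Gamma0 p) : SL(2, ℤ)) 0 0 : ℤ) : ℝ) := by
      simpa using h1
    exact_mod_cast h1'
  have h3 := congrArg (fun t : ℤ => (t : ZMod p)) h2
  simp only [Int.cast_add, Int.cast_mul, Int.cast_natCast] at h3
  rw [gamma0_lowerLeft p γ, mul_zero, add_zero] at h3
  apply Units.ext
  rw [coe_lowerRight, coe_lowerRight]
  have ha := gamma0_ad p γ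
  have hb := gamma0_ad p (κ x)
  rw [← h3] at hb
  calc ((((κ x : Gamma0 p) : SL(2, ℤ)) 1 1 : ℤ) : ZMod p)
      = ((((κ x : Gamma0 p) : SL(2, ℤ)) 1 1 : ℤ) : ZMod p)
          * ((((γ : SL(2, ℤ)) 0 0 : ℤ) : ZMod p) * (((γ : SL(2, ℤ)) 1 1 : ℤ) : ZMod p)) := by
        rw [ha, mul_one]
    _ = ((((γ : SL(2, ℤ)) 0 0 : ℤ) : ZMod p) * ((((κ x : Gamma0 p) : SL(2, ℤ)) 1 1 : ℤ) : ZMod p))
          * (((γ : SL(2, ℤ)) 1 1 : ℤ) : ZMod p) := by ring
    _ = (((γ : SL(2, ℤ)) 1 1 : ℤ) : ZMod p) := by rw [hb, one_mul]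

end Rewriting


/-! ## The Shimura class -/

section Main

open Fermat.Agent.H63

theorem card_onePoint_zmod (ℓ : ℕ) [NeZero ℓ] [Fintype (OnePoint (ZMod ℓ))] :
    Fintype.card (OnePoint (ZMod ℓ)) = ℓ + 1 := by
  have h1 : Fintype.card (OnePoint (ZMod ℓ)) = Fintype.card (Option (ZMod ℓ)) :=
    Fintype.card_congr (Equiv.refl _)
  rw [h1, Fintype.card_option, ZMod.card]

theorem natCast_eq_one_of_dvd_pred (m k : ℕ) (hk : 1 ≤ k) (h : m ∣ k - 1) :
    ((k : ℕ) : ZMod m) = 1 := by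
  have h1 : (((k - 1 : ℕ) : ℕ) : ZMod m) = 0 := (ZMod.natCast_eq_zero_iff _ _).mpr h
  have h2 : k = (k - 1) + 1 := (Nat.sub_add_cancel hk).symm
  rw [h2, Nat.cast_add, Nat.cast_one, h1, zero_add]

/-- **LB-SHIMURA**: the Shimura class exists. -/
theorem shimuraStatement (p : ℕ) [Fact p.Prime] : Fermat.Agent.H63.ShimuraStatement p := by
  have hp : p.Prime := Fact.out
  have hcard : Nat.card (ZMod p)ˣ = ModularCurve.eisensteinNumerator p * Nat.gcd (p - 1) 12 := by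
    rw [Nat.card_eq_fintype_card, ZMod.card_units p, ModularCurve.eisensteinNumerator]
    exact (Nat.div_mul_cancel (Nat.gcd_dvd_left _ _)).symm
  obtain ⟨ψ, ⟨u₀, hu₀⟩, hψ⟩ :=
    exists_addHom_of_isCyclic (ZMod p)ˣ (ModularCurve.eisensteinNumerator p)
      (Nat.gcd (p - 1) 12) hcard
  have hψ12 : ∀ u : (ZMod p)ˣ, u ^ 12 = 1 → ψ (Additive.ofMul u) = 0 := by
    intro u hu
    apply hψ
    have h1 : u ^ (p - 1) = 1 := ZMod.units_pow_card_sub_one_eq_one p u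
    exact pow_gcd_eq_one.mpr ⟨h1, hu⟩
  have hpn : ((p : ℕ) : ZMod (ModularCurve.eisensteinNumerator p)) = 1 :=
    natCast_eq_one_of_dvd_pred _ p hp.one_le (ModularCurve.eisensteinNumerator_dvd p)
  let c : Additive (Gamma0 p) →+ ZMod (ModularCurve.eisensteinNumerator p) :=
    ψ.comp (MonoidHom.toAdditive (lowerRight p))
  have hc : ∀ γ : Gamma0 p, c (Additive.ofMul γ) = ψ (Additive.ofMul (lowerRight p γ)) :=
    fun γ => rfl
  refine ⟨c, ?_, ?_, ?_, ?_, ?_⟩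
  · intro γ hγ
    rw [hc]
    exact hψ12 _ (lowerRight_pow_twelve p γ (Or.inl hγ))
  · intro γ hγ
    rw [hc]
    exact hψ12 _ (lowerRight_pow_twelve p γ (Or.inr hγ))
  · obtain ⟨γ, hγ⟩ := lowerRight_surjective p u₀
    exact ⟨γ, by rw [hc, hγ, hu₀]⟩
  · intro ℓ hℓ hℓp γ σ κ h
    have : NeZero ℓ := ⟨hℓ.ne_zero⟩
    let F : OnePoint (ZMod ℓ) → ZMod (ModularCurve.eisensteinNumerator p) := fun x =>
      ψ (Additive.ofMul (ZMod.unitOfCoprime (repD ℓ x) (repD_coprime hℓ hℓp x)))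
    have key : ∀ x, c (Additive.ofMul (κ x)) = c (Additive.ofMul γ) + (F x - F (σ x)) := by
      intro x
      have h1 := congrArg (fun u : (ZMod p)ˣ => ψ (Additive.ofMul u))
        (lowerRight_rewriting_T p hℓ hℓp γ σ κ h x)
      simp only [ofMul_mul, map_add] at h1
      rw [hc, hc]
      show _ = _ + (ψ _ - ψ _)
      linear_combination -h1
    rw [Finset.sum_congr rfl (fun x _ => key x), Finset.sum_add_distrib, Finset.sum_sub_distrib,
      Equiv.sum_comp σ F, sub_self, add_zero, Finset.sum_const, Finset.card_univ,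
      card_onePoint_zmod, nsmul_eq_mul, add_comm ℓ 1]
  · intro q hq hqp γ σ κ h
    have : NeZero q := ⟨hq.ne_zero⟩
    have hqp' : q = p := (Nat.prime_dvd_prime_iff_eq hq hp).mp hqp
    have key : ∀ x, c (Additive.ofMul (κ x)) = c (Additive.ofMul γ) := by
      intro x
      rw [hc, hc, lowerRight_rewriting_U p hq.ne_zero γ σ κ h x]
    rw [Finset.sum_congr rfl (fun x _ => key x), Finset.sum_const, Finset.card_univ,
      ZMod.card, nsmul_eq_mul, hqp', hpn, one_mul]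

end Main

end Fermat.Agent.H89
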