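import Mathlib
import Fermat.Prelude.Def_FreyPackage_EigenformResidualAttachment
import Fermat.Prelude.Def_GaloisRep_Residual
import Fermat.Agent.H37.S13Linear
import Fermat.Agent.H70.TorsionFrey

/-!
# P-ES, row ES-G5: S42 from the S29 core

`eigenformResidualAttachment_of_s29` : if every normalised eigenform has residual Galois
representations (the statement of S29), then `P.EigenformResidualAttachmentAt M` holds for every
Frey package `P` and every level `M > 0`.
-/

set_option autoImplicit false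
set_option linter.style.haveILetI false

open Polynomial

namespace Fermat.Agent.H89

/-- Trace and determinant of an endomorphism of a plane from its characteristic polynomial. -/
theorem trace_det_of_charpoly_eq {K V : Type} [Field K] [AddCommGroup V] [Module K V]
    [Module.Finite K V] (hV : Module.finrank K V = 2) (f : Module.End K V) (t d : K)
    (h : LinearMap.charpoly f = X ^ 2 - C t * X + C d) :
    LinearMap.trace K V f = t ∧ LinearMap.det f = d := by
  let b : Module.Basis (Fin 2) K V := Module.finBasisOfFinrankEq K V hV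
  have h1 : (LinearMap.toMatrix b b f).charpoly = X ^ 2 - C t * X + C d := by
    rw [LinearMap.charpoly_toMatrix f b]
    exact h
  rw [Matrix.charpoly_fin_two] at h1
  have htr : (LinearMap.toMatrix b b f).trace = t := by
    have h2 := congrArg (fun q : K[X] => q.coeff 1) h1
    simp only [coeff_add, coeff_sub, coeff_X_pow, coeff_C_mul, coeff_X_one, coeff_C] at h2
    norm_num at h2
    exact h2
  have hdet : (LinearMap.toMatrix b b f).det = d := by
    have h2 := congrArg (fun q : K[X] => q.coeff 0) h1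
    simp only [coeff_add, coeff_sub, coeff_X_pow, coeff_C_mul, coeff_X_zero, coeff_C_zero] at h2
    norm_num at h2
    rw [LinearMap.det_toMatrix b f]
    exact h2
  constructor
  · rw [LinearMap.trace_eq_matrix_trace K b f]
    exact htr
  · rw [← LinearMap.det_toMatrix b f]
    exact hdet


local notation "Qbar" => AlgebraicClosure ℚ
local notation "GQ" => (AlgebraicClosure ℚ ≃ₐ[ℚ] AlgebraicClosure ℚ)

open WeierstrassCurve WeierstrassCurve.Affine.Point in
/-- The mod-`p` representation of the Frey curve factors through a finite level. -/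
theorem frey_factorsThroughFiniteLevel (P : FreyPackage) :
    ∃ L : IntermediateField ℚ Qbar, FiniteDimensional ℚ L ∧
      ∀ σ : GQ, (∀ x ∈ L, σ x = x) →
        galoisRepModuleEnd (S := ℚ) (K := AlgebraicClosure ℚ) P.freyCurve P.p σ = 1 := by
  obtain ⟨-, hfin, -⟩ := Fermat.Agent.H70.frey_torsionBy_prime P
  refine ⟨Fermat.Agent.H37.torsionField P.freyCurve P.p,
    Fermat.Agent.H37.finiteDimensional_torsionField P.freyCurve P.p hfin, ?_⟩
  intro σ hσ
  have hmem : σ ∈ (Fermat.Agent.H37.torsionField P.freyCurve P.p).fixingSubgroup := by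
    rw [IntermediateField.mem_fixingSubgroup_iff]
    exact hσ
  apply LinearMap.ext
  intro v
  rw [galoisRepModuleEnd_apply]
  exact Fermat.Agent.H37.smul_eq_self_of_mem_fixingSubgroup P.freyCurve P.p σ hmem v

/-- **ES-G5**: S42 from the statement of S29. -/
theorem eigenformResidualAttachment_of_s29
    (h29 : ∀ {N : ℕ} {g : CuspForm (CongruenceSubgroup.Gamma0 N) 2}
        (_ : g.IsNormalizedEigenform) {p : ℕ} (_ : p.Prime) {k : Type} [Field k] [CharP k p]
        (φ : integralClosure ℤ ℂ →+* k),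
        ∃ ρ : ResidualGaloisRep k, ρ.IsAttachedTo g φ ∧
          ∀ ℓ : ℕ, ℓ.Prime → ¬ ℓ ∣ N * p → ρ.IsUnramifiedAt ℓ)
    (P : FreyPackage) : ∀ M : ℕ, 0 < M → P.EigenformResidualAttachmentAt M := by
  intro M _ g hg 𝔪 hmax hpm
  have hp : P.p.Prime := P.pp
  letI instK : Field (integralClosure ℤ ℂ ⧸ 𝔪) := Ideal.Quotient.field 𝔪
  have hp0 : ((P.p : ℕ) : integralClosure ℤ ℂ ⧸ 𝔪) = 0 := by
    have : (Ideal.Quotient.mk 𝔪) ((P.p : ℕ) : integralClosure ℤ ℂ) = 0 :=
      Ideal.Quotient.eq_zero_iff_mem.mpr hpm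
    simpa using this
  haveI instChar : CharP (integralClosure ℤ ℂ ⧸ 𝔪) P.p := (CharP.charP_iff_prime_eq_zero hp).mpr hp0
  letI instAlg : Algebra (ZMod P.p) (integralClosure ℤ ℂ ⧸ 𝔪) := ZMod.algebra _ P.p
  obtain ⟨ρ, hatt, -⟩ := h29 hg hp (Ideal.Quotient.mk 𝔪)
  obtain ⟨L₁, hL₁, hρ⟩ := ρ.factorsThroughFiniteLevel
  obtain ⟨L₂, hL₂, hE⟩ := frey_factorsThroughFiniteLevel P
  -- the Galois closure of the compositum
  let L : IntermediateField ℚ Qbar := L₁ ⊔ L₂
  haveI hLfin : FiniteDimensional ℚ L := IntermediateField.finiteDimensional_sup L₁ L₂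
  haveI hQgal : IsGalois ℚ Qbar := Fermat.Agent.H37.isGalois_Qbar
  haveI hQnormal : Normal ℚ Qbar := IsGalois.to_normal
  let F : IntermediateField ℚ Qbar := IntermediateField.normalClosure ℚ L Qbar
  have hLF : L ≤ F := IntermediateField.le_normalClosure L
  haveI hFfin : FiniteDimensional ℚ F := normalClosure.is_finiteDimensional ℚ L Qbar
  haveI hFnormal : Normal ℚ F := normalClosure.normal ℚ L Qbar
  haveI hFnf : NumberField F := ⟨⟩
  haveI hFgal : IsGalois ℚ F := ⟨⟩
  refine ⟨integralClosure ℤ ℂ ⧸ 𝔪, instK, instAlg, ρ.V, inferInstance, inferInstance, ρ.ρ,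
    Ideal.Quotient.mk 𝔪, F, inferInstance, hFnf, hFgal, inferInstance, inferInstance,
    ?_, ?_, ?_, ?_, ?_⟩
  · rw [Ideal.mk_ker]
  · exact ρ.finrank_eq
  · intro σ hσ
    rw [MonoidHom.mem_ker] at hσ
    have hfix : ∀ x ∈ F, σ x = x := by
      intro x hx
      have h1 := AlgEquiv.restrictNormalHom_apply F σ ⟨x, hx⟩
      have h2 := congrArg (fun f : F ≃ₐ[ℚ] F => ((f ⟨x, hx⟩ : F) : Qbar)) hσ
      exact h1.symm.trans h2
    refine Subgroup.mem_inf.mpr ⟨?_, ?_⟩
    · rw [MonoidHom.mem_ker]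
      exact hE σ (fun x hx => hfix x (hLF (le_sup_right (a := L₁) hx)))
    · rw [MonoidHom.mem_ker]
      exact hρ σ (fun x hx => hfix x (hLF (le_sup_left (b := L₂) hx)))
  · intro ℓ hℓ hℓM hℓp A hA τ hτ
    have hℓK : ((ℓ : ℕ) : integralClosure ℤ ℂ ⧸ 𝔪) ≠ 0 := by
      intro h0
      have h1 : P.p ∣ ℓ := (CharP.cast_eq_zero_iff _ P.p ℓ).mp h0
      exact hℓp ((Nat.prime_dvd_prime_iff_eq hp hℓ).mp h1).symm
    obtain ⟨a, ha, hchar⟩ := hatt ℓ hℓ hℓM hℓK A hA τ hτ
    exact ⟨a, ha, (trace_det_of_charpoly_eq ρ.finrank_eq (ρ.ρ τ) _ _ hchar).1⟩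
  · intro ℓ hℓ hℓM hℓp A hA τ hτ
    have hℓK : ((ℓ : ℕ) : integralClosure ℤ ℂ ⧸ 𝔪) ≠ 0 := by
      intro h0
      have h1 : P.p ∣ ℓ := (CharP.cast_eq_zero_iff _ P.p ℓ).mp h0
      exact hℓp ((Nat.prime_dvd_prime_iff_eq hp hℓ).mp h1).symm
    obtain ⟨a, ha, hchar⟩ := hatt ℓ hℓ hℓM hℓK A hA τ hτ
    exact (trace_det_of_charpoly_eq ρ.finrank_eq (ρ.ρ τ) _ _ hchar).2

end Fermat.Agent.H89
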