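import Mathlib.Tactic
import Mathlib.Data.Rat.Defs

/-!
# The algebra behind `X₀(15)` (part (B) of the S51 plan)

Pure field algebra over `ℚ`.  Input: the `b`-invariants of a Weierstrass curve with `Δ ≠ 0`,
a rational root `x₃` of the `3`-division polynomial, and rational `s = x(P) + x(2P)`,
`p = x(P) x(2P)` for a point `P` of order `5` (encoded by the two relations `R1`, `R2`).
Output (given the determination of the rational points on `V² = Z (Z - 9) (Z - 25)`):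
the `j`-invariant `c₄³ / Δ` is one of four explicit rational numbers.
-/

namespace Fermat.Agent.H89

/-- The four `j`-invariants of the non-cuspidal rational points of `X₀(15)`, as pairs
`(numerator, denominator)`. -/
def IsX015JPair (num den : ℚ) : Prop :=
  (num = -25 ∧ den = 2) ∨ (num = -349938025 ∧ den = 8) ∨
    (num = -121945 ∧ den = 32) ∨ (num = 46969655 ∧ den = 32768)

/-- The statement that the affine rational points on `V² = Z (Z - 9) (Z - 25)` have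
`Z ∈ {0, 9, 25, 5, 45}` (part (C) of the plan, proved elsewhere by `2`-descent). -/
def DescentX015 : Prop :=
  ∀ Z V : ℚ, V ^ 2 = Z * (Z - 9) * (Z - 25) → Z = 0 ∨ Z = 9 ∨ Z = 25 ∨ Z = 5 ∨ Z = 45

/-- If `b₄³ = h₀ b₆²` on a curve with `b₈ = 0` (so `b₂ b₆ = b₄²`), then
`j = h₀ (h₀ - 24)³ / (h₀ - 27)`. -/
theorem c4_cube_of_h {b₂ m n h₀ num den : ℚ} (hn : n ≠ 0) (hb : b₂ * n = m ^ 2)
    (hm : m ^ 3 = h₀ * n ^ 2) (hj : h₀ * (h₀ - 24) ^ 3 * den = num * (h₀ - 27)) :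
    (b₂ ^ 2 - 24 * m) ^ 3 * den = num * (m ^ 3 - 27 * n ^ 2) := by
  have hc4 : b₂ ^ 2 - 24 * m = m * (h₀ - 24) := by
    have h : (b₂ ^ 2 - 24 * m) * n ^ 2 = m * (h₀ - 24) * n ^ 2 := by
      linear_combination (b₂ * n + m ^ 2) * hb + m * hm
    exact mul_right_cancel₀ (pow_ne_zero 2 hn) h
  rw [hc4]
  linear_combination ((h₀ - 24) ^ 3 * den - num) * hm + n ^ 2 * hj

/-- Core computation in coordinates where the `3`-torsion point has `x = 0`
(so `b₈ = 0`, `b₂ b₆ = b₄²`, `Δ = b₄³ - 27 b₆²`, `c₄ = b₂² - 24 b₄`). -/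
theorem x015_core (hC : DescentX015) (b₂ m n S P : ℚ) (hb : b₂ * n = m ^ 2)
    (hΔ : m ^ 3 - 27 * n ^ 2 ≠ 0)
    (R1 : S ^ 3 - 6 * P * S - b₂ * P - m * S - n = 0)
    (R2 : 5 * P ^ 2 - P * S ^ 2 - m * P - n * S = 0)
    (hd : S ^ 2 ≠ 4 * P) (hP : P ≠ 0) :
    ∃ num den : ℚ, IsX015JPair num den ∧
      (b₂ ^ 2 - 24 * m) ^ 3 * den = num * (m ^ 3 - 27 * n ^ 2) := by
  -- `n ≠ 0`
  have hn : n ≠ 0 := by
    rintro rfl
    have hm0 : m = 0 := by
      have : m ^ 2 = 0 := by rw [← hb]; ring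
      exact pow_eq_zero_iff (n := 2) (by norm_num) |>.mp this
    exact hΔ (by rw [hm0]; ring)
  have hD : S ^ 2 - 4 * P ≠ 0 := sub_ne_zero.mpr hd
  -- the quadratic relation for `t = 5P - S² - m`
  have hQ : P * (5 * P - S ^ 2 - m) ^ 2 + P * S ^ 2 * (5 * P - S ^ 2 - m)
      + S ^ 2 * (5 * P - S ^ 2) ^ 2 = 0 := by
    have h : P * (P * (5 * P - S ^ 2 - m) ^ 2 + P * S ^ 2 * (5 * P - S ^ 2 - m)
        + S ^ 2 * (5 * P - S ^ 2) ^ 2) = 0 := by
      linear_combination (-S ^ 2 * n) * R1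
        + (-S ^ 4 + 6 * P * S ^ 2 + m * S ^ 2 + P * (5 * P - S ^ 2 - m) + n * S) * R2
        - P * S ^ 2 * hb
    exact (mul_eq_zero.mp h).resolve_left hP
  have hnS : n * S = P * (5 * P - S ^ 2 - m) := by linear_combination -R2
  by_cases hS : S = 0
  · -- the point `Z = 0`: `j = -121945 / 32`
    refine ⟨-121945, 32, Or.inr (Or.inr (Or.inl ⟨rfl, rfl⟩)), ?_⟩
    subst hS
    have hm : m = 5 * P := by
      have h : P * (5 * P - m) = 0 := by linear_combination R2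
      have := (mul_eq_zero.mp h).resolve_left hP
      linear_combination -this
    have hb2 : b₂ * P = -n := by linear_combination -R1
    have hn2 : n ^ 2 = -25 * P ^ 3 := by
      have hb' := hb
      rw [hm] at hb'
      linear_combination n * hb2 - P * hb'
    refine c4_cube_of_h (h₀ := -5) hn hb ?_ (by norm_num)
    rw [hm]; linear_combination (5 : ℚ) * hn2
  · -- `S ≠ 0`: use the descent
    have hY : P * (10 * P - S ^ 2 - 2 * m) ^ 2
        = S ^ 2 * (25 * P - 4 * S ^ 2) * (S ^ 2 - 4 * P) := by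
      linear_combination 4 * hQ
    have hV : (36 * P * (10 * P - S ^ 2 - 2 * m) / (S ^ 2 - 4 * P) ^ 2) ^ 2
        = (9 * S ^ 2 / (S ^ 2 - 4 * P)) * (9 * S ^ 2 / (S ^ 2 - 4 * P) - 9)
          * (9 * S ^ 2 / (S ^ 2 - 4 * P) - 25) := by
      have h1 : 9 * S ^ 2 / (S ^ 2 - 4 * P) - 9 = 36 * P / (S ^ 2 - 4 * P) := by
        field_simp; ring
      have h2 : 9 * S ^ 2 / (S ^ 2 - 4 * P) - 25
          = 4 * (25 * P - 4 * S ^ 2) / (S ^ 2 - 4 * P) := by
        field_simp; ring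
      rw [h1, h2, div_pow, div_mul_div_comm, div_mul_div_comm,
        div_eq_div_iff (pow_ne_zero _ (pow_ne_zero _ hD)) (mul_ne_zero (mul_ne_zero hD hD) hD)]
      linear_combination (1296 * P * (S ^ 2 - 4 * P) ^ 3) * hY
    rcases hC _ _ hV with hZ | hZ | hZ | hZ | hZ
    · -- `Z = 0`
      exfalso
      rw [div_eq_zero_iff] at hZ
      rcases hZ with hZ | hZ
      · exact hS (by
          have : S ^ 2 = 0 := by linear_combination hZ / 9
          exact pow_eq_zero_iff (n := 2) (by norm_num) |>.mp this)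
      · exact hD hZ
    · -- `Z = 9`
      exfalso
      rw [div_eq_iff hD] at hZ
      exact hP (by linear_combination hZ / 36)
    · -- `Z = 25`: `j = 46969655 / 32768`
      rw [div_eq_iff hD] at hZ
      have hP' : P = 4 * S ^ 2 / 25 := by linear_combination hZ / 100
      have hY0 : 10 * P - S ^ 2 - 2 * m = 0 := by
        have h : P * (10 * P - S ^ 2 - 2 * m) ^ 2 = 0 := by
          rw [hY]; rw [hP']; ring
        have := (mul_eq_zero.mp h).resolve_left hP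
        exact pow_eq_zero_iff (n := 2) (by norm_num) |>.mp this
      have hm : m = 3 * S ^ 2 / 10 := by linear_combination -hY0 / 2 + 5 * hP'
      have hn' : n = -2 * S ^ 3 / 25 := by
        have h : n * S = (-2 * S ^ 3 / 25) * S := by
          rw [hnS, hm, hP']; ring
        exact mul_right_cancel₀ hS h
      refine ⟨46969655, 32768, Or.inr (Or.inr (Or.inr ⟨rfl, rfl⟩)), ?_⟩
      refine c4_cube_of_h (h₀ := 135 / 32) hn hb ?_ (by norm_num)
      rw [hm, hn']; ring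
    · -- `Z = 5`: cusp or `j = -349938025 / 8`
      rw [div_eq_iff hD] at hZ
      have hS2 : S ^ 2 = -5 * P := by linear_combination hZ / 4
      have hfac : ((5 * P - S ^ 2 - m) - 25 * P) * ((5 * P - S ^ 2 - m) + 20 * P) = 0 := by
        have h : P * (((5 * P - S ^ 2 - m) - 25 * P) * ((5 * P - S ^ 2 - m) + 20 * P)) = 0 := by
          linear_combination hQ - (P * (5 * P - S ^ 2 - m) + S ^ 4 - 15 * P * S ^ 2
            + 100 * P ^ 2) * hS2
        exact (mul_eq_zero.mp h).resolve_left hP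
      have hn2 : n ^ 2 * (-5 * P) = P ^ 2 * (5 * P - S ^ 2 - m) ^ 2 := by
        rw [← hS2]; linear_combination (n * S + P * (5 * P - S ^ 2 - m)) * hnS
      rcases mul_eq_zero.mp hfac with ht | ht
      · -- `t = 25 P`: `Δ = 0`
        exfalso
        have hm : m = -15 * P := by linear_combination -ht - hS2
        have hn3 : n ^ 2 = -125 * P ^ 3 := by
          have h : P * (n ^ 2 + 125 * P ^ 3) = 0 := by
            have ht' : 5 * P - S ^ 2 - m = 25 * P := by linear_combination ht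
            rw [ht'] at hn2
            linear_combination -hn2 / 5
          have := (mul_eq_zero.mp h).resolve_left hP
          linear_combination this
        exact hΔ (by rw [hm]; linear_combination (-27 : ℚ) * hn3)
      · -- `t = -20 P`
        have hm : m = 30 * P := by linear_combination -ht - hS2
        have hn3 : n ^ 2 = -80 * P ^ 3 := by
          have h : P * (n ^ 2 + 80 * P ^ 3) = 0 := by
            have ht' : 5 * P - S ^ 2 - m = -20 * P := by linear_combination ht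
            rw [ht'] at hn2
            linear_combination -hn2 / 5
          have := (mul_eq_zero.mp h).resolve_left hP
          linear_combination this
        refine ⟨-349938025, 8, Or.inr (Or.inl ⟨rfl, rfl⟩), ?_⟩
        refine c4_cube_of_h (h₀ := -675 / 2) hn hb ?_ (by norm_num)
        rw [hm]; linear_combination (675 / 2 : ℚ) * hn3
    · -- `Z = 45`: cusp or `j = -25 / 2`
      rw [div_eq_iff hD] at hZ
      have hS2 : S ^ 2 = 5 * P := by linear_combination -hZ / 36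
      have hfac : (5 * P - S ^ 2 - m) * ((5 * P - S ^ 2 - m) + S ^ 2) = 0 := by
        have h : P * ((5 * P - S ^ 2 - m) * ((5 * P - S ^ 2 - m) + S ^ 2)) = 0 := by
          linear_combination hQ + (S ^ 2 * (5 * P - S ^ 2)) * hS2
        exact (mul_eq_zero.mp h).resolve_left hP
      rcases mul_eq_zero.mp hfac with ht | ht
      · -- `t = 0`: `n = 0`
        exfalso
        have h : n * S = 0 := by rw [hnS, ht]; ring
        exact hn ((mul_eq_zero.mp h).resolve_right hS)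
      · -- `t = -S²`
        have hm : m = S ^ 2 := by linear_combination -ht - hS2
        have hP' : P = S ^ 2 / 5 := by linear_combination -hS2 / 5
        have hn' : n = -S ^ 3 / 5 := by
          have h : n * S = (-S ^ 3 / 5) * S := by
            rw [hnS, hm, hP']; ring
          exact mul_right_cancel₀ hS h
        refine ⟨-25, 2, Or.inl ⟨rfl, rfl⟩, ?_⟩
        refine c4_cube_of_h (h₀ := 25) hn hb ?_ (by norm_num)
        rw [hm, hn']; ring


/-- Part (B) of the S51 plan, in arbitrary coordinates.  `b₂, b₄, b₆, b₈` are the `b`-invariants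
of a Weierstrass curve over `ℚ` with `Δ ≠ 0`, `x₃` is a rational root of the `3`-division
polynomial, and `s`, `p` satisfy the two relations `R1`, `R2` expressing that
`X² - s X + p` is the kernel polynomial of a subgroup of order `5`. -/
theorem x015_general (hC : DescentX015) (b₂ b₄ b₆ b₈ x₃ s p : ℚ)
    (hb : 4 * b₈ = b₂ * b₆ - b₄ ^ 2)
    (hΔ : -b₂ ^ 2 * b₈ - 8 * b₄ ^ 3 - 27 * b₆ ^ 2 + 9 * b₂ * b₄ * b₆ ≠ 0)
    (h3 : 3 * x₃ ^ 4 + b₂ * x₃ ^ 3 + 3 * b₄ * x₃ ^ 2 + 3 * b₆ * x₃ + b₈ = 0)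
    (R1 : s ^ 3 - 6 * p * s - b₂ * p - b₄ * s - b₆ = 0)
    (R2 : 5 * p ^ 2 - p * s ^ 2 - b₄ * p - b₆ * s - b₈ = 0)
    (hd : s ^ 2 ≠ 4 * p) (hp : x₃ ^ 2 - s * x₃ + p ≠ 0) :
    ∃ num den : ℚ, IsX015JPair num den ∧
      (b₂ ^ 2 - 24 * b₄) ^ 3 * den
        = num * (-b₂ ^ 2 * b₈ - 8 * b₄ ^ 3 - 27 * b₆ ^ 2 + 9 * b₂ * b₄ * b₆) := by
  have hΔeq : (b₄ + b₂ * x₃ + 6 * x₃ ^ 2) ^ 3
      - 27 * (b₆ + 2 * b₄ * x₃ + b₂ * x₃ ^ 2 + 4 * x₃ ^ 3) ^ 2
      = -b₂ ^ 2 * b₈ - 8 * b₄ ^ 3 - 27 * b₆ ^ 2 + 9 * b₂ * b₄ * b₆ := by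
    linear_combination (-6 * x₃ * (b₂ + 6 * x₃) + 9 * (b₄ + b₂ * x₃ + 6 * x₃ ^ 2)) * hb
      + ((b₂ + 12 * x₃) ^ 2 - 36 * (b₄ + b₂ * x₃ + 6 * x₃ ^ 2)) * h3
  have hc4 : (b₂ + 12 * x₃) ^ 2 - 24 * (b₄ + b₂ * x₃ + 6 * x₃ ^ 2) = b₂ ^ 2 - 24 * b₄ := by
    ring
  obtain ⟨num, den, hpair, hj⟩ := x015_core hC (b₂ + 12 * x₃) (b₄ + b₂ * x₃ + 6 * x₃ ^ 2)
    (b₆ + 2 * b₄ * x₃ + b₂ * x₃ ^ 2 + 4 * x₃ ^ 3) (s - 2 * x₃) (x₃ ^ 2 - s * x₃ + p)
    (by linear_combination 4 * h3 - hb)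
    (by rw [hΔeq]; exact hΔ)
    (by linear_combination R1)
    (by linear_combination R2 + x₃ * R1 + h3)
    (by intro h; exact hd (by linear_combination h))
    hp
  exact ⟨num, den, hpair, by rw [← hΔeq, ← hc4]; exact hj⟩

/-- The relations `R1`, `R2` satisfied by `s = x₁ + x₂`, `p = x₁ x₂` when `x₁ ≠ x₂` are exchanged
by the duplication map `x ↦ Φ₂(x) / Ψ₂Sq(x)` (i.e. `x₁ = x(P)`, `x₂ = x(2P)`, `5 P = 0`).
Stated over an extension field `K` of `F`, with `s`, `p`, and the `b`-invariants in `F`. -/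
theorem kernel_relations_of_duplication {F K : Type*} [Field F] [Field K] [Algebra F K]
    (b₂ b₄ b₆ b₈ s p : F) (x₁ x₂ : K) (hne : x₁ ≠ x₂)
    (h12 : x₂ * (4 * x₁ ^ 3 + algebraMap F K b₂ * x₁ ^ 2 + 2 * algebraMap F K b₄ * x₁
        + algebraMap F K b₆)
      = x₁ ^ 4 - algebraMap F K b₄ * x₁ ^ 2 - 2 * algebraMap F K b₆ * x₁ - algebraMap F K b₈)
    (h21 : x₁ * (4 * x₂ ^ 3 + algebraMap F K b₂ * x₂ ^ 2 + 2 * algebraMap F K b₄ * x₂
        + algebraMap F K b₆)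
      = x₂ ^ 4 - algebraMap F K b₄ * x₂ ^ 2 - 2 * algebraMap F K b₆ * x₂ - algebraMap F K b₈)
    (hs : algebraMap F K s = x₁ + x₂) (hp : algebraMap F K p = x₁ * x₂) :
    (s ^ 3 - 6 * p * s - b₂ * p - b₄ * s - b₆ = 0) ∧
      (2 * (5 * p ^ 2 - p * s ^ 2 - b₄ * p - b₆ * s - b₈) = 0) := by
  have hinj : Function.Injective (algebraMap F K) := (algebraMap F K).injective
  have hx : x₁ - x₂ ≠ 0 := sub_ne_zero.mpr hne
  have R1K : (x₁ + x₂) ^ 3 - 6 * (x₁ * x₂) * (x₁ + x₂) - algebraMap F K b₂ * (x₁ * x₂)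
      - algebraMap F K b₄ * (x₁ + x₂) - algebraMap F K b₆ = 0 := by
    have h : (x₁ - x₂) * ((x₁ + x₂) ^ 3 - 6 * (x₁ * x₂) * (x₁ + x₂)
        - algebraMap F K b₂ * (x₁ * x₂) - algebraMap F K b₄ * (x₁ + x₂)
        - algebraMap F K b₆) = 0 := by
      linear_combination h21 - h12
    exact (mul_eq_zero.mp h).resolve_left hx
  have R2K : 2 * (5 * (x₁ * x₂) ^ 2 - (x₁ * x₂) * (x₁ + x₂) ^ 2 - algebraMap F K b₄ * (x₁ * x₂)
      - algebraMap F K b₆ * (x₁ + x₂) - algebraMap F K b₈) = 0 := by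
    linear_combination (-1 : K) * h12 - h21 - (x₁ + x₂) * R1K
  constructor
  · apply hinj
    simp only [map_sub, map_mul, map_pow, map_ofNat, map_zero, hs, hp]
    exact R1K
  · apply hinj
    simp only [map_sub, map_mul, map_pow, map_ofNat, map_zero, hs, hp]
    exact R2K

/-- If `x₁ ≠ x₂` and `x₂ = Φ₂(x₁) / Ψ₂Sq(x₁)` then `x₁` is not a root of `Ψ₃ = X Ψ₂Sq - Φ₂`,
provided `Ψ₂Sq(x₁) ≠ 0`. -/
theorem psi3_ne_zero_of_duplication {K : Type*} [Field K] (b₂ b₄ b₆ b₈ x₁ x₂ : K) (hne : x₁ ≠ x₂)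
    (hΨ : 4 * x₁ ^ 3 + b₂ * x₁ ^ 2 + 2 * b₄ * x₁ + b₆ ≠ 0)
    (h12 : x₂ * (4 * x₁ ^ 3 + b₂ * x₁ ^ 2 + 2 * b₄ * x₁ + b₆)
      = x₁ ^ 4 - b₄ * x₁ ^ 2 - 2 * b₆ * x₁ - b₈) :
    3 * x₁ ^ 4 + b₂ * x₁ ^ 3 + 3 * b₄ * x₁ ^ 2 + 3 * b₆ * x₁ + b₈ ≠ 0 := by
  intro h
  have h' : (x₁ - x₂) * (4 * x₁ ^ 3 + b₂ * x₁ ^ 2 + 2 * b₄ * x₁ + b₆) = 0 := by
    linear_combination h - h12
  rcases mul_eq_zero.mp h' with h'' | h''
  · exact hne (sub_eq_zero.mp h'')
  · exact hΨ h''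

end Fermat.Agent.H89
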