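import Mathlib.AlgebraicGeometry.EllipticCurve.Weierstrass
import Fermat.Prelude.Def_FLTPrelim_Modularity

/-!
# A semistable integral Weierstrass model cannot have `0 < v₅(j)` with `3 ∤ v₅(j)`

For a semistable integral model `W` (i.e. `p ∣ Δ → ¬ p ∣ c₄`) with `Δ ≠ 0`, write
`j = c₄ ^ 3 / Δ = num / den`.  If `5 ∣ num`, `¬ 125 ∣ num` and `¬ 5 ∣ den` then we get a
contradiction: `5 ∣ c₄`, hence `5 ∤ Δ`, hence `125 ∣ c₄ ^ 3 * den = num * Δ`, so `125 ∣ num`.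
-/

namespace Fermat.Agent.H89

open WeierstrassCurve

/-- Generic version for an arbitrary prime `q`. -/
theorem false_of_semistable_of_j_val {q : ℕ} (hq : q.Prime) (W : WeierstrassCurve ℤ)
    (hW : W.IsSemistableModel) (num den : ℤ)
    (hnum : (q : ℤ) ∣ num) (hnum3 : ¬ (q : ℤ) ^ 3 ∣ num) (hden : ¬ (q : ℤ) ∣ den)
    (hj : W.c₄ ^ 3 * den = num * W.Δ) : False := by
  have hqp : Prime (q : ℤ) := Nat.prime_iff_prime_int.mp hq
  -- `q ∣ c₄`
  have h1 : (q : ℤ) ∣ W.c₄ ^ 3 * den := hj ▸ Dvd.dvd.mul_right hnum _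
  have hc4 : (q : ℤ) ∣ W.c₄ := by
    rcases hqp.dvd_or_dvd h1 with h | h
    · exact hqp.dvd_of_dvd_pow h
    · exact absurd h hden
  -- hence `q ∤ Δ`
  have hΔ : ¬ (q : ℤ) ∣ W.Δ := fun h => hW q hq h hc4
  -- `q ^ 3 ∣ num * Δ`
  have h3 : (q : ℤ) ^ 3 ∣ num * W.Δ := by
    rw [← hj]
    exact Dvd.dvd.mul_right (pow_dvd_pow_of_dvd hc4 3) _
  -- so `q ^ 3 ∣ num`
  have hcop : IsCoprime ((q : ℤ) ^ 3) W.Δ :=
    IsCoprime.pow_left ((Prime.coprime_iff_not_dvd hqp).mpr hΔ)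
  exact hnum3 (hcop.dvd_of_dvd_mul_right h3)

/-- The four non-cuspidal rational points of `X₀(15)` have `j`-invariants
`-25/2`, `-349938025/8`, `-121945/32`, `46969655/32768`; none of them is the `j`-invariant of a
semistable integral model. Here `j = num / den` is encoded by `c₄ ^ 3 * den = num * Δ`. -/
theorem false_of_semistable_of_j_X015 (W : WeierstrassCurve ℤ)
    (hW : W.IsSemistableModel) (num den : ℤ)
    (hjval : (num = -25 ∧ den = 2) ∨ (num = -349938025 ∧ den = 8) ∨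
      (num = -121945 ∧ den = 32) ∨ (num = 46969655 ∧ den = 32768))
    (hj : W.c₄ ^ 3 * den = num * W.Δ) : False := by
  refine false_of_semistable_of_j_val (q := 5) Nat.prime_five W hW num den ?_ ?_ ?_ hj
  · rcases hjval with ⟨rfl, -⟩ | ⟨rfl, -⟩ | ⟨rfl, -⟩ | ⟨rfl, -⟩ <;> norm_num
  · rcases hjval with ⟨rfl, -⟩ | ⟨rfl, -⟩ | ⟨rfl, -⟩ | ⟨rfl, -⟩ <;> norm_num
  · rcases hjval with ⟨-, rfl⟩ | ⟨-, rfl⟩ | ⟨-, rfl⟩ | ⟨-, rfl⟩ <;> norm_num

end Fermat.Agent.H89
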