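import Mathlib.AlgebraicGeometry.EllipticCurve.DivisionPolynomial.Basic
import Fermat.Prelude.Def_FLTPrelim_Modularity
import Fermat.Agent.H89.JInvariantObstruction
import Fermat.Agent.H89.X015Algebra

/-!
# S51, parts (B) + (D) assembled

A semistable integral Weierstrass model `W` with `Δ ≠ 0` cannot carry simultaneously

* a rational root `x₃` of its `3`-division polynomial, and
* two distinct elements `x₁, x₂` of an extension field `K` exchanged by the duplication map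
  `x ↦ Φ₂(x) / Ψ₂Sq(x)` whose sum and product are rational,

provided the rational points of `V² = Z (Z - 9) (Z - 25)` are the expected ones
(`DescentX015`, part (C)).
-/

namespace Fermat.Agent.H89

open WeierstrassCurve

/-- Pure `ℚ`-version: rational `x₃`, `s`, `p` with the relations `R1`, `R2`. -/
theorem false_of_semistable_of_relations (hC : DescentX015) (W : WeierstrassCurve ℤ)
    (hΔ : W.Δ ≠ 0) (hW : W.IsSemistableModel) (x₃ s p : ℚ)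
    (h3 : 3 * x₃ ^ 4 + (W.b₂ : ℚ) * x₃ ^ 3 + 3 * (W.b₄ : ℚ) * x₃ ^ 2 + 3 * (W.b₆ : ℚ) * x₃
      + (W.b₈ : ℚ) = 0)
    (R1 : s ^ 3 - 6 * p * s - (W.b₂ : ℚ) * p - (W.b₄ : ℚ) * s - (W.b₆ : ℚ) = 0)
    (R2 : 5 * p ^ 2 - p * s ^ 2 - (W.b₄ : ℚ) * p - (W.b₆ : ℚ) * s - (W.b₈ : ℚ) = 0)
    (hd : s ^ 2 ≠ 4 * p) (hp : x₃ ^ 2 - s * x₃ + p ≠ 0) : False := by
  have hb : 4 * (W.b₈ : ℚ) = (W.b₂ : ℚ) * (W.b₆ : ℚ) - (W.b₄ : ℚ) ^ 2 := by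
    have := W.b_relation
    exact_mod_cast this
  have hΔeq : ((W.Δ : ℤ) : ℚ) = -(W.b₂ : ℚ) ^ 2 * (W.b₈ : ℚ) - 8 * (W.b₄ : ℚ) ^ 3
      - 27 * (W.b₆ : ℚ) ^ 2 + 9 * (W.b₂ : ℚ) * (W.b₄ : ℚ) * (W.b₆ : ℚ) := by
    rw [WeierstrassCurve.Δ]; push_cast; ring
  have hc4eq : ((W.c₄ : ℤ) : ℚ) = (W.b₂ : ℚ) ^ 2 - 24 * (W.b₄ : ℚ) := by
    rw [WeierstrassCurve.c₄]; push_cast; ring
  have hΔ' : -(W.b₂ : ℚ) ^ 2 * (W.b₈ : ℚ) - 8 * (W.b₄ : ℚ) ^ 3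
      - 27 * (W.b₆ : ℚ) ^ 2 + 9 * (W.b₂ : ℚ) * (W.b₄ : ℚ) * (W.b₆ : ℚ) ≠ 0 := by
    rw [← hΔeq]; exact_mod_cast hΔ
  obtain ⟨num, den, hpair, hj⟩ := x015_general hC _ _ _ _ x₃ s p hb hΔ' h3 R1 R2 hd hp
  rw [← hΔeq, ← hc4eq] at hj
  rcases hpair with ⟨rfl, rfl⟩ | ⟨rfl, rfl⟩ | ⟨rfl, rfl⟩ | ⟨rfl, rfl⟩
  · exact false_of_semistable_of_j_X015 W hW (-25) 2 (Or.inl ⟨rfl, rfl⟩) (by exact_mod_cast hj)
  · exact false_of_semistable_of_j_X015 W hW (-349938025) 8 (Or.inr (Or.inl ⟨rfl, rfl⟩))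
      (by exact_mod_cast hj)
  · exact false_of_semistable_of_j_X015 W hW (-121945) 32 (Or.inr (Or.inr (Or.inl ⟨rfl, rfl⟩)))
      (by exact_mod_cast hj)
  · exact false_of_semistable_of_j_X015 W hW 46969655 32768 (Or.inr (Or.inr (Or.inr ⟨rfl, rfl⟩)))
      (by exact_mod_cast hj)

/-- Version with the `5`-torsion data living in an extension field `K` of `ℚ`:
`x₁ = x(P)`, `x₂ = x(2P)` are exchanged by the duplication map and have rational sum and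
product. -/
theorem false_of_semistable_of_torsion_data (hC : DescentX015) (W : WeierstrassCurve ℤ)
    (hΔ : W.Δ ≠ 0) (hW : W.IsSemistableModel) {K : Type*} [Field K] [Algebra ℚ K]
    (x₃ : ℚ)
    (h3 : 3 * x₃ ^ 4 + (W.b₂ : ℚ) * x₃ ^ 3 + 3 * (W.b₄ : ℚ) * x₃ ^ 2 + 3 * (W.b₆ : ℚ) * x₃
      + (W.b₈ : ℚ) = 0)
    (x₁ x₂ : K) (hne : x₁ ≠ x₂)
    (hΨ₁ : 4 * x₁ ^ 3 + (W.b₂ : K) * x₁ ^ 2 + 2 * (W.b₄ : K) * x₁ + (W.b₆ : K) ≠ 0)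
    (hΨ₂ : 4 * x₂ ^ 3 + (W.b₂ : K) * x₂ ^ 2 + 2 * (W.b₄ : K) * x₂ + (W.b₆ : K) ≠ 0)
    (h12 : x₂ * (4 * x₁ ^ 3 + (W.b₂ : K) * x₁ ^ 2 + 2 * (W.b₄ : K) * x₁ + (W.b₆ : K))
      = x₁ ^ 4 - (W.b₄ : K) * x₁ ^ 2 - 2 * (W.b₆ : K) * x₁ - (W.b₈ : K))
    (h21 : x₁ * (4 * x₂ ^ 3 + (W.b₂ : K) * x₂ ^ 2 + 2 * (W.b₄ : K) * x₂ + (W.b₆ : K))
      = x₂ ^ 4 - (W.b₄ : K) * x₂ ^ 2 - 2 * (W.b₆ : K) * x₂ - (W.b₈ : K))
    (s p : ℚ) (hs : algebraMap ℚ K s = x₁ + x₂) (hp : algebraMap ℚ K p = x₁ * x₂) : False := by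
  have hinj : Function.Injective (algebraMap ℚ K) := (algebraMap ℚ K).injective
  have cast_eq : ∀ n : ℤ, algebraMap ℚ K (n : ℚ) = (n : K) := fun n => map_intCast _ n
  obtain ⟨R1, R2⟩ := kernel_relations_of_duplication (F := ℚ) (K := K)
    (W.b₂ : ℚ) (W.b₄ : ℚ) (W.b₆ : ℚ) (W.b₈ : ℚ) s p x₁ x₂ hne
    (by simpa only [cast_eq] using h12) (by simpa only [cast_eq] using h21) hs hp
  have R2' : 5 * p ^ 2 - p * s ^ 2 - (W.b₄ : ℚ) * p - (W.b₆ : ℚ) * s - (W.b₈ : ℚ) = 0 := by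
    linear_combination R2 / 2
  have hΨ3₁ := psi3_ne_zero_of_duplication (W.b₂ : K) (W.b₄ : K) (W.b₆ : K) (W.b₈ : K)
    x₁ x₂ hne hΨ₁ h12
  have hΨ3₂ := psi3_ne_zero_of_duplication (W.b₂ : K) (W.b₄ : K) (W.b₆ : K) (W.b₈ : K)
    x₂ x₁ (Ne.symm hne) hΨ₂ h21
  have h3K : 3 * (algebraMap ℚ K x₃) ^ 4 + (W.b₂ : K) * (algebraMap ℚ K x₃) ^ 3
      + 3 * (W.b₄ : K) * (algebraMap ℚ K x₃) ^ 2 + 3 * (W.b₆ : K) * (algebraMap ℚ K x₃)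
      + (W.b₈ : K) = 0 := by
    have := congrArg (algebraMap ℚ K) h3
    simpa only [map_add, map_mul, map_pow, map_ofNat, map_zero, cast_eq] using this
  refine false_of_semistable_of_relations hC W hΔ hW x₃ s p h3 R1 R2' ?_ ?_
  · -- `s² ≠ 4p` since `x₁ ≠ x₂`
    intro h
    have hK : (x₁ - x₂) ^ 2 = 0 := by
      have := congrArg (algebraMap ℚ K) h
      simp only [map_mul, map_pow, map_ofNat, hs, hp] at this
      linear_combination this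
    exact hne (sub_eq_zero.mp (pow_eq_zero_iff (n := 2) (by norm_num) |>.mp hK))
  · -- `x₃ ≠ x₁, x₂`
    intro h
    have hK : (algebraMap ℚ K x₃ - x₁) * (algebraMap ℚ K x₃ - x₂) = 0 := by
      have := congrArg (algebraMap ℚ K) h
      simp only [map_add, map_sub, map_mul, map_pow, map_zero, hs, hp] at this
      linear_combination this
    rcases mul_eq_zero.mp hK with h1 | h1
    · rw [sub_eq_zero.mp h1] at h3K
      exact hΨ3₁ h3K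
    · rw [sub_eq_zero.mp h1] at h3K
      exact hΨ3₂ h3K

end Fermat.Agent.H89
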