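import Fermat.Agent.H89.S14LocalLemma
import Fermat.Agent.H53.S14T.KummerDatum
import Fermat.Agent.H49.S14.CycloLocal
import Fermat.Agent.H39.S14TG45

/-!
# P-S14, block T, row T-L: the local lemma at `p`, closed form (second route)
-/

set_option autoImplicit false

namespace Fermat.Agent.H89

/-- **T-L**, closed form: the local lemma at `p` (independent of `Fermat.Agent.H81.localLemma`). -/
theorem localLemmaStatement_closed : Fermat.Agent.H13.LocalLemmaStatement :=
  localLemma_of_parts Fermat.Agent.H49.cycloLocal Fermat.Agent.H53.moveStatement
    Fermat.Agent.H39.fixedFieldStatement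

end Fermat.Agent.H89
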